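/-
S56 / [P-TAN] (helper11): **first-order deformations in matrix form and their cocycles**.

`k` a field, `k[ε] = DualNumber k`, `r : GQ →* M₂(k[ε])`. Write `r σ = r̄ σ + ε · b σ`
(`r̄ = rfst r`, `b = rsnd r`) and `c σ := b σ · (r̄ σ)⁻¹ = tanCocycle r σ`.

* `tanCocycle_mul` : `c (σ τ) = c σ + r̄ σ · c τ · (r̄ σ)⁻¹` (a 1-cocycle for the adjoint action);
* `tanCocycle_eq_zero_of_eq_one` : `r σ = 1 → c σ = 0` (unramified primes / inertia);
* `snd_det_eq` : `(det (r σ)).snd = det (r̄ σ) * trace (c σ)` (fixed determinant ⟺ trace zero);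
* `exists_conj_of_cohomologous` : same reduction and cohomologous cocycles ⟹ conjugate by
  `1 + εX` ⟹ (`isEquiv_of_cohomologous`) equivalent `GaloisRepAdic`s; converse
  `cohomologous_of_conj`;
* `exists_levelConstant` : `MatCont r` ⟹ `c (g s) = c g` for `s` fixing a finite extension `L`;
* `exists_matrix_of_residual` : a lift of `ρbar` in the shape of `DeformationRingData.universal`
  has a matrix form reducing to the matrices of `ρbar` in a given basis.
-/
import Fermat.Agent.GP.Tan.UnivInj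
import Fermat.Prelude.Def_GaloisRep_LocalConditions

set_option autoImplicit false
set_option linter.unusedSectionVars false
set_option linter.style.haveILetI false

namespace Fermat.Agent.GP.Tan.Cocycle

open IsLocalRing Fermat.Agent.S53_helper35 Matrix

variable {k : Type} [Field k]

/-! ### matrices over the dual numbers -/

section Mat

/-- the matrix `M̄ + ε B` -/
def mkMat (M B : Matrix (Fin 2) (Fin 2) k) : Matrix (Fin 2) (Fin 2) (DualNumber k) :=
  Matrix.of fun i j => TrivSqZeroExt.inl (M i j) + TrivSqZeroExt.inr (B i j)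

/-- entrywise `k`-component -/
def mfst (M : Matrix (Fin 2) (Fin 2) (DualNumber k)) : Matrix (Fin 2) (Fin 2) k :=
  M.map TrivSqZeroExt.fst

/-- entrywise `ε`-component -/
def msnd (M : Matrix (Fin 2) (Fin 2) (DualNumber k)) : Matrix (Fin 2) (Fin 2) k :=
  M.map TrivSqZeroExt.snd

@[simp] theorem mfst_apply (M : Matrix (Fin 2) (Fin 2) (DualNumber k)) (i j : Fin 2) :
    mfst M i j = (M i j).fst := rfl

@[simp] theorem msnd_apply (M : Matrix (Fin 2) (Fin 2) (DualNumber k)) (i j : Fin 2) :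
    msnd M i j = (M i j).snd := rfl

theorem mat_ext {M N : Matrix (Fin 2) (Fin 2) (DualNumber k)} (h1 : mfst M = mfst N)
    (h2 : msnd M = msnd N) : M = N := by
  ext i j
  · exact congrFun (congrFun h1 i) j
  · exact congrFun (congrFun h2 i) j

@[simp] theorem mfst_mkMat (M B : Matrix (Fin 2) (Fin 2) k) : mfst (mkMat M B) = M := by
  ext i j
  simp [mkMat]

@[simp] theorem msnd_mkMat (M B : Matrix (Fin 2) (Fin 2) k) : msnd (mkMat M B) = B := by
  ext i j
  simp [mkMat]

@[simp] theorem mfst_one : mfst (1 : Matrix (Fin 2) (Fin 2) (DualNumber k)) = 1 := by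
  ext i j
  by_cases h : i = j
  · subst h; simp
  · simp [Matrix.one_apply_ne h]

@[simp] theorem msnd_one : msnd (1 : Matrix (Fin 2) (Fin 2) (DualNumber k)) = 0 := by
  ext i j
  by_cases h : i = j
  · subst h; simp
  · simp [Matrix.one_apply_ne h]

theorem mfst_mul (M N : Matrix (Fin 2) (Fin 2) (DualNumber k)) :
    mfst (M * N) = mfst M * mfst N := by
  ext i j
  simp [Matrix.mul_apply, Fin.sum_univ_two]

theorem msnd_mul (M N : Matrix (Fin 2) (Fin 2) (DualNumber k)) :
    msnd (M * N) = mfst M * msnd N + msnd M * mfst N := by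
  ext i j
  simp only [msnd_apply, mfst_apply, Matrix.mul_apply, Fin.sum_univ_two, Matrix.add_apply,
    TrivSqZeroExt.snd_add, TrivSqZeroExt.snd_mul, smul_eq_mul, MulOpposite.smul_eq_mul_unop,
    MulOpposite.unop_op]
  ring

theorem mfst_sub (M N : Matrix (Fin 2) (Fin 2) (DualNumber k)) :
    mfst (M - N) = mfst M - mfst N := by
  ext i j
  simp

theorem msnd_sub (M N : Matrix (Fin 2) (Fin 2) (DualNumber k)) :
    msnd (M - N) = msnd M - msnd N := by
  ext i j
  simp

/-- `ε`-component of a `2 × 2` determinant. -/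
theorem snd_det (M : Matrix (Fin 2) (Fin 2) (DualNumber k)) :
    (M.det).snd = Matrix.trace (msnd M * (mfst M).adjugate) := by
  rw [Matrix.det_fin_two, Matrix.adjugate_fin_two, Matrix.trace_fin_two]
  simp only [TrivSqZeroExt.snd_sub, TrivSqZeroExt.snd_mul, smul_eq_mul,
    MulOpposite.smul_eq_mul_unop, MulOpposite.unop_op, Matrix.mul_apply, Fin.sum_univ_two,
    msnd_apply, mfst_apply, Matrix.of_apply, Matrix.cons_val', Matrix.cons_val_zero,
    Matrix.cons_val_one, Matrix.empty_val', Matrix.cons_val_fin_one]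
  ring

theorem fst_det (M : Matrix (Fin 2) (Fin 2) (DualNumber k)) :
    (M.det).fst = (mfst M).det := by
  rw [Matrix.det_fin_two, Matrix.det_fin_two]
  simp

end Mat

/-! ### the cocycle of a first-order deformation -/

section Coc

variable (r : GQ →* Matrix (Fin 2) (Fin 2) (DualNumber k))

/-- reduction modulo `ε` of a matrix representation over `k[ε]` -/
noncomputable def rfst : GQ →* Matrix (Fin 2) (Fin 2) k where
  toFun σ := mfst (r σ)
  map_one' := by rw [map_one, mfst_one]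
  map_mul' σ τ := by rw [map_mul, mfst_mul]

/-- the `ε`-part of a matrix representation over `k[ε]` -/
noncomputable def rsnd (σ : GQ) : Matrix (Fin 2) (Fin 2) k := msnd (r σ)

@[simp] theorem rfst_apply (σ : GQ) : rfst r σ = mfst (r σ) := rfl

theorem rsnd_mul (σ τ : GQ) : rsnd r (σ * τ) = rfst r σ * rsnd r τ + rsnd r σ * rfst r τ := by
  rw [rsnd, map_mul, msnd_mul]
  rfl

theorem rfst_mul_inv (σ : GQ) : rfst r σ * rfst r σ⁻¹ = 1 := by
  rw [← map_mul, mul_inv_cancel, map_one]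

theorem rfst_inv_mul (σ : GQ) : rfst r σ⁻¹ * rfst r σ = 1 := by
  rw [← map_mul, inv_mul_cancel, map_one]

/-- `rfst` is `mapMat` along the projection `k[ε] → k`. -/
theorem rfst_eq_mapMat :
    rfst r = mapMat ((TrivSqZeroExt.fstHom k k k : DualNumber k →ₐ[k] k) : DualNumber k →+* k) r :=
  rfl

/-- **the tangent cocycle** `c σ = b σ · (r̄ σ)⁻¹` of `r = r̄ + ε b`. -/
noncomputable def tanCocycle (σ : GQ) : Matrix (Fin 2) (Fin 2) k := rsnd r σ * rfst r σ⁻¹

/-- the cocycle identity for the adjoint action of `r̄`. -/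
theorem tanCocycle_mul (σ τ : GQ) :
    tanCocycle r (σ * τ) = tanCocycle r σ + rfst r σ * tanCocycle r τ * rfst r σ⁻¹ := by
  unfold tanCocycle
  rw [rsnd_mul, _root_.mul_inv_rev, map_mul, Matrix.add_mul]
  have h1 : rsnd r σ * rfst r τ * (rfst r τ⁻¹ * rfst r σ⁻¹) = rsnd r σ * rfst r σ⁻¹ := by
    rw [Matrix.mul_assoc, ← Matrix.mul_assoc (rfst r τ), rfst_mul_inv, Matrix.one_mul]
  have h2 : rfst r σ * rsnd r τ * (rfst r τ⁻¹ * rfst r σ⁻¹) =
      rfst r σ * (rsnd r τ * rfst r τ⁻¹) * rfst r σ⁻¹ := by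
    simp only [Matrix.mul_assoc]
  rw [h1, h2, add_comm]

theorem rsnd_eq_tanCocycle_mul (σ : GQ) : rsnd r σ = tanCocycle r σ * rfst r σ := by
  unfold tanCocycle
  rw [Matrix.mul_assoc, rfst_inv_mul, Matrix.mul_one]

theorem tanCocycle_eq_zero_of_eq_one {σ : GQ} (h : r σ = 1) : tanCocycle r σ = 0 := by
  unfold tanCocycle rsnd
  rw [h, msnd_one, Matrix.zero_mul]

theorem tanCocycle_one : tanCocycle r 1 = 0 :=
  tanCocycle_eq_zero_of_eq_one r (map_one r)

/-- the determinant of the deformation in terms of the trace of the cocycle. -/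
theorem snd_det_eq (σ : GQ) :
    ((r σ).det).snd = (rfst r σ).det * Matrix.trace (tanCocycle r σ) := by
  have hinv : (rfst r σ)⁻¹ = rfst r σ⁻¹ := Matrix.inv_eq_right_inv (rfst_mul_inv r σ)
  have hdet : (rfst r σ).det ≠ 0 := by
    have := congrArg Matrix.det (rfst_mul_inv r σ)
    rw [Matrix.det_mul, Matrix.det_one] at this
    exact left_ne_zero_of_mul_eq_one this
  rw [snd_det]
  unfold tanCocycle
  rw [← hinv, Matrix.inv_def, Ring.inverse_eq_inv', Matrix.mul_smul, Matrix.trace_smul,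
    smul_eq_mul, ← mul_assoc, mul_inv_cancel₀ hdet, one_mul]
  rfl

theorem fst_det_eq (σ : GQ) : ((r σ).det).fst = (rfst r σ).det := fst_det (r σ)

/-- fixed determinant ⟺ trace-zero cocycle. -/
theorem trace_tanCocycle_eq_zero_iff (σ : GQ) :
    Matrix.trace (tanCocycle r σ) = 0 ↔ ((r σ).det).snd = 0 := by
  have hdet : (rfst r σ).det ≠ 0 := by
    have := congrArg Matrix.det (rfst_mul_inv r σ)
    rw [Matrix.det_mul, Matrix.det_one] at this
    exact left_ne_zero_of_mul_eq_one this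
  rw [snd_det_eq, mul_eq_zero]
  exact ⟨fun h => Or.inr h, fun h => h.resolve_left hdet⟩

end Coc

/-! ### cohomologous cocycles and conjugation by `1 + εX` -/

section Conj

variable (r r' : GQ →* Matrix (Fin 2) (Fin 2) (DualNumber k))

/-- the matrix `1 + εX` as an element of `GL₂(k[ε])`. -/
noncomputable def onePlusEps (X : Matrix (Fin 2) (Fin 2) k) : GL (Fin 2) (DualNumber k) where
  val := mkMat 1 X
  inv := mkMat 1 (-X)
  val_inv := by
    refine mat_ext ?_ ?_
    · rw [mfst_mul, mfst_mkMat, mfst_mkMat, mfst_one, Matrix.one_mul]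
    · rw [msnd_mul, mfst_mkMat, mfst_mkMat, msnd_mkMat, msnd_mkMat, msnd_one, Matrix.one_mul,
        Matrix.mul_one, neg_add_cancel]
  inv_val := by
    refine mat_ext ?_ ?_
    · rw [mfst_mul, mfst_mkMat, mfst_mkMat, mfst_one, Matrix.one_mul]
    · rw [msnd_mul, mfst_mkMat, mfst_mkMat, msnd_mkMat, msnd_mkMat, msnd_one, Matrix.one_mul,
        Matrix.mul_one, add_neg_cancel]

theorem onePlusEps_val (X : Matrix (Fin 2) (Fin 2) k) :
    ((onePlusEps X : GL (Fin 2) (DualNumber k)) : Matrix (Fin 2) (Fin 2) (DualNumber k)) =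
      mkMat 1 X := rfl

/-- `(1 + εX) r σ = r' σ (1 + εX)` in terms of the tangent cocycles. -/
theorem onePlusEps_conj_iff (hfst : rfst r = rfst r') (X : Matrix (Fin 2) (Fin 2) k) (σ : GQ) :
    (mkMat 1 X * r σ = r' σ * mkMat 1 X) ↔
      tanCocycle r' σ = tanCocycle r σ + X - rfst r σ * X * rfst r σ⁻¹ := by
  have e0 : mfst (r' σ) = mfst (r σ) := by
    have := congrArg (fun f => f σ) hfst
    simpa using this.symm
  constructor
  · intro h
    have h2 := congrArg msnd h
    rw [msnd_mul, msnd_mul, mfst_mkMat, msnd_mkMat, Matrix.one_mul, Matrix.mul_one, e0] at h2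
    -- `b + X r̄ = r̄ X + b'`
    have hb : rsnd r' σ = rsnd r σ + X * rfst r σ - rfst r σ * X := by
      have : msnd (r' σ) = msnd (r σ) + X * mfst (r σ) - mfst (r σ) * X := by
        rw [h2]; abel
      exact this
    unfold tanCocycle
    rw [← hfst, hb, Matrix.sub_mul, Matrix.add_mul, Matrix.mul_assoc X, rfst_mul_inv,
      Matrix.mul_one]
  · intro h
    have hb : rsnd r' σ = rsnd r σ + X * rfst r σ - rfst r σ * X := by
      rw [rsnd_eq_tanCocycle_mul r', h, ← hfst, Matrix.sub_mul, Matrix.add_mul,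
        ← rsnd_eq_tanCocycle_mul r, Matrix.mul_assoc (rfst r σ * X), rfst_inv_mul, Matrix.mul_one]
    refine mat_ext ?_ ?_
    · rw [mfst_mul, mfst_mul, mfst_mkMat, Matrix.one_mul, Matrix.mul_one, e0]
    · rw [msnd_mul, msnd_mul, mfst_mkMat, msnd_mkMat, Matrix.one_mul, Matrix.mul_one, e0]
      have : msnd (r' σ) = msnd (r σ) + X * mfst (r σ) - mfst (r σ) * X := hb
      rw [this]; abel

/-- **cohomologous ⟹ conjugate**: deformations with the same reduction whose tangent cocycles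
differ by the coboundary of `X` are conjugate under `1 + εX`. -/
theorem exists_conj_of_cohomologous (hfst : rfst r = rfst r') (X : Matrix (Fin 2) (Fin 2) k)
    (h : ∀ σ, tanCocycle r' σ = tanCocycle r σ + X - rfst r σ * X * rfst r σ⁻¹) :
    ∃ P : GL (Fin 2) (DualNumber k), ∀ σ,
      (P : Matrix (Fin 2) (Fin 2) (DualNumber k)) * r σ =
        r' σ * (P : Matrix (Fin 2) (Fin 2) (DualNumber k)) :=
  ⟨onePlusEps X, fun σ => (onePlusEps_conj_iff r r' hfst X σ).2 (h σ)⟩

/-- **cohomologous ⟹ equivalent** as `GaloisRepAdic`s. -/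
theorem isEquiv_of_cohomologous (hr : MatCont r) (hr' : MatCont r') (hfst : rfst r = rfst r')
    (X : Matrix (Fin 2) (Fin 2) k)
    (h : ∀ σ, tanCocycle r' σ = tanCocycle r σ + X - rfst r σ * X * rfst r σ⁻¹) :
    (ofMat r hr).IsEquiv (ofMat r' hr') :=
  (ofMat_isEquiv_iff hr hr').2 (exists_conj_of_cohomologous r r' hfst X h)

/-- converse: conjugation by a matrix `P ≡ 1 mod ε` changes the tangent cocycle by a coboundary. -/
theorem cohomologous_of_conj (hfst : rfst r = rfst r')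
    (P : Matrix (Fin 2) (Fin 2) (DualNumber k)) (hP : mfst P = 1)
    (h : ∀ σ, P * r σ = r' σ * P) (σ : GQ) :
    tanCocycle r' σ = tanCocycle r σ + msnd P - rfst r σ * msnd P * rfst r σ⁻¹ := by
  have hPe : P = mkMat 1 (msnd P) := by
    refine mat_ext ?_ ?_
    · rw [mfst_mkMat, hP]
    · rw [msnd_mkMat]
  have h1 := h σ
  rw [hPe] at h1
  exact (onePlusEps_conj_iff r r' hfst (msnd P) σ).1 h1

end Conj

/-! ### continuity -/

section Cont

variable (r : GQ →* Matrix (Fin 2) (Fin 2) (DualNumber k))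

/-- a continuous representation over `k[ε]` is trivial on an open subgroup. -/
theorem exists_eq_one_of_matCont (hr : MatCont r) :
    ∃ L : IntermediateField ℚ (AlgebraicClosure ℚ), FiniteDimensional ℚ L ∧
      ∀ σ : GQ, (∀ x ∈ L, σ x = x) → r σ = 1 := by
  obtain ⟨L, hL, h⟩ := hr 2
  refine ⟨L, hL, fun σ hσ => ?_⟩
  ext i j : 1
  have h1 := h σ hσ i j
  rw [Fermat.Agent.GP.Tan.UnivInj.maximalIdeal_dualNumber_sq, Ideal.mem_bot, Matrix.sub_apply,
    sub_eq_zero] at h1
  exact h1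

/-- the tangent cocycle of a continuous deformation is constant on the cosets of an open
subgroup (and vanishes on it). -/
theorem exists_levelConstant (hr : MatCont r) :
    ∃ L : IntermediateField ℚ (AlgebraicClosure ℚ), FiniteDimensional ℚ L ∧
      (∀ s : GQ, (∀ x ∈ L, s x = x) → tanCocycle r s = 0) ∧
      ∀ g s : GQ, (∀ x ∈ L, s x = x) → tanCocycle r (g * s) = tanCocycle r g := by
  obtain ⟨L, hL, h⟩ := exists_eq_one_of_matCont r hr
  refine ⟨L, hL, fun s hs => tanCocycle_eq_zero_of_eq_one r (h s hs), fun g s hs => ?_⟩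
  rw [tanCocycle_mul, tanCocycle_eq_zero_of_eq_one r (h s hs), Matrix.mul_zero, Matrix.zero_mul,
    add_zero]

end Cont

/-! ### matrix form of a lift of `ρbar` -/

section Lift

open Fermat.Agent.S53_helper84

variable {𝒪 : Type} [CommRing 𝒪] [IsLocalRing 𝒪]
  (ρbar : ResidualGaloisRep (ResidueField 𝒪))
  (b : Module.Basis (Fin 2) (ResidueField 𝒪) ρbar.V)

/-- a first-order lift of `ρbar` (in the shape required by `DeformationRingData.universal`) has a
matrix form whose reduction is the matrix form of `ρbar` in the basis `b`. -/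
theorem exists_matrix_of_residual (ρ : GaloisRepAdic (DualNumber (ResidueField 𝒪)))
    (h : ρ.residual.IsEquiv (ρbar.baseChangeAlong
      (ResidueField.map (algebraMap 𝒪 (DualNumber (ResidueField 𝒪)))))) :
    ∃ (r : GQ →* Matrix (Fin 2) (Fin 2) (DualNumber (ResidueField 𝒪))) (hr : MatCont r),
      ρ.IsEquiv (ofMat r hr) ∧ rfst r = toMatRes ρbar b := by
  set ι : ResidueField 𝒪 →+* ResidueField (DualNumber (ResidueField 𝒪)) :=
    ResidueField.map (algebraMap 𝒪 (DualNumber (ResidueField 𝒪))) with hι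
  obtain ⟨e2⟩ := baseChangeAlong_isEquiv_ofMatRes ι ρbar b
  obtain ⟨e0⟩ := h
  obtain ⟨r, hr, he, heq⟩ := exists_ofMat_isEquiv_of_residual ρ (toMatRes ρbar b)
    (resCont_toMatRes ρbar b) ι ⟨e0.trans e2⟩
  refine ⟨r, hr, he, MonoidHom.ext fun σ => ?_⟩
  ext i j
  have h1 := congrFun (congrFun (congrArg (fun f => f σ) heq) i) j
  simp only [mapMat_apply, Matrix.map_apply] at h1
  rw [hι, residueFieldMap_eq, RingHom.comp_apply] at h1
  have h2 : r σ i j - algebraMap (ResidueField 𝒪) (DualNumber (ResidueField 𝒪))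
      (toMatRes ρbar b σ i j) ∈ maximalIdeal (DualNumber (ResidueField 𝒪)) := by
    rw [← residue_eq_zero_iff, map_sub, sub_eq_zero]
    exact h1
  rw [Fermat.Agent.GP.Tan.UnivInj.mem_maximalIdeal_dualNumber_iff, TrivSqZeroExt.fst_sub,
    sub_eq_zero] at h2
  rw [rfst_apply, mfst_apply, h2]
  rfl

end Lift

/-! ### transport of the frozen local conditions to the cocycle -/

section Props

variable {A : Type} [CommRing A] [IsLocalRing A]

theorem ofMat_ρ_apply (r : GQ →* Matrix (Fin 2) (Fin 2) A) (hr : MatCont r) (σ : GQ) :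
    (ofMat r hr).ρ σ = Matrix.toLin' (r σ) := rfl

theorem det_ofMat (r : GQ →* Matrix (Fin 2) (Fin 2) A) (hr : MatCont r) (σ : GQ) :
    LinearMap.det ((ofMat r hr).ρ σ) = (r σ).det := by
  show LinearMap.det (Matrix.toLin' (r σ) : (Fin 2 → A) →ₗ[A] (Fin 2 → A)) = _
  exact LinearMap.det_toLin' _

theorem ofMat_ρ_eq_one_iff (r : GQ →* Matrix (Fin 2) (Fin 2) A) (hr : MatCont r) (σ : GQ) :
    (ofMat r hr).ρ σ = 1 ↔ r σ = 1 := by
  rw [ofMat_ρ_apply]
  constructor
  · intro h
    have : Matrix.toLin' (r σ) = Matrix.toLin' (1 : Matrix (Fin 2) (Fin 2) A) := by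
      rw [h, Matrix.toLin'_one]; rfl
    exact Matrix.toLin'.injective this
  · intro h
    rw [h, Matrix.toLin'_one]; rfl

theorem det_eq_of_isEquiv {ρ ρ' : GaloisRepAdic A} (h : ρ.IsEquiv ρ') (σ : GQ) :
    LinearMap.det (ρ'.ρ σ) = LinearMap.det (ρ.ρ σ) := by
  obtain ⟨e⟩ := h
  have h1 : ρ'.ρ σ = (e.toLinearEquiv : ρ.V →ₗ[A] ρ'.V) ∘ₗ ρ.ρ σ ∘ₗ
      (e.toLinearEquiv.symm : ρ'.V →ₗ[A] ρ.V) := by
    refine LinearMap.ext fun y => ?_
    simp only [LinearMap.comp_apply, LinearEquiv.coe_coe]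
    rw [e.map_apply, LinearEquiv.apply_symm_apply]
  rw [h1, LinearMap.det_conj]

theorem eq_one_of_isEquiv {ρ ρ' : GaloisRepAdic A} (h : ρ.IsEquiv ρ') {σ : GQ}
    (h1 : ρ.ρ σ = 1) : ρ'.ρ σ = 1 := by
  obtain ⟨e⟩ := h
  refine LinearMap.ext fun y => ?_
  have := e.map_apply σ (e.toLinearEquiv.symm y)
  rw [LinearEquiv.apply_symm_apply, h1, Module.End.one_apply, LinearEquiv.apply_symm_apply] at this
  rw [← this, Module.End.one_apply]

theorem isUnramifiedAt_of_isEquiv {ρ ρ' : GaloisRepAdic A} (h : ρ.IsEquiv ρ') {q : ℕ}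
    (hq : ρ.IsUnramifiedAt q) : ρ'.IsUnramifiedAt q :=
  fun P hP σ hσ => eq_one_of_isEquiv h (hq P hP σ hσ)

theorem detIsCyclotomic_of_isEquiv {ρ ρ' : GaloisRepAdic A} (h : ρ.IsEquiv ρ') {p : ℕ}
    (hp : ρ.DetIsCyclotomic p) : ρ'.DetIsCyclotomic p :=
  ⟨hp.1, fun n σ a ha => by rw [det_eq_of_isEquiv h]; exact hp.2 n σ a ha⟩

/-- every automorphism acts on the `p`-th roots of unity through a power. -/
theorem exists_nat_pow_of_aut (p : ℕ) (hp : 0 < p) (σ : GQ) :
    ∃ a : ℕ, ∀ μ : AlgebraicClosure ℚ, μ ^ p = 1 → σ μ = μ ^ a := by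
  haveI : NeZero p := ⟨hp.ne'⟩
  obtain ⟨m, hm⟩ := rootsOfUnity.integer_power_of_ringEquiv p
    (σ : AlgebraicClosure ℚ ≃+* AlgebraicClosure ℚ)
  refine ⟨(m % (p : ℤ)).toNat, fun μ hμ => ?_⟩
  have hμu : IsUnit μ := IsUnit.of_pow_eq_one hμ hp.ne'
  obtain ⟨u, rfl⟩ := hμu
  have hu : u ∈ rootsOfUnity p (AlgebraicClosure ℚ) := by
    rw [mem_rootsOfUnity]
    exact Units.ext (by simpa using hμ)
  have h1 := hm ⟨u, hu⟩
  have hup : u ^ p = 1 := (mem_rootsOfUnity _ _).1 hu
  have h2 : u ^ m = u ^ (m % (p : ℤ)) := zpow_eq_zpow_emod' m hup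
  have h3 : (0 : ℤ) ≤ m % (p : ℤ) := Int.emod_nonneg _ (by exact_mod_cast hp.ne')
  have h4 : u ^ (m % (p : ℤ)) = u ^ (m % (p : ℤ)).toNat := by
    conv_lhs => rw [← Int.toNat_of_nonneg h3]
    exact zpow_natCast _ _
  have h5 : (σ : AlgebraicClosure ℚ ≃+* AlgebraicClosure ℚ) (u : AlgebraicClosure ℚ) =
      ((u ^ m : (AlgebraicClosure ℚ)ˣ) : AlgebraicClosure ℚ) := h1
  rw [h2, h4] at h5
  simpa using h5

variable (r : GQ →* Matrix (Fin 2) (Fin 2) (DualNumber k)) (hr : MatCont r)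

/-- **cyclotomic determinant ⟹ trace-zero tangent cocycle.** -/
theorem trace_tanCocycle_eq_zero_of_detIsCyclotomic (p : ℕ) (hp : 0 < p)
    (hdet : (ofMat r hr).DetIsCyclotomic p) (σ : GQ) :
    Matrix.trace (tanCocycle r σ) = 0 := by
  rw [trace_tanCocycle_eq_zero_iff]
  obtain ⟨hpm, hcyc⟩ := hdet
  have hp0 : ((p : ℕ) : DualNumber k) = 0 := by
    rw [Fermat.Agent.GP.Tan.UnivInj.mem_maximalIdeal_dualNumber_iff, TrivSqZeroExt.fst_natCast]
      at hpm
    ext
    · rw [TrivSqZeroExt.fst_natCast, hpm, TrivSqZeroExt.fst_zero]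
    · rw [TrivSqZeroExt.snd_natCast, TrivSqZeroExt.snd_zero]
  obtain ⟨a, ha⟩ := exists_nat_pow_of_aut p hp σ
  have h1 := hcyc 1 σ a (by simpa using ha)
  rw [pow_one, hp0, Ideal.span_singleton_eq_bot.mpr rfl, Ideal.mem_bot, sub_eq_zero,
    det_ofMat] at h1
  rw [h1, TrivSqZeroExt.snd_natCast]

/-- **unramified ⟹ the tangent cocycle vanishes on inertia.** -/
theorem tanCocycle_eq_zero_of_isUnramifiedAt {q : ℕ} (hq : (ofMat r hr).IsUnramifiedAt q)
    (P : ValuationSubring (AlgebraicClosure ℚ)) (hP : P.LiesOverPrime q) (σ : GQ)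
    (hσ : σ ∈ P.inertiaSubgroupIn ℚ) : tanCocycle r σ = 0 :=
  tanCocycle_eq_zero_of_eq_one r ((ofMat_ρ_eq_one_iff r hr σ).1 (hq P hP σ hσ))

end Props

/-! ### the tangent cocycle of a tangent vector of a universal deformation ring -/

section Tangent

open Fermat.Agent.GP.Tan.UnivInj

variable {𝒪 : Type} [CommRing 𝒪] [IsDomain 𝒪] [IsDiscreteValuationRing 𝒪]
  [IsAdicComplete (maximalIdeal 𝒪) 𝒪]
  {ρbar : ResidualGaloisRep (ResidueField 𝒪)}
  {𝒟 : ∀ ⦃A : Type⦄ [CommRing A] [IsLocalRing A] [Algebra 𝒪 A], GaloisRepAdic A → Prop}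
  (DQ : GaloisRep.DeformationRingData 𝒪 ρbar 𝒟)
  (b : Module.Basis (Fin 2) (ResidueField 𝒪) ρbar.V)

theorem exists_tangentMat (φ : DQ.R →ₐ[𝒪] DualNumber (ResidueField 𝒪)) :
    ∃ (r : GQ →* Matrix (Fin 2) (Fin 2) (DualNumber (ResidueField 𝒪))) (hr : MatCont r),
      (tangentRep DQ φ).IsEquiv (ofMat r hr) ∧ rfst r = toMatRes ρbar b :=
  exists_matrix_of_residual ρbar b _ (tangentRep_residual DQ φ)

/-- a matrix form (reducing to `toMatRes ρbar b`) of the first-order deformation attached to the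
tangent vector `φ`. -/
noncomputable def tangentMat (φ : DQ.R →ₐ[𝒪] DualNumber (ResidueField 𝒪)) :
    GQ →* Matrix (Fin 2) (Fin 2) (DualNumber (ResidueField 𝒪)) :=
  Classical.choose (exists_tangentMat DQ b φ)

theorem matCont_tangentMat (φ : DQ.R →ₐ[𝒪] DualNumber (ResidueField 𝒪)) :
    MatCont (tangentMat DQ b φ) :=
  Classical.choose (Classical.choose_spec (exists_tangentMat DQ b φ))

theorem tangentRep_isEquiv_tangentMat (φ : DQ.R →ₐ[𝒪] DualNumber (ResidueField 𝒪)) :
    (tangentRep DQ φ).IsEquiv (ofMat (tangentMat DQ b φ) (matCont_tangentMat DQ b φ)) :=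
  (Classical.choose_spec (Classical.choose_spec (exists_tangentMat DQ b φ))).1

theorem rfst_tangentMat (φ : DQ.R →ₐ[𝒪] DualNumber (ResidueField 𝒪)) :
    rfst (tangentMat DQ b φ) = toMatRes ρbar b :=
  (Classical.choose_spec (Classical.choose_spec (exists_tangentMat DQ b φ))).2

/-- **the tangent cocycle** `G_ℚ → M₂(k)` of a tangent vector `φ : R → k[ε]`. -/
noncomputable def tangentCocycle (φ : DQ.R →ₐ[𝒪] DualNumber (ResidueField 𝒪)) (σ : GQ) :
    Matrix (Fin 2) (Fin 2) (ResidueField 𝒪) :=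
  tanCocycle (tangentMat DQ b φ) σ

theorem tangentCocycle_mul (φ : DQ.R →ₐ[𝒪] DualNumber (ResidueField 𝒪)) (σ τ : GQ) :
    tangentCocycle DQ b φ (σ * τ) = tangentCocycle DQ b φ σ +
      toMatRes ρbar b σ * tangentCocycle DQ b φ τ * toMatRes ρbar b σ⁻¹ := by
  unfold tangentCocycle
  rw [tanCocycle_mul, rfst_tangentMat]

theorem exists_levelConstant_tangentCocycle (φ : DQ.R →ₐ[𝒪] DualNumber (ResidueField 𝒪)) :
    ∃ L : IntermediateField ℚ (AlgebraicClosure ℚ), FiniteDimensional ℚ L ∧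
      (∀ s : GQ, (∀ x ∈ L, s x = x) → tangentCocycle DQ b φ s = 0) ∧
      ∀ g s : GQ, (∀ x ∈ L, s x = x) →
        tangentCocycle DQ b φ (g * s) = tangentCocycle DQ b φ g :=
  exists_levelConstant (tangentMat DQ b φ) (matCont_tangentMat DQ b φ)

theorem trace_tangentCocycle (φ : DQ.R →ₐ[𝒪] DualNumber (ResidueField 𝒪)) (p : ℕ) (hp : 0 < p)
    (hdet : (tangentRep DQ φ).DetIsCyclotomic p) (σ : GQ) :
    Matrix.trace (tangentCocycle DQ b φ σ) = 0 :=
  trace_tanCocycle_eq_zero_of_detIsCyclotomic _ (matCont_tangentMat DQ b φ) p hp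
    (detIsCyclotomic_of_isEquiv (tangentRep_isEquiv_tangentMat DQ b φ) hdet) σ

theorem tangentCocycle_eq_zero_of_isUnramifiedAt
    (φ : DQ.R →ₐ[𝒪] DualNumber (ResidueField 𝒪)) {q : ℕ}
    (hq : (tangentRep DQ φ).IsUnramifiedAt q)
    (P : ValuationSubring (AlgebraicClosure ℚ)) (hP : P.LiesOverPrime q) (σ : GQ)
    (hσ : σ ∈ P.inertiaSubgroupIn ℚ) : tangentCocycle DQ b φ σ = 0 :=
  tanCocycle_eq_zero_of_isUnramifiedAt _ (matCont_tangentMat DQ b φ)
    (isUnramifiedAt_of_isEquiv (tangentRep_isEquiv_tangentMat DQ b φ) hq) P hP σ hσ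

/-- tangent vectors with cohomologous tangent cocycles give equivalent first-order
deformations. -/
theorem tangentRep_isEquiv_of_cohomologous (φ φ' : DQ.R →ₐ[𝒪] DualNumber (ResidueField 𝒪))
    (X : Matrix (Fin 2) (Fin 2) (ResidueField 𝒪))
    (h : ∀ σ, tangentCocycle DQ b φ' σ = tangentCocycle DQ b φ σ + X -
      toMatRes ρbar b σ * X * toMatRes ρbar b σ⁻¹) :
    (tangentRep DQ φ).IsEquiv (tangentRep DQ φ') := by
  obtain ⟨e1⟩ := tangentRep_isEquiv_tangentMat DQ b φ
  obtain ⟨e2⟩ := tangentRep_isEquiv_tangentMat DQ b φ'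
  obtain ⟨e3⟩ := isEquiv_of_cohomologous (tangentMat DQ b φ) (tangentMat DQ b φ')
    (matCont_tangentMat DQ b φ) (matCont_tangentMat DQ b φ')
    ((rfst_tangentMat DQ b φ).trans (rfst_tangentMat DQ b φ').symm) X (by
      intro σ
      rw [rfst_tangentMat]
      exact h σ)
  exact ⟨(e1.trans e3).trans e2.symm⟩

/-- **the tangent space of the universal deformation ring injects into `H¹`**: for ANY invariant
`q` of functions `G_ℚ → M₂(k)` that only identifies cohomologous cocycles, `φ ↦ q (c_φ)` is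
injective (given stability of `𝒟` under surjective base change to `k[ε]`). With
`GP.Alg.exists_surjective_of_deformationRingData` this gives the last line of S56 from
`#(image) ≤ |k|^r`. -/
theorem injective_of_cohomology_invariant
    (h𝒟 : ∀ φ : DQ.R →ₐ[𝒪] DualNumber (ResidueField 𝒪), Function.Surjective φ →
      𝒟 (tangentRep DQ φ))
    {T : Type*} (q : (GQ → Matrix (Fin 2) (Fin 2) (ResidueField 𝒪)) → T)
    (hq : ∀ φ φ' : DQ.R →ₐ[𝒪] DualNumber (ResidueField 𝒪),
      q (tangentCocycle DQ b φ) = q (tangentCocycle DQ b φ') →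
        ∃ X : Matrix (Fin 2) (Fin 2) (ResidueField 𝒪), ∀ σ,
          tangentCocycle DQ b φ' σ = tangentCocycle DQ b φ σ + X -
            toMatRes ρbar b σ * X * toMatRes ρbar b σ⁻¹) :
    Function.Injective fun φ : DQ.R →ₐ[𝒪] DualNumber (ResidueField 𝒪) =>
      q (tangentCocycle DQ b φ) :=
  injective_of_class' DQ h𝒟 _ fun φ φ' h => by
    obtain ⟨X, hX⟩ := hq φ φ' h
    exact tangentRep_isEquiv_of_cohomologous DQ b φ φ' X hX

end Tangent

end Fermat.Agent.GP.Tan.Cocycle
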