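/-
S56 / [P-TAN] node TAN-LIN (helper6): **the tangent map `φ ↦ [tangent cocycle of φ]` is
`k`-linear**.

`k = ResidueField 𝒪`, `k[ε] = DualNumber k`, `DQ : DeformationRingData 𝒪 ρbar 𝒟`, `R = DQ.R`.

* (A) tangent vectors `R →ₐ[𝒪] k[ε]` with a common `k`-component form a `k`-vector space:
  `addHom φ φ' h`, `smulHom a φ` (`smulHom 0 φ` is the zero vector);
* (B) ONE matrix model `univMat DQ : GQ →* M₂(R)` of the universal deformation and ONE conjugating
  matrix `modelConj DQ b ∈ GL₂(k)` give matrix forms `linMat DQ b φ` of ALL the first-order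
  deformations `tangentRep DQ φ`, reducing to `toMatRes ρbar b`, whose tangent cocycles
  `linCocycle DQ b φ` are additive / homogeneous in `φ` ON THE NOSE;
* (C) `linCocycle DQ b φ` is cohomologous to helper11's `tangentCocycle DQ b φ` (Schur), hence
  `tangentCocycle` is additive / homogeneous up to coboundaries, and every class map that is
  additive on cocycles and kills coboundaries is additive on tangent vectors.
-/
import Fermat.Agent.GP.Tan.Cocycle
import Fermat.Agent.S53_helper35.Wrappers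

set_option autoImplicit false
set_option linter.unusedSectionVars false
set_option linter.style.haveILetI false

namespace Fermat.Agent.GP.Tan.Linear

open IsLocalRing Fermat.Agent.S53_helper35 Fermat.Agent.S53_helper84 Matrix
open Fermat.Agent.GP.Tan.UnivInj Fermat.Agent.GP.Tan.Cocycle

/-! ### (A) the vector space structure on tangent vectors -/

section Alg

variable {𝒪 : Type} [CommRing 𝒪] [IsLocalRing 𝒪] {R : Type} [CommRing R] [Algebra 𝒪 R]

/-- a tangent vector fixes the constants: `k`-component. -/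
theorem fst_algebraMap (φ : R →ₐ[𝒪] DualNumber (ResidueField 𝒪)) (c : 𝒪) :
    (φ (algebraMap 𝒪 R c)).fst = residue 𝒪 c := by
  rw [φ.commutes, algebraMap_dualNumber_apply, TrivSqZeroExt.fst_inl]

/-- a tangent vector fixes the constants: `ε`-component. -/
theorem snd_algebraMap (φ : R →ₐ[𝒪] DualNumber (ResidueField 𝒪)) (c : 𝒪) :
    (φ (algebraMap 𝒪 R c)).snd = 0 := by
  rw [φ.commutes, algebraMap_dualNumber_apply, TrivSqZeroExt.snd_inl]

theorem fst_map_mul (φ : R →ₐ[𝒪] DualNumber (ResidueField 𝒪)) (x y : R) :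
    (φ (x * y)).fst = (φ x).fst * (φ y).fst := by
  rw [map_mul, TrivSqZeroExt.fst_mul]

/-- the `ε`-component of a tangent vector is a derivation. -/
theorem snd_map_mul (φ : R →ₐ[𝒪] DualNumber (ResidueField 𝒪)) (x y : R) :
    (φ (x * y)).snd = (φ x).fst * (φ y).snd + (φ y).fst * (φ x).snd := by
  rw [map_mul, TrivSqZeroExt.snd_mul]
  simp only [smul_eq_mul, MulOpposite.smul_eq_mul_unop, MulOpposite.unop_op]
  ring

/-- **the sum of two tangent vectors** with the same `k`-component: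
`x ↦ φ̄ x + ε (dφ x + dφ' x)`. -/
noncomputable def addHom (φ φ' : R →ₐ[𝒪] DualNumber (ResidueField 𝒪)) (h : ∀ x, (φ x).fst = (φ' x).fst) :
    R →ₐ[𝒪] DualNumber (ResidueField 𝒪) where
  toFun x := TrivSqZeroExt.inl (φ x).fst + TrivSqZeroExt.inr ((φ x).snd + (φ' x).snd)
  map_one' := by
    refine TrivSqZeroExt.ext ?_ ?_
    · simp
    · simp
  map_mul' x y := by
    refine TrivSqZeroExt.ext ?_ ?_
    · simp
    · simp only [TrivSqZeroExt.snd_add, TrivSqZeroExt.snd_inl, TrivSqZeroExt.snd_inr, zero_add,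
        TrivSqZeroExt.snd_mul, TrivSqZeroExt.fst_add, TrivSqZeroExt.fst_inl,
        TrivSqZeroExt.fst_inr, add_zero, smul_eq_mul, MulOpposite.smul_eq_mul_unop,
        MulOpposite.unop_op]
      rw [snd_map_mul, snd_map_mul, ← h x, ← h y]
      ring
  map_zero' := by
    refine TrivSqZeroExt.ext ?_ ?_
    · simp
    · simp
  map_add' x y := by
    refine TrivSqZeroExt.ext ?_ ?_
    · simp
    · simp only [map_add, TrivSqZeroExt.snd_add, TrivSqZeroExt.snd_inl, TrivSqZeroExt.snd_inr,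
        zero_add]
      ring
  commutes' c := by
    refine TrivSqZeroExt.ext ?_ ?_
    · simp only [TrivSqZeroExt.fst_add, TrivSqZeroExt.fst_inl, TrivSqZeroExt.fst_inr, add_zero]
      rw [fst_algebraMap, algebraMap_dualNumber_apply, TrivSqZeroExt.fst_inl]
    · simp only [TrivSqZeroExt.snd_add, TrivSqZeroExt.snd_inl, TrivSqZeroExt.snd_inr, zero_add]
      rw [snd_algebraMap, snd_algebraMap, algebraMap_dualNumber_apply, TrivSqZeroExt.snd_inl,
        add_zero]

@[simp] theorem fst_addHom (φ φ' : R →ₐ[𝒪] DualNumber (ResidueField 𝒪))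
    (h : ∀ x, (φ x).fst = (φ' x).fst) (x : R) : (addHom φ φ' h x).fst = (φ x).fst := by
  show (TrivSqZeroExt.inl (φ x).fst + TrivSqZeroExt.inr ((φ x).snd + (φ' x).snd) :
    DualNumber (ResidueField 𝒪)).fst = _
  simp

@[simp] theorem snd_addHom (φ φ' : R →ₐ[𝒪] DualNumber (ResidueField 𝒪))
    (h : ∀ x, (φ x).fst = (φ' x).fst) (x : R) :
    (addHom φ φ' h x).snd = (φ x).snd + (φ' x).snd := by
  show (TrivSqZeroExt.inl (φ x).fst + TrivSqZeroExt.inr ((φ x).snd + (φ' x).snd) :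
    DualNumber (ResidueField 𝒪)).snd = _
  simp

/-- **scalar multiple of a tangent vector**: `x ↦ φ̄ x + ε (a · dφ x)`. -/
noncomputable def smulHom (a : ResidueField 𝒪) (φ : R →ₐ[𝒪] DualNumber (ResidueField 𝒪)) :
    R →ₐ[𝒪] DualNumber (ResidueField 𝒪) where
  toFun x := TrivSqZeroExt.inl (φ x).fst + TrivSqZeroExt.inr (a * (φ x).snd)
  map_one' := by
    refine TrivSqZeroExt.ext ?_ ?_
    · simp
    · simp
  map_mul' x y := by
    refine TrivSqZeroExt.ext ?_ ?_
    · simp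
    · simp only [TrivSqZeroExt.snd_add, TrivSqZeroExt.snd_inl, TrivSqZeroExt.snd_inr, zero_add,
        TrivSqZeroExt.snd_mul, TrivSqZeroExt.fst_add, TrivSqZeroExt.fst_inl,
        TrivSqZeroExt.fst_inr, add_zero, smul_eq_mul, MulOpposite.smul_eq_mul_unop,
        MulOpposite.unop_op]
      rw [snd_map_mul]
      ring
  map_zero' := by
    refine TrivSqZeroExt.ext ?_ ?_
    · simp
    · simp
  map_add' x y := by
    refine TrivSqZeroExt.ext ?_ ?_
    · simp
    · simp only [map_add, TrivSqZeroExt.snd_add, TrivSqZeroExt.snd_inl, TrivSqZeroExt.snd_inr,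
        zero_add]
      ring
  commutes' c := by
    refine TrivSqZeroExt.ext ?_ ?_
    · simp only [TrivSqZeroExt.fst_add, TrivSqZeroExt.fst_inl, TrivSqZeroExt.fst_inr, add_zero]
      rw [fst_algebraMap, algebraMap_dualNumber_apply, TrivSqZeroExt.fst_inl]
    · simp only [TrivSqZeroExt.snd_add, TrivSqZeroExt.snd_inl, TrivSqZeroExt.snd_inr, zero_add]
      rw [snd_algebraMap, algebraMap_dualNumber_apply, TrivSqZeroExt.snd_inl, mul_zero]

@[simp] theorem fst_smulHom (a : ResidueField 𝒪) (φ : R →ₐ[𝒪] DualNumber (ResidueField 𝒪))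
    (x : R) : (smulHom a φ x).fst = (φ x).fst := by
  show (TrivSqZeroExt.inl (φ x).fst + TrivSqZeroExt.inr (a * (φ x).snd) :
    DualNumber (ResidueField 𝒪)).fst = _
  simp

@[simp] theorem snd_smulHom (a : ResidueField 𝒪) (φ : R →ₐ[𝒪] DualNumber (ResidueField 𝒪))
    (x : R) : (smulHom a φ x).snd = a * (φ x).snd := by
  show (TrivSqZeroExt.inl (φ x).fst + TrivSqZeroExt.inr (a * (φ x).snd) :
    DualNumber (ResidueField 𝒪)).snd = _
  simp

theorem smulHom_one (φ : R →ₐ[𝒪] DualNumber (ResidueField 𝒪)) : smulHom 1 φ = φ := by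
  refine AlgHom.ext fun x => TrivSqZeroExt.ext ?_ ?_
  · simp
  · simp

/-- `smulHom 0 φ` is the constant tangent vector `x ↦ φ̄ x`. -/
theorem smulHom_zero_apply (φ : R →ₐ[𝒪] DualNumber (ResidueField 𝒪)) (x : R) :
    smulHom 0 φ x = TrivSqZeroExt.inl (φ x).fst := by
  refine TrivSqZeroExt.ext ?_ ?_
  · simp
  · simp

end Alg

/-! ### (B1) push-forward of ONE matrix model along tangent vectors -/

section Mat

variable {𝒪 : Type} [CommRing 𝒪] [IsLocalRing 𝒪] {R : Type} [CommRing R] [IsLocalRing R]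
  [Algebra 𝒪 R] (rR : GQ →* Matrix (Fin 2) (Fin 2) R)

/-- the push-forward of a matrix representation over `R` along a tangent vector. -/
noncomputable def pushMat (φ : R →ₐ[𝒪] DualNumber (ResidueField 𝒪)) :
    GQ →* Matrix (Fin 2) (Fin 2) (DualNumber (ResidueField 𝒪)) :=
  mapMat (φ : R →+* DualNumber (ResidueField 𝒪)) rR

theorem pushMat_apply (φ : R →ₐ[𝒪] DualNumber (ResidueField 𝒪)) (σ : GQ) (i j : Fin 2) :
    pushMat rR φ σ i j = φ (rR σ i j) := rfl

theorem rfst_pushMat_apply (φ : R →ₐ[𝒪] DualNumber (ResidueField 𝒪)) (σ : GQ) (i j : Fin 2) :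
    rfst (pushMat rR φ) σ i j = (φ (rR σ i j)).fst := rfl

theorem rsnd_pushMat_apply (φ : R →ₐ[𝒪] DualNumber (ResidueField 𝒪)) (σ : GQ) (i j : Fin 2) :
    rsnd (pushMat rR φ) σ i j = (φ (rR σ i j)).snd := rfl

/-- the reduction of the push-forward only depends on the `k`-component of the tangent vector. -/
theorem rfst_pushMat_congr (φ φ' : R →ₐ[𝒪] DualNumber (ResidueField 𝒪))
    (h : ∀ x, (φ x).fst = (φ' x).fst) : rfst (pushMat rR φ) = rfst (pushMat rR φ') := by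
  refine MonoidHom.ext fun σ => ?_
  ext i j
  rw [rfst_pushMat_apply, rfst_pushMat_apply, h]

theorem rfst_pushMat_addHom (φ φ' : R →ₐ[𝒪] DualNumber (ResidueField 𝒪))
    (h : ∀ x, (φ x).fst = (φ' x).fst) :
    rfst (pushMat rR (addHom φ φ' h)) = rfst (pushMat rR φ) :=
  rfst_pushMat_congr rR _ _ fun x => fst_addHom φ φ' h x

theorem rsnd_pushMat_addHom (φ φ' : R →ₐ[𝒪] DualNumber (ResidueField 𝒪))
    (h : ∀ x, (φ x).fst = (φ' x).fst) (σ : GQ) :
    rsnd (pushMat rR (addHom φ φ' h)) σ = rsnd (pushMat rR φ) σ + rsnd (pushMat rR φ') σ := by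
  ext i j
  rw [Matrix.add_apply, rsnd_pushMat_apply, rsnd_pushMat_apply, rsnd_pushMat_apply, snd_addHom]

theorem rfst_pushMat_smulHom (a : ResidueField 𝒪) (φ : R →ₐ[𝒪] DualNumber (ResidueField 𝒪)) :
    rfst (pushMat rR (smulHom a φ)) = rfst (pushMat rR φ) :=
  rfst_pushMat_congr rR _ _ fun x => fst_smulHom a φ x

theorem rsnd_pushMat_smulHom (a : ResidueField 𝒪) (φ : R →ₐ[𝒪] DualNumber (ResidueField 𝒪))
    (σ : GQ) : rsnd (pushMat rR (smulHom a φ)) σ = a • rsnd (pushMat rR φ) σ := by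
  ext i j
  rw [Matrix.smul_apply, rsnd_pushMat_apply, rsnd_pushMat_apply, snd_smulHom, smul_eq_mul]

/-- **additivity on the nose** of the tangent cocycle in ONE matrix model. -/
theorem tanCocycle_pushMat_addHom (φ φ' : R →ₐ[𝒪] DualNumber (ResidueField 𝒪))
    (h : ∀ x, (φ x).fst = (φ' x).fst) (σ : GQ) :
    tanCocycle (pushMat rR (addHom φ φ' h)) σ =
      tanCocycle (pushMat rR φ) σ + tanCocycle (pushMat rR φ') σ := by
  unfold tanCocycle
  rw [rsnd_pushMat_addHom, rfst_pushMat_addHom, ← rfst_pushMat_congr rR φ φ' h, Matrix.add_mul]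

/-- **homogeneity on the nose** of the tangent cocycle in ONE matrix model. -/
theorem tanCocycle_pushMat_smulHom (a : ResidueField 𝒪)
    (φ : R →ₐ[𝒪] DualNumber (ResidueField 𝒪)) (σ : GQ) :
    tanCocycle (pushMat rR (smulHom a φ)) σ = a • tanCocycle (pushMat rR φ) σ := by
  unfold tanCocycle
  rw [rsnd_pushMat_smulHom, rfst_pushMat_smulHom, Matrix.smul_mul]

end Mat

/-! ### (B2) conjugation by a constant matrix -/

section Const

variable {k : Type} [Field k]

/-- the constant lift of `g ∈ GL₂(k)` to `GL₂(k[ε])`. -/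
noncomputable def constGL (g : GL (Fin 2) k) : GL (Fin 2) (DualNumber k) :=
  Matrix.GeneralLinearGroup.map (TrivSqZeroExt.inlHom k k) g

@[simp] theorem mfst_constGL (g : GL (Fin 2) k) :
    mfst ((constGL g : GL (Fin 2) (DualNumber k)) : Matrix (Fin 2) (Fin 2) (DualNumber k)) =
      (g : Matrix (Fin 2) (Fin 2) k) := by
  ext i j
  rfl

@[simp] theorem msnd_constGL (g : GL (Fin 2) k) :
    msnd ((constGL g : GL (Fin 2) (DualNumber k)) : Matrix (Fin 2) (Fin 2) (DualNumber k)) = 0 := by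
  ext i j
  rfl

theorem constGL_inv (g : GL (Fin 2) k) : (constGL g)⁻¹ = constGL g⁻¹ := by
  unfold constGL
  rw [map_inv]

variable (r : GQ →* Matrix (Fin 2) (Fin 2) (DualNumber k))

theorem rfst_conjMat_constGL (g : GL (Fin 2) k) (σ : GQ) :
    rfst (k := k) (conjMat (A := DualNumber k) (constGL g) r) σ =
      (g : Matrix (Fin 2) (Fin 2) k) * rfst r σ * ((g⁻¹ : GL (Fin 2) k) : Matrix (Fin 2) (Fin 2) k) := by
  rw [rfst_apply, conjMat_apply, mfst_mul, mfst_mul, constGL_inv, mfst_constGL, mfst_constGL]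
  rfl

theorem rsnd_conjMat_constGL (g : GL (Fin 2) k) (σ : GQ) :
    rsnd (k := k) (conjMat (A := DualNumber k) (constGL g) r) σ =
      (g : Matrix (Fin 2) (Fin 2) k) * rsnd r σ * ((g⁻¹ : GL (Fin 2) k) : Matrix (Fin 2) (Fin 2) k) := by
  unfold rsnd
  rw [conjMat_apply, msnd_mul, msnd_mul, constGL_inv, mfst_constGL, msnd_constGL, msnd_constGL,
    mfst_constGL, Matrix.mul_zero, Matrix.zero_mul, zero_add, add_zero]

/-- conjugating by a constant matrix conjugates the tangent cocycle. -/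
theorem tanCocycle_conjMat_constGL (g : GL (Fin 2) k) (σ : GQ) :
    tanCocycle (k := k) (conjMat (A := DualNumber k) (constGL g) r) σ =
      (g : Matrix (Fin 2) (Fin 2) k) * tanCocycle r σ *
        ((g⁻¹ : GL (Fin 2) k) : Matrix (Fin 2) (Fin 2) k) := by
  have hg : ((g⁻¹ : GL (Fin 2) k) : Matrix (Fin 2) (Fin 2) k) * (g : Matrix (Fin 2) (Fin 2) k) = 1 := by
    rw [← Units.val_mul, inv_mul_cancel, Units.val_one]
  unfold tanCocycle
  rw [rsnd_conjMat_constGL, rfst_conjMat_constGL]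
  calc (g : Matrix (Fin 2) (Fin 2) k) * rsnd r σ * ((g⁻¹ : GL (Fin 2) k) : Matrix (Fin 2) (Fin 2) k) *
        ((g : Matrix (Fin 2) (Fin 2) k) * rfst r σ⁻¹ * ((g⁻¹ : GL (Fin 2) k) : Matrix (Fin 2) (Fin 2) k))
      = (g : Matrix (Fin 2) (Fin 2) k) * rsnd r σ *
          (((g⁻¹ : GL (Fin 2) k) : Matrix (Fin 2) (Fin 2) k) * (g : Matrix (Fin 2) (Fin 2) k)) *
          rfst r σ⁻¹ * ((g⁻¹ : GL (Fin 2) k) : Matrix (Fin 2) (Fin 2) k) := by
        simp only [Matrix.mul_assoc]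
    _ = _ := by
        rw [hg, Matrix.mul_one]
        simp only [Matrix.mul_assoc]

end Const

/-! ### (B3) ONE matrix model for all the first-order deformations `tangentRep DQ φ` -/

section Model

variable {𝒪 : Type} [CommRing 𝒪] [IsDomain 𝒪] [IsDiscreteValuationRing 𝒪]
  [IsAdicComplete (maximalIdeal 𝒪) 𝒪]
  {ρbar : ResidualGaloisRep (ResidueField 𝒪)}
  {𝒟 : ∀ ⦃A : Type⦄ [CommRing A] [IsLocalRing A] [Algebra 𝒪 A], GaloisRepAdic A → Prop}
  (DQ : GaloisRep.DeformationRingData 𝒪 ρbar 𝒟)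
  (b : Module.Basis (Fin 2) (ResidueField 𝒪) ρbar.V)

/-- ONE matrix model of the universal deformation. -/
noncomputable def univMat : GQ →* Matrix (Fin 2) (Fin 2) DQ.R := toMat DQ.ρ (stdBasis DQ.ρ)

theorem matCont_univMat : MatCont (univMat DQ) := matCont_toMat DQ.ρ (stdBasis DQ.ρ)

/-- the push-forward of `univMat DQ` along the tangent vector `φ`. -/
noncomputable def pMat (φ : DQ.R →ₐ[𝒪] DualNumber (ResidueField 𝒪)) :
    GQ →* Matrix (Fin 2) (Fin 2) (DualNumber (ResidueField 𝒪)) :=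
  pushMat (𝒪 := 𝒪) (R := DQ.R) (univMat DQ) φ

theorem matCont_pMat (φ : DQ.R →ₐ[𝒪] DualNumber (ResidueField 𝒪)) :
    MatCont (A := DualNumber (ResidueField 𝒪)) (pMat DQ φ) :=
  matCont_mapMat (A := DQ.R) (B := DualNumber (ResidueField 𝒪))
    (φ : DQ.R →+* DualNumber (ResidueField 𝒪)) (isLocalHom_algHom_dualNumber φ)
    (matCont_univMat DQ)

theorem tangentRep_isEquiv_pMat (φ : DQ.R →ₐ[𝒪] DualNumber (ResidueField 𝒪)) :
    (tangentRep DQ φ).IsEquiv (ofMat (pMat DQ φ) (matCont_pMat DQ φ)) :=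
  baseChangeAlong_isEquiv_ofMat (A := DQ.R) (B := DualNumber (ResidueField 𝒪))
    (φ : DQ.R →+* DualNumber (ResidueField 𝒪)) (isLocalHom_algHom_dualNumber φ) DQ.ρ
    (stdBasis DQ.ρ)

/-- all tangent vectors of `DQ.R` have the same `k`-component. -/
theorem fst_eq (φ φ' : DQ.R →ₐ[𝒪] DualNumber (ResidueField 𝒪)) (x : DQ.R) :
    (φ x).fst = (φ' x).fst :=
  fst_algHom_dualNumber_eq DQ.residue_surjective φ φ' x

/-- the sum of two tangent vectors of the universal deformation ring. -/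
noncomputable def tAdd (φ φ' : DQ.R →ₐ[𝒪] DualNumber (ResidueField 𝒪)) :
    DQ.R →ₐ[𝒪] DualNumber (ResidueField 𝒪) :=
  addHom φ φ' (fst_eq DQ φ φ')

theorem exists_modelConj :
    ∃ g : GL (Fin 2) (ResidueField 𝒪), ∀ (φ : DQ.R →ₐ[𝒪] DualNumber (ResidueField 𝒪)) (σ : GQ),
      (g : Matrix (Fin 2) (Fin 2) (ResidueField 𝒪)) * rfst (pMat DQ φ) σ =
        toMatRes ρbar b σ * (g : Matrix (Fin 2) (Fin 2) (ResidueField 𝒪)) := by
  by_cases hne : Nonempty (DQ.R →ₐ[𝒪] DualNumber (ResidueField 𝒪))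
  · obtain ⟨φ₀⟩ := hne
    obtain ⟨e1⟩ := tangentRep_isEquiv_pMat DQ φ₀
    obtain ⟨e2⟩ := tangentRep_isEquiv_tangentMat DQ b φ₀
    obtain ⟨P, hP⟩ := (ofMat_isEquiv_iff (matCont_pMat DQ φ₀)
      (matCont_tangentMat DQ b φ₀)).1 ⟨e1.symm.trans e2⟩
    refine ⟨Matrix.GeneralLinearGroup.map
      ((TrivSqZeroExt.fstHom (ResidueField 𝒪) (ResidueField 𝒪) (ResidueField 𝒪) :
        DualNumber (ResidueField 𝒪) →ₐ[ResidueField 𝒪] ResidueField 𝒪) :
        DualNumber (ResidueField 𝒪) →+* ResidueField 𝒪) P, fun φ σ => ?_⟩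
    have h1 := congrArg mfst (hP σ)
    rw [mfst_mul, mfst_mul] at h1
    have h2 : mfst (tangentMat DQ b φ₀ σ) = toMatRes ρbar b σ :=
      congrArg (fun f => f σ) (rfst_tangentMat DQ b φ₀)
    rw [h2] at h1
    rw [show rfst (pMat DQ φ) = rfst (pMat DQ φ₀) from
      rfst_pushMat_congr (𝒪 := 𝒪) (R := DQ.R) (univMat DQ) φ φ₀ (fst_eq DQ φ φ₀)]
    exact h1
  · exact ⟨1, fun φ => absurd ⟨φ⟩ hne⟩

/-- the ONE conjugating matrix bringing the reduction of `univMat` to `toMatRes ρbar b`. -/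
noncomputable def modelConj : GL (Fin 2) (ResidueField 𝒪) :=
  Classical.choose (exists_modelConj DQ b)

theorem modelConj_spec (φ : DQ.R →ₐ[𝒪] DualNumber (ResidueField 𝒪)) (σ : GQ) :
    (modelConj DQ b : Matrix (Fin 2) (Fin 2) (ResidueField 𝒪)) *
        rfst (pMat DQ φ) σ =
      toMatRes ρbar b σ * (modelConj DQ b : Matrix (Fin 2) (Fin 2) (ResidueField 𝒪)) :=
  Classical.choose_spec (exists_modelConj DQ b) φ σ

/-- **the linear matrix model** of the first-order deformation attached to `φ`. -/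
noncomputable def linMat (φ : DQ.R →ₐ[𝒪] DualNumber (ResidueField 𝒪)) :
    GQ →* Matrix (Fin 2) (Fin 2) (DualNumber (ResidueField 𝒪)) :=
  conjMat (A := DualNumber (ResidueField 𝒪)) (constGL (modelConj DQ b)) (pMat DQ φ)

theorem matCont_linMat (φ : DQ.R →ₐ[𝒪] DualNumber (ResidueField 𝒪)) :
    MatCont (A := DualNumber (ResidueField 𝒪)) (linMat DQ b φ) :=
  matCont_conjMat (A := DualNumber (ResidueField 𝒪)) (constGL (modelConj DQ b))
    (r := pMat DQ φ) (matCont_pMat DQ φ)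

theorem pMat_isEquiv_linMat (φ : DQ.R →ₐ[𝒪] DualNumber (ResidueField 𝒪)) :
    (ofMat (A := DualNumber (ResidueField 𝒪)) (pMat DQ φ) (matCont_pMat DQ φ)).IsEquiv
      (ofMat (A := DualNumber (ResidueField 𝒪)) (linMat DQ b φ) (matCont_linMat DQ b φ)) :=
  isEquiv_ofMat_conjMat (A := DualNumber (ResidueField 𝒪)) (constGL (modelConj DQ b))
    (r := pMat DQ φ) (matCont_pMat DQ φ)

theorem tangentRep_isEquiv_linMat (φ : DQ.R →ₐ[𝒪] DualNumber (ResidueField 𝒪)) :
    (tangentRep DQ φ).IsEquiv (ofMat (linMat DQ b φ) (matCont_linMat DQ b φ)) := by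
  obtain ⟨e1⟩ := tangentRep_isEquiv_pMat DQ φ
  obtain ⟨e2⟩ := pMat_isEquiv_linMat DQ b φ
  exact ⟨e1.trans e2⟩

theorem rfst_linMat (φ : DQ.R →ₐ[𝒪] DualNumber (ResidueField 𝒪)) :
    rfst (linMat DQ b φ) = toMatRes ρbar b := by
  refine MonoidHom.ext fun σ => ?_
  unfold linMat
  rw [rfst_conjMat_constGL, modelConj_spec, Matrix.mul_assoc, ← Units.val_mul, mul_inv_cancel,
    Units.val_one, Matrix.mul_one]

/-- **the linear tangent cocycle** of a tangent vector: additive and homogeneous in `φ` on the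
nose, cohomologous to `tangentCocycle DQ b φ`. -/
noncomputable def linCocycle (φ : DQ.R →ₐ[𝒪] DualNumber (ResidueField 𝒪)) (σ : GQ) :
    Matrix (Fin 2) (Fin 2) (ResidueField 𝒪) :=
  tanCocycle (linMat DQ b φ) σ

theorem linCocycle_eq (φ : DQ.R →ₐ[𝒪] DualNumber (ResidueField 𝒪)) (σ : GQ) :
    linCocycle DQ b φ σ =
      (modelConj DQ b : Matrix (Fin 2) (Fin 2) (ResidueField 𝒪)) *
        tanCocycle (pMat DQ φ) σ *
        (((modelConj DQ b)⁻¹ : GL (Fin 2) (ResidueField 𝒪)) :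
          Matrix (Fin 2) (Fin 2) (ResidueField 𝒪)) := by
  unfold linCocycle linMat
  rw [tanCocycle_conjMat_constGL]

/-- **additivity on the nose.** -/
theorem linCocycle_tAdd (φ φ' : DQ.R →ₐ[𝒪] DualNumber (ResidueField 𝒪)) (σ : GQ) :
    linCocycle DQ b (tAdd DQ φ φ') σ = linCocycle DQ b φ σ + linCocycle DQ b φ' σ := by
  have h := tanCocycle_pushMat_addHom (𝒪 := 𝒪) (R := DQ.R) (univMat DQ) φ φ' (fst_eq DQ φ φ') σ
  rw [linCocycle_eq, linCocycle_eq, linCocycle_eq]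
  unfold pMat tAdd
  rw [h, Matrix.mul_add, Matrix.add_mul]

/-- **homogeneity on the nose.** -/
theorem linCocycle_smulHom (a : ResidueField 𝒪) (φ : DQ.R →ₐ[𝒪] DualNumber (ResidueField 𝒪))
    (σ : GQ) : linCocycle DQ b (smulHom a φ) σ = a • linCocycle DQ b φ σ := by
  have h := tanCocycle_pushMat_smulHom (𝒪 := 𝒪) (R := DQ.R) (univMat DQ) a φ σ
  rw [linCocycle_eq, linCocycle_eq]
  unfold pMat
  rw [h, Matrix.mul_smul, Matrix.smul_mul]

/-- the constant tangent vector has linear cocycle `0`. -/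
theorem linCocycle_smulHom_zero (φ : DQ.R →ₐ[𝒪] DualNumber (ResidueField 𝒪)) (σ : GQ) :
    linCocycle DQ b (smulHom 0 φ) σ = 0 := by
  rw [linCocycle_smulHom, zero_smul]

/-! #### the API of `tangentCocycle`, for `linCocycle` -/

theorem linCocycle_mul (φ : DQ.R →ₐ[𝒪] DualNumber (ResidueField 𝒪)) (σ τ : GQ) :
    linCocycle DQ b φ (σ * τ) = linCocycle DQ b φ σ +
      toMatRes ρbar b σ * linCocycle DQ b φ τ * toMatRes ρbar b σ⁻¹ := by
  unfold linCocycle
  rw [tanCocycle_mul, rfst_linMat]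

theorem exists_levelConstant_linCocycle (φ : DQ.R →ₐ[𝒪] DualNumber (ResidueField 𝒪)) :
    ∃ L : IntermediateField ℚ (AlgebraicClosure ℚ), FiniteDimensional ℚ L ∧
      (∀ s : GQ, (∀ x ∈ L, s x = x) → linCocycle DQ b φ s = 0) ∧
      ∀ g s : GQ, (∀ x ∈ L, s x = x) → linCocycle DQ b φ (g * s) = linCocycle DQ b φ g :=
  exists_levelConstant (linMat DQ b φ) (matCont_linMat DQ b φ)

theorem trace_linCocycle (φ : DQ.R →ₐ[𝒪] DualNumber (ResidueField 𝒪)) (p : ℕ) (hp : 0 < p)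
    (hdet : (tangentRep DQ φ).DetIsCyclotomic p) (σ : GQ) :
    Matrix.trace (linCocycle DQ b φ σ) = 0 :=
  trace_tanCocycle_eq_zero_of_detIsCyclotomic _ (matCont_linMat DQ b φ) p hp
    (detIsCyclotomic_of_isEquiv (tangentRep_isEquiv_linMat DQ b φ) hdet) σ

theorem linCocycle_eq_zero_of_isUnramifiedAt
    (φ : DQ.R →ₐ[𝒪] DualNumber (ResidueField 𝒪)) {q : ℕ}
    (hq : (tangentRep DQ φ).IsUnramifiedAt q)
    (P : ValuationSubring (AlgebraicClosure ℚ)) (hP : P.LiesOverPrime q) (σ : GQ)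
    (hσ : σ ∈ P.inertiaSubgroupIn ℚ) : linCocycle DQ b φ σ = 0 :=
  tanCocycle_eq_zero_of_isUnramifiedAt _ (matCont_linMat DQ b φ)
    (isUnramifiedAt_of_isEquiv (tangentRep_isEquiv_linMat DQ b φ) hq) P hP σ hσ

/-- tangent vectors with cohomologous linear cocycles give equivalent first-order
deformations. -/
theorem tangentRep_isEquiv_of_linCocycle_cohomologous
    (φ φ' : DQ.R →ₐ[𝒪] DualNumber (ResidueField 𝒪))
    (X : Matrix (Fin 2) (Fin 2) (ResidueField 𝒪))
    (h : ∀ σ, linCocycle DQ b φ' σ = linCocycle DQ b φ σ + X -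
      toMatRes ρbar b σ * X * toMatRes ρbar b σ⁻¹) :
    (tangentRep DQ φ).IsEquiv (tangentRep DQ φ') := by
  obtain ⟨e1⟩ := tangentRep_isEquiv_linMat DQ b φ
  obtain ⟨e2⟩ := tangentRep_isEquiv_linMat DQ b φ'
  obtain ⟨e3⟩ := isEquiv_of_cohomologous (linMat DQ b φ) (linMat DQ b φ')
    (matCont_linMat DQ b φ) (matCont_linMat DQ b φ')
    ((rfst_linMat DQ b φ).trans (rfst_linMat DQ b φ').symm) X (by
      intro σ
      rw [rfst_linMat]
      exact h σ)
  exact ⟨(e1.trans e3).trans e2.symm⟩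

/-- the `linCocycle` version of helper11's `injective_of_cohomology_invariant`. -/
theorem injective_of_linCocycle_invariant
    (h𝒟 : ∀ φ : DQ.R →ₐ[𝒪] DualNumber (ResidueField 𝒪), Function.Surjective φ →
      𝒟 (tangentRep DQ φ))
    {T : Type*} (q : (GQ → Matrix (Fin 2) (Fin 2) (ResidueField 𝒪)) → T)
    (hq : ∀ φ φ' : DQ.R →ₐ[𝒪] DualNumber (ResidueField 𝒪),
      q (linCocycle DQ b φ) = q (linCocycle DQ b φ') →
        ∃ X : Matrix (Fin 2) (Fin 2) (ResidueField 𝒪), ∀ σ,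
          linCocycle DQ b φ' σ = linCocycle DQ b φ σ + X -
            toMatRes ρbar b σ * X * toMatRes ρbar b σ⁻¹) :
    Function.Injective fun φ : DQ.R →ₐ[𝒪] DualNumber (ResidueField 𝒪) =>
      q (linCocycle DQ b φ) :=
  injective_of_class' DQ h𝒟 _ fun φ φ' h => by
    obtain ⟨X, hX⟩ := hq φ φ' h
    exact tangentRep_isEquiv_of_linCocycle_cohomologous DQ b φ φ' X hX

end Model

/-! ### (C) comparison with `tangentCocycle` and linearity up to coboundaries -/

section Compare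

variable {𝒪 : Type} [CommRing 𝒪] [IsDomain 𝒪] [IsDiscreteValuationRing 𝒪]
  [IsAdicComplete (maximalIdeal 𝒪) 𝒪]
  {ρbar : ResidualGaloisRep (ResidueField 𝒪)}
  {𝒟 : ∀ ⦃A : Type⦄ [CommRing A] [IsLocalRing A] [Algebra 𝒪 A], GaloisRepAdic A → Prop}
  (DQ : GaloisRep.DeformationRingData 𝒪 ρbar 𝒟)
  (b : Module.Basis (Fin 2) (ResidueField 𝒪) ρbar.V)

/-- the coboundary of `X ∈ M₂(k)` for the adjoint action of `ρbar` (matrix form). -/
noncomputable def cob (X : Matrix (Fin 2) (Fin 2) (ResidueField 𝒪)) (σ : GQ) :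
    Matrix (Fin 2) (Fin 2) (ResidueField 𝒪) :=
  X - toMatRes ρbar b σ * X * toMatRes ρbar b σ⁻¹

theorem cob_add (X Y : Matrix (Fin 2) (Fin 2) (ResidueField 𝒪)) (σ : GQ) :
    cob b (X + Y) σ = cob b X σ + cob b Y σ := by
  unfold cob
  rw [Matrix.mul_add, Matrix.add_mul]
  abel

theorem cob_sub (X Y : Matrix (Fin 2) (Fin 2) (ResidueField 𝒪)) (σ : GQ) :
    cob b (X - Y) σ = cob b X σ - cob b Y σ := by
  unfold cob
  rw [Matrix.mul_sub, Matrix.sub_mul]
  abel

theorem cob_smul (a : ResidueField 𝒪) (X : Matrix (Fin 2) (Fin 2) (ResidueField 𝒪)) (σ : GQ) :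
    cob b (a • X) σ = a • cob b X σ := by
  unfold cob
  rw [Matrix.mul_smul, Matrix.smul_mul, smul_sub]

/-- Schur's lemma for `ρbar` in matrix form. -/
theorem exists_scalar_of_commute (habs : ρbar.IsAbsolutelyIrreducible)
    (m : Matrix (Fin 2) (Fin 2) (ResidueField 𝒪))
    (hm : ∀ σ, m * toMatRes ρbar b σ = toMatRes ρbar b σ * m) :
    ∃ a : ResidueField 𝒪, m = Matrix.scalar (Fin 2) a :=
  exists_eq_scalar_of_commute (A := ResidueField 𝒪)
    (span_range_toMatRes_eq_top ρbar habs b) hm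

/-- **`tangentCocycle` and `linCocycle` are cohomologous.** -/
theorem exists_tangentCocycle_eq (φ : DQ.R →ₐ[𝒪] DualNumber (ResidueField 𝒪)) :
    ∃ X : Matrix (Fin 2) (Fin 2) (ResidueField 𝒪), ∀ σ,
      tangentCocycle DQ b φ σ = linCocycle DQ b φ σ + cob b X σ := by
  obtain ⟨e1⟩ := tangentRep_isEquiv_linMat DQ b φ
  obtain ⟨e2⟩ := tangentRep_isEquiv_tangentMat DQ b φ
  obtain ⟨P, hP⟩ := (ofMat_isEquiv_iff (matCont_linMat DQ b φ)
    (matCont_tangentMat DQ b φ)).1 ⟨e1.symm.trans e2⟩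
  have hlin : ∀ σ, mfst (linMat DQ b φ σ) = toMatRes ρbar b σ := fun σ =>
    congrArg (fun f => f σ) (rfst_linMat DQ b φ)
  have htan : ∀ σ, mfst (tangentMat DQ b φ σ) = toMatRes ρbar b σ := fun σ =>
    congrArg (fun f => f σ) (rfst_tangentMat DQ b φ)
  have hcomm : ∀ σ, mfst (P : Matrix (Fin 2) (Fin 2) (DualNumber (ResidueField 𝒪))) *
      toMatRes ρbar b σ = toMatRes ρbar b σ *
        mfst (P : Matrix (Fin 2) (Fin 2) (DualNumber (ResidueField 𝒪))) := by
    intro σ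
    have h1 := congrArg mfst (hP σ)
    rw [mfst_mul, mfst_mul, hlin, htan] at h1
    exact h1
  obtain ⟨a, ha⟩ := exists_scalar_of_commute b DQ.absIrr _ hcomm
  have ha0 : a ≠ 0 := by
    intro h0
    have h1 : mfst (P : Matrix (Fin 2) (Fin 2) (DualNumber (ResidueField 𝒪))) *
        mfst ((P⁻¹ : GL (Fin 2) (DualNumber (ResidueField 𝒪))) :
          Matrix (Fin 2) (Fin 2) (DualNumber (ResidueField 𝒪))) = 1 := by
      rw [← mfst_mul, ← Units.val_mul, mul_inv_cancel, Units.val_one, mfst_one]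
    rw [ha, h0, map_zero, Matrix.zero_mul] at h1
    have h2 := congrFun (congrFun h1 0) 0
    rw [Matrix.zero_apply, Matrix.one_apply_eq] at h2
    exact zero_ne_one h2
  set P' : Matrix (Fin 2) (Fin 2) (DualNumber (ResidueField 𝒪)) :=
    (TrivSqZeroExt.inl a⁻¹ : DualNumber (ResidueField 𝒪)) •
      (P : Matrix (Fin 2) (Fin 2) (DualNumber (ResidueField 𝒪))) with hP'
  have hP'1 : mfst P' = 1 := by
    have h3 : mfst P' = a⁻¹ • mfst (P : Matrix (Fin 2) (Fin 2) (DualNumber (ResidueField 𝒪))) := by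
      ext i j
      rw [hP', mfst_apply, Matrix.smul_apply, Matrix.smul_apply, mfst_apply, smul_eq_mul,
        TrivSqZeroExt.fst_mul, TrivSqZeroExt.fst_inl, smul_eq_mul]
    rw [h3, ha]
    ext i j
    by_cases hij : i = j
    · subst hij
      rw [Matrix.smul_apply, Matrix.scalar_apply, Matrix.diagonal_apply_eq, Matrix.one_apply_eq,
        smul_eq_mul, inv_mul_cancel₀ ha0]
    · rw [Matrix.smul_apply, Matrix.scalar_apply, Matrix.diagonal_apply_ne _ hij,
        Matrix.one_apply_ne hij, smul_zero]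
  have hP'c : ∀ σ, P' * linMat DQ b φ σ = tangentMat DQ b φ σ * P' := by
    intro σ
    rw [hP', Matrix.smul_mul, Matrix.mul_smul, hP σ]
  refine ⟨msnd P', fun σ => ?_⟩
  have h4 := cohomologous_of_conj (linMat DQ b φ) (tangentMat DQ b φ)
    ((rfst_linMat DQ b φ).trans (rfst_tangentMat DQ b φ).symm) P' hP'1 hP'c σ
  rw [rfst_linMat] at h4
  unfold tangentCocycle linCocycle cob
  rw [h4]
  abel

/-- **additivity of `tangentCocycle` up to a coboundary.** -/
theorem exists_tangentCocycle_tAdd (φ φ' : DQ.R →ₐ[𝒪] DualNumber (ResidueField 𝒪)) :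
    ∃ X : Matrix (Fin 2) (Fin 2) (ResidueField 𝒪), ∀ σ,
      tangentCocycle DQ b (tAdd DQ φ φ') σ =
        tangentCocycle DQ b φ σ + tangentCocycle DQ b φ' σ + cob b X σ := by
  obtain ⟨X₁, h₁⟩ := exists_tangentCocycle_eq DQ b (tAdd DQ φ φ')
  obtain ⟨X₂, h₂⟩ := exists_tangentCocycle_eq DQ b φ
  obtain ⟨X₃, h₃⟩ := exists_tangentCocycle_eq DQ b φ'
  refine ⟨X₁ - X₂ - X₃, fun σ => ?_⟩
  rw [h₁, h₂, h₃, linCocycle_tAdd, cob_sub, cob_sub]
  abel

/-- **homogeneity of `tangentCocycle` up to a coboundary.** -/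
theorem exists_tangentCocycle_smulHom (a : ResidueField 𝒪)
    (φ : DQ.R →ₐ[𝒪] DualNumber (ResidueField 𝒪)) :
    ∃ X : Matrix (Fin 2) (Fin 2) (ResidueField 𝒪), ∀ σ,
      tangentCocycle DQ b (smulHom a φ) σ = a • tangentCocycle DQ b φ σ + cob b X σ := by
  obtain ⟨X₁, h₁⟩ := exists_tangentCocycle_eq DQ b (smulHom a φ)
  obtain ⟨X₂, h₂⟩ := exists_tangentCocycle_eq DQ b φ
  refine ⟨X₁ - a • X₂, fun σ => ?_⟩
  rw [h₁, h₂, linCocycle_smulHom, cob_sub, cob_smul, smul_add]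
  abel

/-- the constant tangent vector has a coboundary as tangent cocycle. -/
theorem exists_tangentCocycle_smulHom_zero (φ : DQ.R →ₐ[𝒪] DualNumber (ResidueField 𝒪)) :
    ∃ X : Matrix (Fin 2) (Fin 2) (ResidueField 𝒪), ∀ σ,
      tangentCocycle DQ b (smulHom 0 φ) σ = cob b X σ := by
  obtain ⟨X, h⟩ := exists_tangentCocycle_smulHom DQ b 0 φ
  exact ⟨X, fun σ => by rw [h σ, zero_smul, zero_add]⟩

/-- **the class map is additive**: for ANY additive map `q` on an additive subgroup `Z` of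
functions `G_ℚ → M₂(k)` containing the tangent cocycles and the coboundaries, and killing the
coboundaries, `φ ↦ q [tangentCocycle φ]` is additive. -/
theorem map_tangentCocycle_tAdd {T : Type*} [AddCommGroup T]
    (Z : AddSubgroup (GQ → Matrix (Fin 2) (Fin 2) (ResidueField 𝒪))) (q : Z →+ T)
    (hZ : ∀ φ : DQ.R →ₐ[𝒪] DualNumber (ResidueField 𝒪), tangentCocycle DQ b φ ∈ Z)
    (hcobZ : ∀ X, cob b X ∈ Z) (hcob : ∀ X, q ⟨cob b X, hcobZ X⟩ = 0)
    (φ φ' : DQ.R →ₐ[𝒪] DualNumber (ResidueField 𝒪)) :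
    q ⟨tangentCocycle DQ b (tAdd DQ φ φ'), hZ _⟩ =
      q ⟨tangentCocycle DQ b φ, hZ _⟩ + q ⟨tangentCocycle DQ b φ', hZ _⟩ := by
  obtain ⟨X, hX⟩ := exists_tangentCocycle_tAdd DQ b φ φ'
  have h1 : (⟨tangentCocycle DQ b (tAdd DQ φ φ'), hZ _⟩ : Z) =
      ⟨tangentCocycle DQ b φ, hZ _⟩ + ⟨tangentCocycle DQ b φ', hZ _⟩ + ⟨cob b X, hcobZ X⟩ := by
    refine Subtype.ext (funext fun σ => ?_)
    exact hX σ
  rw [h1, map_add, map_add, hcob, add_zero]

/-- **the class map is `k`-homogeneous** (linear version of `map_tangentCocycle_tAdd`). -/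
theorem map_tangentCocycle_smulHom {T : Type*} [AddCommGroup T] [Module (ResidueField 𝒪) T]
    (Z : Submodule (ResidueField 𝒪) (GQ → Matrix (Fin 2) (Fin 2) (ResidueField 𝒪)))
    (q : Z →ₗ[ResidueField 𝒪] T)
    (hZ : ∀ φ : DQ.R →ₐ[𝒪] DualNumber (ResidueField 𝒪), tangentCocycle DQ b φ ∈ Z)
    (hcobZ : ∀ X, cob b X ∈ Z) (hcob : ∀ X, q ⟨cob b X, hcobZ X⟩ = 0)
    (a : ResidueField 𝒪) (φ : DQ.R →ₐ[𝒪] DualNumber (ResidueField 𝒪)) :
    q ⟨tangentCocycle DQ b (smulHom a φ), hZ _⟩ = a • q ⟨tangentCocycle DQ b φ, hZ _⟩ := by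
  obtain ⟨X, hX⟩ := exists_tangentCocycle_smulHom DQ b a φ
  have h1 : (⟨tangentCocycle DQ b (smulHom a φ), hZ _⟩ : Z) =
      a • ⟨tangentCocycle DQ b φ, hZ _⟩ + ⟨cob b X, hcobZ X⟩ := by
    refine Subtype.ext (funext fun σ => ?_)
    exact hX σ
  rw [h1, map_add, map_smul, hcob, add_zero]

/-- **the set of classes of tangent cocycles is closed under addition**: in relational form. -/
theorem exists_tangentCocycle_add (φ φ' : DQ.R →ₐ[𝒪] DualNumber (ResidueField 𝒪)) :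
    ∃ (φ'' : DQ.R →ₐ[𝒪] DualNumber (ResidueField 𝒪))
      (X : Matrix (Fin 2) (Fin 2) (ResidueField 𝒪)), ∀ σ,
      tangentCocycle DQ b φ'' σ =
        tangentCocycle DQ b φ σ + tangentCocycle DQ b φ' σ + cob b X σ :=
  ⟨tAdd DQ φ φ', exists_tangentCocycle_tAdd DQ b φ φ'⟩

end Compare

end Fermat.Agent.GP.Tan.Linear
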