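/-
S56 [P-TAN] leaf S56-TAN-BC (helper64): base-change stability of the frozen S56 deformation
conditions along a local ring hom `φ : A → B`.

* `detIsCyclotomic_baseChangeAlong`, `isUnramifiedAt_baseChangeAlong`,
  `isUnipotentOnInertiaAt_baseChangeAlong`, `isStrictOrdinaryAt_baseChangeAlong`: any local `φ`.
* `isFlatAt_baseChangeAlong_of_surjective`: surjective `φ`.
* `strictOrdinaryCondition_baseChangeAlong`, `flatCondition_baseChangeAlong_of_surjective` and the
  two packaged forms in the exact shape of the frozen S56 condition.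
-/
import Fermat.Prelude.Def_GaloisRep_StrictOrdinary
import Fermat.Prelude.Def_GaloisRep_Flat
import Mathlib

set_option autoImplicit false

open scoped TensorProduct
open IsLocalRing

namespace Fermat.Agent.GP.Tan

variable {A : Type} [CommRing A] [IsLocalRing A] {B : Type} [CommRing B] [IsLocalRing B]

/-- A local hom maps the maximal ideal into the maximal ideal. -/
theorem baseChangeAlong_map_mem_maximalIdeal (φ : A →+* B) (hφ : IsLocalHom φ) {a : A}
    (ha : a ∈ maximalIdeal A) : φ a ∈ maximalIdeal B :=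
  haveI := hφ; map_nonunit φ a ha

omit [IsLocalRing A] [IsLocalRing B] in
/-- `φ` maps `span {(m : A)}` into `span {(m : B)}`. -/
theorem baseChangeAlong_map_mem_span_natCast (φ : A →+* B) {m : ℕ} {a : A}
    (ha : a ∈ Ideal.span {(m : A)}) : φ a ∈ Ideal.span {(m : B)} := by
  obtain ⟨c, rfl⟩ := Ideal.mem_span_singleton'.1 ha
  rw [map_mul, map_natCast]
  exact Ideal.mul_mem_left _ _ (Ideal.subset_span rfl)

theorem baseChangeAlong_rho_apply (φ : A →+* B) (hφ : IsLocalHom φ) (ρ : GaloisRepAdic A)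
    (σ : AlgebraicClosure ℚ ≃ₐ[ℚ] AlgebraicClosure ℚ) :
    letI : Algebra A B := φ.toAlgebra
    (ρ.baseChangeAlong φ hφ).ρ σ = (ρ.ρ σ).baseChange B := rfl

/-! ### Cyclotomic determinant -/

theorem detIsCyclotomic_baseChangeAlong (φ : A →+* B) (hφ : IsLocalHom φ) {ρ : GaloisRepAdic A}
    {p : ℕ} (h : ρ.DetIsCyclotomic p) : (ρ.baseChangeAlong φ hφ).DetIsCyclotomic p := by
  let _ : Algebra A B := φ.toAlgebra
  refine ⟨?_, fun n σ a ha => ?_⟩
  · have h1 := baseChangeAlong_map_mem_maximalIdeal φ hφ h.1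
    rwa [map_natCast] at h1
  · have h1 := baseChangeAlong_map_mem_span_natCast φ (h.2 n σ a ha)
    rw [map_sub, map_natCast] at h1
    change LinearMap.det ((ρ.ρ σ).baseChange B) - (a : B) ∈ Ideal.span {((p ^ n : ℕ) : B)}
    rw [LinearMap.det_baseChange]
    exact h1

/-! ### Unramified / unipotent on inertia -/

theorem isUnramifiedAt_baseChangeAlong (φ : A →+* B) (hφ : IsLocalHom φ) {ρ : GaloisRepAdic A}
    {q : ℕ} (h : ρ.IsUnramifiedAt q) : (ρ.baseChangeAlong φ hφ).IsUnramifiedAt q := by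
  let _ : Algebra A B := φ.toAlgebra
  intro P hP σ hσ
  change (ρ.ρ σ).baseChange B = 1
  rw [h P hP σ hσ, LinearMap.baseChange_one]

theorem isUnipotentOnInertiaAt_baseChangeAlong (φ : A →+* B) (hφ : IsLocalHom φ)
    {ρ : GaloisRepAdic A} {q : ℕ} (h : ρ.IsUnipotentOnInertiaAt q) :
    (ρ.baseChangeAlong φ hφ).IsUnipotentOnInertiaAt q := by
  let _ : Algebra A B := φ.toAlgebra
  intro P hP σ hσ
  change LinearMap.charpoly ((ρ.ρ σ).baseChange B) = (Polynomial.X - 1) ^ 2
  rw [LinearMap.charpoly_baseChange, h P hP σ hσ]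
  simp

/-! ### Strict ordinarity at `p` -/

omit [IsLocalRing A] [IsLocalRing B] in
/-- `c ⊗ₜ v ∈ B ∙ (1 ⊗ₜ b₀)` when `v ∈ A ∙ b₀`. -/
theorem baseChangeAlong_tmul_mem_span [Algebra A B] {V : Type} [AddCommGroup V] [Module A V]
    (b₀ : V) {v : V} (hv : v ∈ Submodule.span A {b₀}) (c : B) :
    c ⊗ₜ[A] v ∈ Submodule.span B {(1 : B) ⊗ₜ[A] b₀} := by
  obtain ⟨a, rfl⟩ := Submodule.mem_span_singleton.1 hv
  rw [Submodule.mem_span_singleton]
  refine ⟨c * algebraMap A B a, ?_⟩
  rw [TensorProduct.smul_tmul', smul_eq_mul, mul_one, TensorProduct.tmul_smul,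
    TensorProduct.smul_tmul', Algebra.smul_def, mul_comm]

omit [IsLocalRing A] [IsLocalRing B] in
/-- If `f v - z • v ∈ A ∙ b₀` for all `v`, then `f.baseChange B w - φ z • w ∈ B ∙ (1 ⊗ₜ b₀)`
for all `w`. -/
theorem baseChangeAlong_baseChange_sub_smul_mem_span [Algebra A B] {V : Type} [AddCommGroup V]
    [Module A V] (b₀ : V) (f : Module.End A V) (z : A)
    (hf : ∀ v : V, f v - z • v ∈ Submodule.span A {b₀}) (w : B ⊗[A] V) :
    f.baseChange B w - algebraMap A B z • w ∈ Submodule.span B {(1 : B) ⊗ₜ[A] b₀} := by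
  induction w using TensorProduct.induction_on with
  | zero => simp
  | tmul c v =>
    have h1 : f.baseChange B (c ⊗ₜ[A] v) - algebraMap A B z • (c ⊗ₜ[A] v) =
        c ⊗ₜ[A] (f v - z • v) := by
      rw [LinearMap.baseChange_tmul, TensorProduct.tmul_sub, TensorProduct.tmul_smul,
        algebraMap_smul]
    rw [h1]
    exact baseChangeAlong_tmul_mem_span b₀ (hf v) c
  | add x y hx hy =>
    rw [map_add, smul_add, add_sub_add_comm]
    exact Submodule.add_mem _ hx hy

omit [IsLocalRing A] [IsLocalRing B] in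
/-- Core of the strict-ordinary base change, in explicit tensor-product form. -/
theorem baseChangeAlong_strictOrdinary_core [Algebra A B] {V : Type} [AddCommGroup V]
    [Module A V] {G : Type} (r : G → Module.End A V) (D I : Set G) (cyc : G → ℕ → ℕ → Prop)
    (p : ℕ)
    (h : ∃ L : Submodule A V,
      (∃ b : Module.Basis (Fin 2) A V, L = Submodule.span A {b 0}) ∧
      (∀ σ ∈ D, ∀ v ∈ L, r σ v ∈ L) ∧
      (∀ σ ∈ I, ∀ v : V, r σ v - v ∈ L) ∧
      (∀ σ ∈ D, ∃ x z : A,
        (∀ w ∈ L, r σ w = x • w) ∧ (∀ v : V, r σ v - z • v ∈ L) ∧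
        ∀ (n a : ℕ), cyc σ n a → x - (a : A) * z ∈ Ideal.span {((p ^ n : ℕ) : A)})) :
    ∃ L : Submodule B (B ⊗[A] V),
      (∃ b : Module.Basis (Fin 2) B (B ⊗[A] V), L = Submodule.span B {b 0}) ∧
      (∀ σ ∈ D, ∀ v ∈ L, (r σ).baseChange B v ∈ L) ∧
      (∀ σ ∈ I, ∀ v : B ⊗[A] V, (r σ).baseChange B v - v ∈ L) ∧
      (∀ σ ∈ D, ∃ x z : B,
        (∀ w ∈ L, (r σ).baseChange B w = x • w) ∧
        (∀ v : B ⊗[A] V, (r σ).baseChange B v - z • v ∈ L) ∧
        ∀ (n a : ℕ), cyc σ n a → x - (a : B) * z ∈ Ideal.span {((p ^ n : ℕ) : B)}) := by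
  obtain ⟨L, ⟨b, hb⟩, hD, hI, hS⟩ := h
  have hb0 : b 0 ∈ L := hb ▸ Submodule.mem_span_singleton_self (b 0)
  refine ⟨Submodule.span B {(1 : B) ⊗ₜ[A] b 0}, ⟨b.baseChange B, ?_⟩, ?_, ?_, ?_⟩
  · rw [Module.Basis.baseChange_apply]
  · intro σ hσ w hw
    obtain ⟨c, rfl⟩ := Submodule.mem_span_singleton.1 hw
    rw [map_smul, LinearMap.baseChange_tmul]
    exact Submodule.smul_mem _ _
      (baseChangeAlong_tmul_mem_span (b 0) (hb ▸ hD σ hσ (b 0) hb0) 1)
  · intro σ hσ w
    have h1 := baseChangeAlong_baseChange_sub_smul_mem_span (B := B) (b 0) (r σ) 1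
      (fun v => by rw [one_smul]; exact hb ▸ hI σ hσ v) w
    rwa [map_one, one_smul] at h1
  · intro σ hσ
    obtain ⟨x, z, hx, hz, hxz⟩ := hS σ hσ
    refine ⟨algebraMap A B x, algebraMap A B z, ?_, ?_, ?_⟩
    · intro w hw
      obtain ⟨c, rfl⟩ := Submodule.mem_span_singleton.1 hw
      rw [map_smul, LinearMap.baseChange_tmul, hx (b 0) hb0, TensorProduct.tmul_smul,
        smul_comm c, algebraMap_smul]
    · intro w
      exact baseChangeAlong_baseChange_sub_smul_mem_span (B := B) (b 0) (r σ) z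
        (fun v => hb ▸ hz v) w
    · intro n a ha
      have h1 := baseChangeAlong_map_mem_span_natCast (algebraMap A B) (hxz n a ha)
      rwa [map_sub, map_mul, map_natCast] at h1

theorem isStrictOrdinaryAt_baseChangeAlong (φ : A →+* B) (hφ : IsLocalHom φ)
    {ρ : GaloisRepAdic A} {p : ℕ} (h : ρ.IsStrictOrdinaryAt p) :
    (ρ.baseChangeAlong φ hφ).IsStrictOrdinaryAt p := by
  let _ : Algebra A B := φ.toAlgebra
  refine ⟨?_, fun P hP => ?_⟩
  · have h1 := baseChangeAlong_map_mem_maximalIdeal φ hφ h.1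
    rwa [map_natCast] at h1
  · exact baseChangeAlong_strictOrdinary_core (B := B) (fun σ => ρ.ρ σ)
      (P.decompositionSubgroup ℚ : Set (AlgebraicClosure ℚ ≃ₐ[ℚ] AlgebraicClosure ℚ))
      (P.inertiaSubgroupIn ℚ : Set (AlgebraicClosure ℚ ≃ₐ[ℚ] AlgebraicClosure ℚ))
      (fun σ n a => ∀ μ : AlgebraicClosure ℚ, μ ^ p ^ n = 1 → σ μ = μ ^ a) p (h.2 P hP)

/-! ### Flatness at `p` (surjective `φ`) -/

section FlatCore

variable [Algebra A B] {V : Type} [AddCommGroup V] [Module A V]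

omit [IsLocalRing A] [IsLocalRing B] in
/-- `v ↦ [1 ⊗ v] : V → (B ⊗ V)/I(B ⊗ V)`, an `A`-linear map. -/
noncomputable def baseChangeAlong_toQuot (I : Ideal B) :
    V →ₗ[A] (B ⊗[A] V) ⧸ (I • (⊤ : Submodule B (B ⊗[A] V))) :=
  ((Submodule.mkQ (I • (⊤ : Submodule B (B ⊗[A] V)))).restrictScalars A).comp
    (TensorProduct.mk A B V 1)

omit [IsLocalRing A] [IsLocalRing B] in
theorem baseChangeAlong_toQuot_apply (I : Ideal B) (v : V) :
    baseChangeAlong_toQuot (A := A) (B := B) I v =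
      Submodule.Quotient.mk ((1 : B) ⊗ₜ[A] v) := rfl

omit [IsLocalRing A] [IsLocalRing B] in
theorem baseChangeAlong_toQuot_surjective (hsurj : Function.Surjective (algebraMap A B))
    (I : Ideal B) : Function.Surjective (baseChangeAlong_toQuot (A := A) (B := B) (V := V) I) := by
  intro y
  obtain ⟨w, rfl⟩ := Submodule.Quotient.mk_surjective _ y
  obtain ⟨v, rfl⟩ := TensorProduct.mk_surjective A V B hsurj w
  exact ⟨v, rfl⟩

omit [IsLocalRing A] [IsLocalRing B] in
theorem baseChangeAlong_smul_top_le_ker (I : Ideal B) :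
    (I.comap (algebraMap A B)) • (⊤ : Submodule A V) ≤
      LinearMap.ker (baseChangeAlong_toQuot (A := A) (B := B) (V := V) I) := by
  rw [Submodule.smul_le]
  intro a ha v _
  rw [LinearMap.mem_ker, baseChangeAlong_toQuot_apply, Submodule.Quotient.mk_eq_zero,
    TensorProduct.tmul_smul, ← algebraMap_smul B a ((1 : B) ⊗ₜ[A] v)]
  exact Submodule.smul_mem_smul ha Submodule.mem_top

omit [IsLocalRing A] [IsLocalRing B] in
theorem baseChangeAlong_ker_le_smul_top [Module.Free A V] [Module.Finite A V] (I : Ideal B) :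
    LinearMap.ker (baseChangeAlong_toQuot (A := A) (B := B) (V := V) I) ≤
      (I.comap (algebraMap A B)) • (⊤ : Submodule A V) := by
  intro v hv
  rw [LinearMap.mem_ker, baseChangeAlong_toQuot_apply, Submodule.Quotient.mk_eq_zero] at hv
  set b := Module.Free.chooseBasis A V with hbdef
  have htop : (⊤ : Submodule B (B ⊗[A] V)) = Submodule.span B (Set.range (b.baseChange B)) :=
    (b.baseChange B).span_eq.symm
  rw [htop, Submodule.mem_ideal_smul_span_iff_exists_sum] at hv
  obtain ⟨c, hc, hsum⟩ := hv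
  -- coordinates of `1 ⊗ v`
  have hcoord : ∀ i, algebraMap A B (b.repr v i) = c i := by
    intro i
    have h1 : (b.baseChange B).repr ((1 : B) ⊗ₜ[A] v) i = algebraMap A B (b.repr v i) := by
      rw [Module.Basis.baseChange_repr_tmul, Algebra.smul_def, mul_one]
    have h2 : (b.baseChange B).repr (c.sum fun i a => a • (b.baseChange B) i) = c := by
      have : (c.sum fun i a => a • (b.baseChange B) i) =
          Finsupp.linearCombination B (b.baseChange B) c := by
        rw [Finsupp.linearCombination_apply]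
      rw [this, Module.Basis.repr_linearCombination]
    rw [← h1, ← hsum, h2]
  have hmem : ∀ i, b.repr v i ∈ I.comap (algebraMap A B) := fun i => by
    rw [Ideal.mem_comap, hcoord i]; exact hc i
  rw [← b.linearCombination_repr v, Finsupp.linearCombination_apply]
  exact Submodule.sum_mem _ fun i _ => Submodule.smul_mem_smul (hmem i) Submodule.mem_top

omit [IsLocalRing A] [IsLocalRing B] in
/-- The `A`-linear bijection `V/JV ≃ (B ⊗ V)/I(B ⊗ V)`, `J = φ⁻¹(I)`, for surjective `A → B`. -/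
noncomputable def baseChangeAlong_quotEquiv [Module.Free A V] [Module.Finite A V]
    (hsurj : Function.Surjective (algebraMap A B)) (I : Ideal B) :
    (V ⧸ ((I.comap (algebraMap A B)) • (⊤ : Submodule A V))) ≃ₗ[A]
      ((B ⊗[A] V) ⧸ (I • (⊤ : Submodule B (B ⊗[A] V)))) :=
  LinearEquiv.ofBijective
    (Submodule.liftQ _ (baseChangeAlong_toQuot (A := A) (B := B) (V := V) I)
      (baseChangeAlong_smul_top_le_ker I))
    ⟨LinearMap.ker_eq_bot.1 (Submodule.ker_liftQ_eq_bot _ _ _ (baseChangeAlong_ker_le_smul_top I)),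
      fun y => by
        obtain ⟨v, rfl⟩ := baseChangeAlong_toQuot_surjective (V := V) hsurj I y
        exact ⟨Submodule.Quotient.mk v, rfl⟩⟩

omit [IsLocalRing A] [IsLocalRing B] in
theorem baseChangeAlong_quotEquiv_mk [Module.Free A V] [Module.Finite A V]
    (hsurj : Function.Surjective (algebraMap A B)) (I : Ideal B) (v : V) :
    baseChangeAlong_quotEquiv (V := V) hsurj I (Submodule.Quotient.mk v) =
      Submodule.Quotient.mk ((1 : B) ⊗ₜ[A] v) := rfl

omit [IsLocalRing A] [IsLocalRing B] in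
theorem baseChangeAlong_quotEquiv_mapQ [Module.Free A V] [Module.Finite A V]
    (hsurj : Function.Surjective (algebraMap A B)) (I : Ideal B) (f : Module.End A V)
    (h1 : ((I.comap (algebraMap A B)) • (⊤ : Submodule A V)) ≤
      ((I.comap (algebraMap A B)) • (⊤ : Submodule A V)).comap f)
    (h2 : (I • (⊤ : Submodule B (B ⊗[A] V))) ≤
      (I • (⊤ : Submodule B (B ⊗[A] V))).comap (f.baseChange B))
    (x : V ⧸ ((I.comap (algebraMap A B)) • (⊤ : Submodule A V))) :
    baseChangeAlong_quotEquiv (V := V) hsurj I (Submodule.mapQ _ _ f h1 x) =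
      Submodule.mapQ _ _ (f.baseChange B) h2 (baseChangeAlong_quotEquiv (V := V) hsurj I x) := by
  obtain ⟨v, rfl⟩ := Submodule.Quotient.mk_surjective _ x
  rw [Submodule.mapQ_apply, baseChangeAlong_quotEquiv_mk, baseChangeAlong_quotEquiv_mk,
    Submodule.mapQ_apply, LinearMap.baseChange_tmul]

end FlatCore

theorem baseChangeAlong_finite_residueField (φ : A →+* B) (hφ : IsLocalHom φ)
    (hsurj : Function.Surjective φ) [Finite (ResidueField A)] : Finite (ResidueField B) := by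
  have := hφ
  refine Finite.of_surjective (fun x : ResidueField A => ResidueField.map φ x) fun y => ?_
  obtain ⟨b, rfl⟩ := IsLocalRing.residue_surjective y
  obtain ⟨a, rfl⟩ := hsurj b
  exact ⟨IsLocalRing.residue A a, ResidueField.map_residue φ a⟩

theorem isFlatAt_baseChangeAlong_of_surjective (φ : A →+* B) (hφ : IsLocalHom φ)
    (hsurj : Function.Surjective φ) {ρ : GaloisRepAdic A} {p : ℕ} (h : ρ.IsFlatAt p) :
    (ρ.baseChangeAlong φ hφ).IsFlatAt p := by
  let _ : Algebra A B := φ.toAlgebra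
  obtain ⟨hfin, hI⟩ := h
  refine ⟨baseChangeAlong_finite_residueField φ hφ hsurj, fun I hIfin => ?_⟩
  have hsurj' : Function.Surjective (algebraMap A B) := hsurj
  have : Finite (A ⧸ I.comap (algebraMap A B)) :=
    Finite.of_injective (Ideal.quotientMap I (algebraMap A B) le_rfl) Ideal.quotientMap_injective
  obtain ⟨H, i1, i2, hfinH, hflat, hcocomm, e, hadd, hequiv⟩ := hI (I.comap (algebraMap A B)) this
  let Ψ := baseChangeAlong_quotEquiv (V := ρ.V) hsurj' I
  have h2 : ∀ σ : AlgebraicClosure ℚ ≃ₐ[ℚ] AlgebraicClosure ℚ,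
      (I • (⊤ : Submodule B (B ⊗[A] ρ.V))) ≤
        (I • (⊤ : Submodule B (B ⊗[A] ρ.V))).comap ((ρ.ρ σ).baseChange B) := by
    intro σ
    rw [← Submodule.map_le_iff_le_comap, Submodule.map_smul'']
    exact Submodule.smul_mono le_rfl le_top
  have hadd' : ∀ f g : WithConv (H →ₐ[GaloisRep.ratLocalizedAt p] AlgebraicClosure ℚ),
      (e.trans Ψ.toEquiv) (f * g) = (e.trans Ψ.toEquiv) f + (e.trans Ψ.toEquiv) g := by
    intro f g
    simp only [Equiv.trans_apply, hadd, LinearEquiv.coe_toEquiv, map_add]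
  have heq' : ∀ (σ : AlgebraicClosure ℚ ≃ₐ[ℚ] AlgebraicClosure ℚ)
      (f g : WithConv (H →ₐ[GaloisRep.ratLocalizedAt p] AlgebraicClosure ℚ)),
      (∀ h : H, g h = σ (f h)) → (e.trans Ψ.toEquiv) g =
        Submodule.mapQ _ _ ((ρ.ρ σ).baseChange B) (h2 σ) ((e.trans Ψ.toEquiv) f) := by
    intro σ f g hfg
    rw [Equiv.trans_apply, hequiv σ f g hfg]
    exact baseChangeAlong_quotEquiv_mapQ hsurj' I (ρ.ρ σ) _ (h2 σ) (e f)
  exact ⟨H, i1, i2, hfinH, hflat, hcocomm, e.trans Ψ.toEquiv, hadd', heq'⟩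

/-! ### Packaged forms (the conditions of the frozen S56) -/

section Packaged

variable {𝒪 : Type} [CommRing 𝒪] [Algebra 𝒪 A] [Algebra 𝒪 B]

theorem strictOrdinaryCondition_baseChangeAlong (p : ℕ) (T : Finset ℕ) (φ : A →+* B)
    (hφ : IsLocalHom φ) {ρ : GaloisRepAdic A} (h : GaloisRep.strictOrdinaryCondition 𝒪 p T ρ) :
    GaloisRep.strictOrdinaryCondition 𝒪 p T (ρ.baseChangeAlong φ hφ) :=
  ⟨detIsCyclotomic_baseChangeAlong φ hφ h.1, isStrictOrdinaryAt_baseChangeAlong φ hφ h.2.1,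
    fun q hq hqT => isUnramifiedAt_baseChangeAlong φ hφ (h.2.2 q hq hqT)⟩

theorem flatCondition_baseChangeAlong_of_surjective (p : ℕ) (T : Finset ℕ) (φ : A →+* B)
    (hφ : IsLocalHom φ) (hsurj : Function.Surjective φ) {ρ : GaloisRepAdic A}
    (h : GaloisRep.flatCondition 𝒪 p T ρ) :
    GaloisRep.flatCondition 𝒪 p T (ρ.baseChangeAlong φ hφ) :=
  ⟨detIsCyclotomic_baseChangeAlong φ hφ h.1,
    isFlatAt_baseChangeAlong_of_surjective φ hφ hsurj h.2.1,
    fun q hq hqT => isUnramifiedAt_baseChangeAlong φ hφ (h.2.2 q hq hqT)⟩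

/-- The strict-ordinary deformation condition of the frozen S56 (first conjunct) is stable under
base change along any local hom. -/
theorem s56StrictCond_baseChangeAlong (p : ℕ) (Smin T : Finset ℕ) (φ : A →+* B)
    (hφ : IsLocalHom φ) {ρ : GaloisRepAdic A}
    (h : GaloisRep.strictOrdinaryCondition 𝒪 p T ρ ∧
      ∀ q ∈ Smin, q.Prime → q ≠ p → ρ.IsUnipotentOnInertiaAt q) :
    GaloisRep.strictOrdinaryCondition 𝒪 p T (ρ.baseChangeAlong φ hφ) ∧
      ∀ q ∈ Smin, q.Prime → q ≠ p → (ρ.baseChangeAlong φ hφ).IsUnipotentOnInertiaAt q :=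
  ⟨strictOrdinaryCondition_baseChangeAlong p T φ hφ h.1,
    fun q hq hqp hne => isUnipotentOnInertiaAt_baseChangeAlong φ hφ (h.2 q hq hqp hne)⟩

/-- The flat deformation condition of the frozen S56 (second conjunct) is stable under base change
along any surjective local hom. -/
theorem s56FlatCond_baseChangeAlong_of_surjective (p : ℕ) (Smin T : Finset ℕ) (φ : A →+* B)
    (hφ : IsLocalHom φ) (hsurj : Function.Surjective φ) {ρ : GaloisRepAdic A}
    (h : GaloisRep.flatCondition 𝒪 p T ρ ∧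
      ∀ q ∈ Smin, q.Prime → q ≠ p → ρ.IsUnipotentOnInertiaAt q) :
    GaloisRep.flatCondition 𝒪 p T (ρ.baseChangeAlong φ hφ) ∧
      ∀ q ∈ Smin, q.Prime → q ≠ p → (ρ.baseChangeAlong φ hφ).IsUnipotentOnInertiaAt q :=
  ⟨flatCondition_baseChangeAlong_of_surjective p T φ hφ hsurj h.1,
    fun q hq hqp hne => isUnipotentOnInertiaAt_baseChangeAlong φ hφ (h.2 q hq hqp hne)⟩

end Packaged

end Fermat.Agent.GP.Tan
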