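/-
GATE-P / S56, node [P-TAN] TOP (helper11): **the last line of both conjuncts of S56 from a bound
on the number of first-order deformations**.

* `SelmerBound ρbar b 𝒟 r` : the interface with the Selmer side ([P-GW] + [P-LOC]): an invariant
  `q` with values in a finite set of cardinality `≤ |k|^r` that separates, up to coboundaries,
  the tangent cocycles of the first-order lifts of type `𝒟` (and the coboundaries themselves);
* `exists_surjective_of_selmerBound` : for every `DQ : DeformationRingData 𝒪 ρbar 𝒟` with `𝒟`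
  stable under surjective base change to `k[ε]`:
  `SelmerBound ρbar b 𝒟 r → ∃ γ : 𝒪⟦X₁,…,X_r⟧ →ₐ[𝒪] DQ.R, Surjective γ`;
* `s56Strict_surjective`, `s56Flat_surjective` : the two frozen deformation conditions of S56.
-/
import Fermat.Agent.GP.Tan.Cocycle
import Fermat.Agent.GP.Tan.BaseChangeCond
import Fermat.Agent.GP.Alg.TangentSurj

set_option autoImplicit false
set_option linter.unusedSectionVars false
set_option linter.style.haveILetI false

namespace Fermat.Agent.GP.Tan.TanTop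

open IsLocalRing Fermat.Agent.S53_helper35 Matrix Fermat.Agent.GP.Tan.UnivInj
  Fermat.Agent.GP.Tan.Cocycle

section Cob

variable {k : Type} [Field k]

/-- conjugate to a representation with values in `M₂(k) ⊂ M₂(k[ε])` ⟹ the tangent cocycle is a
coboundary. -/
theorem exists_coboundary_of_conj_of_rsnd_eq_zero
    (t M : GQ →* Matrix (Fin 2) (Fin 2) (DualNumber k)) (hM : ∀ σ, rsnd M σ = 0)
    (P : GL (Fin 2) (DualNumber k))
    (hP : ∀ σ, (P : Matrix (Fin 2) (Fin 2) (DualNumber k)) * t σ =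
      M σ * (P : Matrix (Fin 2) (Fin 2) (DualNumber k))) :
    ∃ X : Matrix (Fin 2) (Fin 2) k, ∀ σ,
      tanCocycle t σ = X - rfst t σ * X * rfst t σ⁻¹ := by
  set P0 := mfst (P : Matrix (Fin 2) (Fin 2) (DualNumber k)) with hP0
  set P1 := msnd (P : Matrix (Fin 2) (Fin 2) (DualNumber k)) with hP1
  set Q0 := mfst ((P⁻¹ : GL (Fin 2) (DualNumber k)) : Matrix (Fin 2) (Fin 2) (DualNumber k))
    with hQ0
  have hQP : Q0 * P0 = 1 := by
    rw [hQ0, hP0, ← mfst_mul, ← Units.val_mul, inv_mul_cancel, Units.val_one, mfst_one]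
  have hPQ : P0 * Q0 = 1 := by
    rw [hQ0, hP0, ← mfst_mul, ← Units.val_mul, mul_inv_cancel, Units.val_one, mfst_one]
  refine ⟨-(Q0 * P1), fun σ => ?_⟩
  have h1 := congrArg mfst (hP σ)
  have h2 := congrArg msnd (hP σ)
  rw [mfst_mul, mfst_mul] at h1
  rw [msnd_mul, msnd_mul] at h2
  have hMs : msnd (M σ) = 0 := hM σ
  rw [hMs, Matrix.zero_mul, add_zero] at h2
  -- `P0 * t̄ = M̄ * P0`, `P0 * b + P1 * t̄ = M̄ * P1`
  have h3 : Q0 * mfst (M σ) = mfst (t σ) * Q0 := by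
    have : Q0 * (P0 * mfst (t σ)) * Q0 = Q0 * (mfst (M σ) * P0) * Q0 := by rw [h1]
    rw [← Matrix.mul_assoc, hQP, Matrix.one_mul, Matrix.mul_assoc, Matrix.mul_assoc, hPQ,
      Matrix.mul_one] at this
    exact this.symm
  have h4 : msnd (t σ) = mfst (t σ) * (Q0 * P1) - Q0 * P1 * mfst (t σ) := by
    have : Q0 * (P0 * msnd (t σ) + P1 * mfst (t σ)) = Q0 * (mfst (M σ) * P1) := by rw [h2]
    rw [Matrix.mul_add, ← Matrix.mul_assoc, hQP, Matrix.one_mul, ← Matrix.mul_assoc Q0 (mfst (M σ)),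
      h3, Matrix.mul_assoc, ← Matrix.mul_assoc Q0 P1] at this
    rw [← this]
    abel
  have h4' : rsnd t σ = rfst t σ * (Q0 * P1) - Q0 * P1 * rfst t σ := h4
  unfold tanCocycle
  rw [h4', Matrix.sub_mul, Matrix.mul_assoc (Q0 * P1), rfst_mul_inv, Matrix.mul_one,
    Matrix.mul_neg, Matrix.neg_mul]
  abel

end Cob

section Top

variable {𝒪 : Type} [CommRing 𝒪] [IsDomain 𝒪] [IsDiscreteValuationRing 𝒪]
  [IsAdicComplete (maximalIdeal 𝒪) 𝒪]
  {ρbar : ResidualGaloisRep (ResidueField 𝒪)}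
  {𝒟 : ∀ ⦃A : Type⦄ [CommRing A] [IsLocalRing A] [Algebra 𝒪 A], GaloisRepAdic A → Prop}
  (DQ : GaloisRep.DeformationRingData 𝒪 ρbar 𝒟)
  (b : Module.Basis (Fin 2) (ResidueField 𝒪) ρbar.V)

/-- the tangent cocycle of the trivial tangent vector is a coboundary. -/
theorem tangentCocycle_coboundary_of_not_surjective
    (φ : DQ.R →ₐ[𝒪] DualNumber (ResidueField 𝒪)) (hφ : ¬ Function.Surjective φ) :
    ∃ X : Matrix (Fin 2) (Fin 2) (ResidueField 𝒪), ∀ σ,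
      tangentCocycle DQ b φ σ = X - toMatRes ρbar b σ * X * toMatRes ρbar b σ⁻¹ := by
  have hsnd : ∀ x, (φ x).snd = 0 := by
    intro x
    by_contra h0
    exact hφ (algHom_dualNumber_surjective_of_snd_ne_zero φ x h0)
  set bu := stdBasis DQ.ρ
  set M := mapMat (φ : DQ.R →+* DualNumber (ResidueField 𝒪)) (toMat DQ.ρ bu) with hMdef
  have hMc : MatCont M := matCont_mapMat _ (isLocalHom_algHom_dualNumber φ) (matCont_toMat DQ.ρ bu)
  have hM : ∀ σ, rsnd M σ = 0 := by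
    intro σ
    ext i j
    exact hsnd _
  obtain ⟨e1⟩ := baseChangeAlong_isEquiv_ofMat (φ : DQ.R →+* DualNumber (ResidueField 𝒪))
    (isLocalHom_algHom_dualNumber φ) DQ.ρ bu
  obtain ⟨e2⟩ := tangentRep_isEquiv_tangentMat DQ b φ
  have e3 : (ofMat (tangentMat DQ b φ) (matCont_tangentMat DQ b φ)).IsEquiv (ofMat M hMc) :=
    ⟨e2.symm.trans e1⟩
  obtain ⟨P, hP⟩ := (ofMat_isEquiv_iff (matCont_tangentMat DQ b φ) hMc).1 e3
  obtain ⟨X, hX⟩ := exists_coboundary_of_conj_of_rsnd_eq_zero (tangentMat DQ b φ) M hM P hP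
  refine ⟨X, fun σ => ?_⟩
  have := hX σ
  rw [rfst_tangentMat] at this
  exact this

/-- **Interface with the Selmer side** ([P-GW] + [P-LOC]). `rbar = toMatRes ρbar b`; a function
`c : G_ℚ → M₂(k)` is *admissible* if it is a coboundary `σ ↦ X − rbar σ · X · (rbar σ)⁻¹` or the
tangent cocycle of a continuous matrix lift `r` of `rbar` to `k[ε]` whose `GaloisRepAdic` is
equivalent to one of type `𝒟`. `SelmerBound` says that admissible functions are separated, up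
to coboundaries, by an invariant with at most `|k|^r` values (e.g. their class in a Selmer group
`H¹_L(G_ℚ, ad⁰ρ̄)` of dimension `≤ r`). -/
def SelmerBound (𝒪 : Type) [CommRing 𝒪] [IsLocalRing 𝒪]
    (ρbar : ResidualGaloisRep (ResidueField 𝒪))
    (b : Module.Basis (Fin 2) (ResidueField 𝒪) ρbar.V)
    (𝒟 : ∀ ⦃A : Type⦄ [CommRing A] [IsLocalRing A] [Algebra 𝒪 A], GaloisRepAdic A → Prop)
    (r : ℕ) : Prop :=
  ∃ (T : Type) (_ : Finite T) (q : (GQ → Matrix (Fin 2) (Fin 2) (ResidueField 𝒪)) → T),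
    Nat.card T ≤ Nat.card (ResidueField 𝒪) ^ r ∧
    ∀ c c' : GQ → Matrix (Fin 2) (Fin 2) (ResidueField 𝒪),
      ((∃ X, ∀ σ, c σ = X - toMatRes ρbar b σ * X * toMatRes ρbar b σ⁻¹) ∨
        ∃ (t : GQ →* Matrix (Fin 2) (Fin 2) (DualNumber (ResidueField 𝒪))) (ht : MatCont t),
          rfst t = toMatRes ρbar b ∧ (∃ ρ, 𝒟 ρ ∧ ρ.IsEquiv (ofMat t ht)) ∧
            ∀ σ, c σ = tanCocycle t σ) →
      ((∃ X, ∀ σ, c' σ = X - toMatRes ρbar b σ * X * toMatRes ρbar b σ⁻¹) ∨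
        ∃ (t : GQ →* Matrix (Fin 2) (Fin 2) (DualNumber (ResidueField 𝒪))) (ht : MatCont t),
          rfst t = toMatRes ρbar b ∧ (∃ ρ, 𝒟 ρ ∧ ρ.IsEquiv (ofMat t ht)) ∧
            ∀ σ, c' σ = tanCocycle t σ) →
      q c = q c' →
      ∃ X, ∀ σ, c' σ = c σ + X - toMatRes ρbar b σ * X * toMatRes ρbar b σ⁻¹

variable [Finite (ResidueField 𝒪)]

/-- **[P-TAN] TOP**: the universal deformation ring is a quotient of `𝒪⟦X₁,…,X_r⟧` as soon as the
first-order deformations of type `𝒟` are bounded by `|k|^r`. -/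
theorem exists_surjective_of_selmerBound
    (h𝒟 : ∀ φ : DQ.R →ₐ[𝒪] DualNumber (ResidueField 𝒪), Function.Surjective φ →
      𝒟 (tangentRep DQ φ))
    {r : ℕ} (hSel : SelmerBound 𝒪 ρbar b 𝒟 r) :
    ∃ γ : MvPowerSeries (Fin r) 𝒪 →ₐ[𝒪] DQ.R, Function.Surjective γ := by
  obtain ⟨T, hT, q, hcard, hq⟩ := hSel
  haveI := hT
  have hadm : ∀ φ : DQ.R →ₐ[𝒪] DualNumber (ResidueField 𝒪),
      ((∃ X, ∀ σ, tangentCocycle DQ b φ σ =
          X - toMatRes ρbar b σ * X * toMatRes ρbar b σ⁻¹) ∨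
        ∃ (t : GQ →* Matrix (Fin 2) (Fin 2) (DualNumber (ResidueField 𝒪))) (ht : MatCont t),
          rfst t = toMatRes ρbar b ∧ (∃ ρ, 𝒟 ρ ∧ ρ.IsEquiv (ofMat t ht)) ∧
            ∀ σ, tangentCocycle DQ b φ σ = tanCocycle t σ) := by
    intro φ
    by_cases hs : Function.Surjective φ
    · exact Or.inr ⟨tangentMat DQ b φ, matCont_tangentMat DQ b φ, rfst_tangentMat DQ b φ,
        ⟨tangentRep DQ φ, h𝒟 φ hs, tangentRep_isEquiv_tangentMat DQ b φ⟩, fun σ => rfl⟩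
    · exact Or.inl (tangentCocycle_coboundary_of_not_surjective DQ b φ hs)
  refine Fermat.Agent.GP.Alg.exists_surjective_of_deformationRingData DQ
    (fun φ => q (tangentCocycle DQ b φ)) ?_ hcard
  exact injective_of_cohomology_invariant DQ b h𝒟 q fun φ φ' h =>
    hq _ _ (hadm φ) (hadm φ') h

end Top

section Frozen

variable {𝒪 : Type} [CommRing 𝒪] [IsDomain 𝒪] [IsDiscreteValuationRing 𝒪]
  [IsAdicComplete (maximalIdeal 𝒪) 𝒪] [Finite (ResidueField 𝒪)]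
  {ρbar : ResidualGaloisRep (ResidueField 𝒪)}
  (p : ℕ) (Smin T : Finset ℕ)

/-- the strict-ordinary conjunct of S56 (with `T = Smin ∪ image qv`). -/
theorem s56Strict_surjective
    (DQ : GaloisRep.DeformationRingData 𝒪 ρbar (fun _A _ _ _ ρ =>
      GaloisRep.strictOrdinaryCondition 𝒪 p T ρ ∧
        ∀ q ∈ Smin, q.Prime → q ≠ p → ρ.IsUnipotentOnInertiaAt q))
    (b : Module.Basis (Fin 2) (ResidueField 𝒪) ρbar.V) {r : ℕ}
    (hSel : SelmerBound 𝒪 ρbar b (fun _A _ _ _ ρ =>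
      GaloisRep.strictOrdinaryCondition 𝒪 p T ρ ∧
        ∀ q ∈ Smin, q.Prime → q ≠ p → ρ.IsUnipotentOnInertiaAt q) r) :
    ∃ γ : MvPowerSeries (Fin r) 𝒪 →ₐ[𝒪] DQ.R, Function.Surjective γ :=
  exists_surjective_of_selmerBound DQ b
    (fun φ _ => Fermat.Agent.GP.Tan.s56StrictCond_baseChangeAlong p Smin T _
      (isLocalHom_algHom_dualNumber φ) DQ.isOfType) hSel

/-- the flat conjunct of S56 (with `T = Smin ∪ image qv`). -/
theorem s56Flat_surjective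
    (DQ : GaloisRep.DeformationRingData 𝒪 ρbar (fun _A _ _ _ ρ =>
      GaloisRep.flatCondition 𝒪 p T ρ ∧
        ∀ q ∈ Smin, q.Prime → q ≠ p → ρ.IsUnipotentOnInertiaAt q))
    (b : Module.Basis (Fin 2) (ResidueField 𝒪) ρbar.V) {r : ℕ}
    (hSel : SelmerBound 𝒪 ρbar b (fun _A _ _ _ ρ =>
      GaloisRep.flatCondition 𝒪 p T ρ ∧
        ∀ q ∈ Smin, q.Prime → q ≠ p → ρ.IsUnipotentOnInertiaAt q) r) :
    ∃ γ : MvPowerSeries (Fin r) 𝒪 →ₐ[𝒪] DQ.R, Function.Surjective γ :=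
  exists_surjective_of_selmerBound DQ b
    (fun φ hs => Fermat.Agent.GP.Tan.s56FlatCond_baseChangeAlong_of_surjective p Smin T _
      (isLocalHom_algHom_dualNumber φ) hs DQ.isOfType) hSel

end Frozen

section S56

open Polynomial

/-- **frozen S56 from the two Selmer bounds** (plug-tested against `Fermat/Templates/S56`): what
the rest of GATE-P owes is, for each of the two conditions, `r` (uniform in `n`) and for every
`n` a set `qv` of `r` Taylor–Wiles primes together with `SelmerBound … r` for the deformation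
problem with ramification allowed at `Smin ∪ image qv`. -/
theorem s56_of_selmerBounds
    {𝒪 : Type} [CommRing 𝒪] [IsDomain 𝒪] [IsDiscreteValuationRing 𝒪]
    [IsAdicComplete (maximalIdeal 𝒪) 𝒪] [Finite (ResidueField 𝒪)]
    (p : ℕ) [Fact p.Prime]
    (ρbar : ResidualGaloisRep (ResidueField 𝒪))
    (b : Module.Basis (Fin 2) (ResidueField 𝒪) ρbar.V)
    (S Smin : Finset ℕ)
    (hS : ∃ r : ℕ, ∀ n : ℕ, ∃ qv : Fin r → ℕ, Function.Injective qv ∧
      (∀ i, (qv i).Prime ∧ qv i ∉ S ∧ p ^ (n + 1) ∣ qv i - 1) ∧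
      (∀ i, ∀ P : ValuationSubring (AlgebraicClosure ℚ), P.LiesOverPrime (qv i) →
        ∀ φ : AlgebraicClosure ℚ ≃ₐ[ℚ] AlgebraicClosure ℚ, P.IsFrobeniusAt φ (qv i) →
          ∃ α β : ResidueField 𝒪, α ≠ β ∧ LinearMap.charpoly (ρbar.ρ φ) = (X - C α) * (X - C β)) ∧
      SelmerBound 𝒪 ρbar b (fun _A _ _ _ ρ =>
          GaloisRep.strictOrdinaryCondition 𝒪 p (Smin ∪ Finset.univ.image qv) ρ ∧
            ∀ q ∈ Smin, q.Prime → q ≠ p → ρ.IsUnipotentOnInertiaAt q) r)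
    (hF : ∃ r : ℕ, ∀ n : ℕ, ∃ qv : Fin r → ℕ, Function.Injective qv ∧
      (∀ i, (qv i).Prime ∧ qv i ∉ S ∧ p ^ (n + 1) ∣ qv i - 1) ∧
      (∀ i, ∀ P : ValuationSubring (AlgebraicClosure ℚ), P.LiesOverPrime (qv i) →
        ∀ φ : AlgebraicClosure ℚ ≃ₐ[ℚ] AlgebraicClosure ℚ, P.IsFrobeniusAt φ (qv i) →
          ∃ α β : ResidueField 𝒪, α ≠ β ∧ LinearMap.charpoly (ρbar.ρ φ) = (X - C α) * (X - C β)) ∧
      SelmerBound 𝒪 ρbar b (fun _A _ _ _ ρ =>
          GaloisRep.flatCondition 𝒪 p (Smin ∪ Finset.univ.image qv) ρ ∧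
            ∀ q ∈ Smin, q.Prime → q ≠ p → ρ.IsUnipotentOnInertiaAt q) r) :
    (∃ r : ℕ, ∀ n : ℕ, ∃ qv : Fin r → ℕ, Function.Injective qv ∧
      (∀ i, (qv i).Prime ∧ qv i ∉ S ∧ p ^ (n + 1) ∣ qv i - 1) ∧
      (∀ i, ∀ P : ValuationSubring (AlgebraicClosure ℚ), P.LiesOverPrime (qv i) →
        ∀ φ : AlgebraicClosure ℚ ≃ₐ[ℚ] AlgebraicClosure ℚ, P.IsFrobeniusAt φ (qv i) →
          ∃ α β : ResidueField 𝒪, α ≠ β ∧ LinearMap.charpoly (ρbar.ρ φ) = (X - C α) * (X - C β)) ∧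
      ∀ DQ : GaloisRep.DeformationRingData 𝒪 ρbar (fun _A _ _ _ ρ =>
          GaloisRep.strictOrdinaryCondition 𝒪 p (Smin ∪ Finset.univ.image qv) ρ ∧
            ∀ q ∈ Smin, q.Prime → q ≠ p → ρ.IsUnipotentOnInertiaAt q),
        ∃ γ : MvPowerSeries (Fin r) 𝒪 →ₐ[𝒪] DQ.R, Function.Surjective γ) ∧
    (∃ r : ℕ, ∀ n : ℕ, ∃ qv : Fin r → ℕ, Function.Injective qv ∧
      (∀ i, (qv i).Prime ∧ qv i ∉ S ∧ p ^ (n + 1) ∣ qv i - 1) ∧
      (∀ i, ∀ P : ValuationSubring (AlgebraicClosure ℚ), P.LiesOverPrime (qv i) →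
        ∀ φ : AlgebraicClosure ℚ ≃ₐ[ℚ] AlgebraicClosure ℚ, P.IsFrobeniusAt φ (qv i) →
          ∃ α β : ResidueField 𝒪, α ≠ β ∧ LinearMap.charpoly (ρbar.ρ φ) = (X - C α) * (X - C β)) ∧
      ∀ DQ : GaloisRep.DeformationRingData 𝒪 ρbar (fun _A _ _ _ ρ =>
          GaloisRep.flatCondition 𝒪 p (Smin ∪ Finset.univ.image qv) ρ ∧
            ∀ q ∈ Smin, q.Prime → q ≠ p → ρ.IsUnipotentOnInertiaAt q),
        ∃ γ : MvPowerSeries (Fin r) 𝒪 →ₐ[𝒪] DQ.R, Function.Surjective γ) := by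
  refine ⟨?_, ?_⟩
  · obtain ⟨r, hr⟩ := hS
    refine ⟨r, fun n => ?_⟩
    obtain ⟨qv, h1, h2, h3, h4⟩ := hr n
    exact ⟨qv, h1, h2, h3, fun DQ => s56Strict_surjective p Smin _ DQ b h4⟩
  · obtain ⟨r, hr⟩ := hF
    refine ⟨r, fun n => ?_⟩
    obtain ⟨qv, h1, h2, h3, h4⟩ := hr n
    exact ⟨qv, h1, h2, h3, fun DQ => s56Flat_surjective p Smin _ DQ b h4⟩

end S56

end Fermat.Agent.GP.Tan.TanTop
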