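/-
GATE-P / S56, node S56-TAN-SEL (helper11), HYPOTHESIS FORM: **`SelmerBound` from a finite set of
classes in level-constant cohomology**.

For ANY model `N : Rep k' G_ℚ` of `ad⁰ρ̄` (with an additive, conjugation-equivariant map
`emb : N → M₂(k)`), any level system `𝒰` and any finite set `Sel ⊆ Hlc 𝒰 N 1` with
`#Sel ≤ |k|^r`: if every admissible function `c : G_ℚ → M₂(k)` (a coboundary, or the tangent
cocycle of a continuous matrix lift of type `𝒟`) is `emb ∘ z` for a level-constant cocycle `z`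
whose class lies in `Sel`, then `SelmerBound 𝒪 ρbar b 𝒟 r` holds. The hypothesis `hloc` is what
[P-LOC] + [SEL-BRIDGE] owe; `#Sel ≤ |k|^r` is what [P-GW] + [P-TW] owe.
-/
import Fermat.Agent.GP.Tan.TanTop
import Fermat.Agent.GC.Prof.Low

set_option autoImplicit false
set_option linter.unusedSectionVars false
set_option linter.style.haveILetI false

namespace Fermat.Agent.GP.Tan.Selmer

open IsLocalRing Fermat.Agent.S53_helper35 Matrix Fermat.Agent.GP.Tan.Cocycle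
  Fermat.Agent.GP.Tan.TanTop Fermat.Agent.GC.Prof groupCohomology

variable {𝒪 : Type} [CommRing 𝒪] [IsLocalRing 𝒪]
  (ρbar : ResidualGaloisRep (ResidueField 𝒪))
  (b : Module.Basis (Fin 2) (ResidueField 𝒪) ρbar.V)
  (𝒟 : ∀ ⦃A : Type⦄ [CommRing A] [IsLocalRing A] [Algebra 𝒪 A], GaloisRepAdic A → Prop)

/-- admissible functions `G_ℚ → M₂(k)`: coboundaries and tangent cocycles of matrix lifts of
type `𝒟` (the predicate occurring twice in `TanTop.SelmerBound`). -/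
def Adm (c : GQ → Matrix (Fin 2) (Fin 2) (ResidueField 𝒪)) : Prop :=
  (∃ X, ∀ σ, c σ = X - toMatRes ρbar b σ * X * toMatRes ρbar b σ⁻¹) ∨
    ∃ (t : GQ →* Matrix (Fin 2) (Fin 2) (DualNumber (ResidueField 𝒪))) (ht : MatCont t),
      rfst t = toMatRes ρbar b ∧ (∃ ρ, 𝒟 ρ ∧ ρ.IsEquiv (ofMat t ht)) ∧
        ∀ σ, c σ = tanCocycle t σ

theorem adm_zero : Adm ρbar b 𝒟 (fun _ => 0) :=
  Or.inl ⟨0, fun σ => by simp⟩

/-- `SelmerBound` restated with `Adm`. -/
theorem selmerBound_iff (r : ℕ) :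
    SelmerBound 𝒪 ρbar b 𝒟 r ↔
      ∃ (T : Type) (_ : Finite T) (q : (GQ → Matrix (Fin 2) (Fin 2) (ResidueField 𝒪)) → T),
        Nat.card T ≤ Nat.card (ResidueField 𝒪) ^ r ∧
        ∀ c c', Adm ρbar b 𝒟 c → Adm ρbar b 𝒟 c' → q c = q c' →
          ∃ X, ∀ σ, c' σ = c σ + X - toMatRes ρbar b σ * X * toMatRes ρbar b σ⁻¹ :=
  Iff.rfl

variable {k' : Type} [CommRing k'] (N : Rep k' GQ) (𝒰 : LevelSystem GQ) [IsDiscrete 𝒰 N]
  (emb : N →+ Matrix (Fin 2) (Fin 2) (ResidueField 𝒪))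
  (hact : ∀ (σ : GQ) (x : N),
    emb (N.ρ σ x) = toMatRes ρbar b σ * emb x * toMatRes ρbar b σ⁻¹)

include hact in
/-- **S56-TAN-SEL, hypothesis form.** -/
theorem selmerBound_of_classes (r : ℕ) (Sel : Set (Hlc 𝒰 N 1)) (hfin : Sel.Finite)
    (hcard : Sel.ncard ≤ Nat.card (ResidueField 𝒪) ^ r)
    (hloc : ∀ c, Adm ρbar b 𝒟 c → ∃ z : lcCocycles₁ 𝒰 N,
      (∀ σ, emb ((z : GQ → N) σ) = c σ) ∧ Hlc1π 𝒰 N z ∈ Sel) :
    SelmerBound 𝒪 ρbar b 𝒟 r := by
  classical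
  rw [selmerBound_iff]
  haveI : Finite ↥Sel := hfin.to_subtype
  obtain ⟨z₀, -, hz₀⟩ := hloc _ (adm_zero ρbar b 𝒟)
  let t₀ : ↥Sel := ⟨_, hz₀⟩
  let q : (GQ → Matrix (Fin 2) (Fin 2) (ResidueField 𝒪)) → ↥Sel := fun c =>
    if h : ∃ z : lcCocycles₁ 𝒰 N, (∀ σ, emb ((z : GQ → N) σ) = c σ) ∧ Hlc1π 𝒰 N z ∈ Sel then
      ⟨Hlc1π 𝒰 N (Classical.choose h), (Classical.choose_spec h).2⟩
    else t₀
  refine ⟨↥Sel, inferInstance, q, ?_, ?_⟩
  · rw [Nat.card_coe_set_eq]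
    exact hcard
  · intro c c' hc hc' hqq
    have h := hloc c hc
    have h' := hloc c' hc'
    have hq : q c = ⟨Hlc1π 𝒰 N (Classical.choose h), (Classical.choose_spec h).2⟩ := dif_pos h
    have hq' : q c' = ⟨Hlc1π 𝒰 N (Classical.choose h'), (Classical.choose_spec h').2⟩ :=
      dif_pos h'
    set z := Classical.choose h with hz
    set z' := Classical.choose h' with hz'
    have hzc : ∀ σ, emb ((z : GQ → N) σ) = c σ := (Classical.choose_spec h).1
    have hzc' : ∀ σ, emb ((z' : GQ → N) σ) = c' σ := (Classical.choose_spec h').1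
    rw [hq, hq'] at hqq
    have h1 : Hlc1π 𝒰 N z = Hlc1π 𝒰 N z' := congrArg Subtype.val hqq
    have h2 : Hlc1π 𝒰 N (z' - z) = 0 := by rw [map_sub, h1, sub_self]
    rw [Hlc1π_eq_zero_iff] at h2
    obtain ⟨x, hx⟩ := h2
    refine ⟨-emb x, fun σ => ?_⟩
    have h3 : ((z' : GQ → N) σ) - ((z : GQ → N) σ) = N.ρ σ x - x := by
      have := congrFun hx σ
      simpa using this.symm
    have h4 : c' σ - c σ = toMatRes ρbar b σ * emb x * toMatRes ρbar b σ⁻¹ - emb x := by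
      rw [← hzc, ← hzc', ← map_sub, h3, map_sub, hact]
    rw [Matrix.mul_neg, Matrix.neg_mul]
    have : c' σ = c σ + (c' σ - c σ) := by abel
    rw [this, h4]
    abel

end Fermat.Agent.GP.Tan.Selmer
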