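/-
GATE-P / S56, node S56-TAN-SEL (helper11), GLOBAL PART: **the tangent cocycle of a matrix lift
unramified outside `S` is a level-constant 1-cocycle for `levelS S`** with values in any model
`N` of `ad⁰ρ̄`, and `SelmerBound` from purely LOCAL membership statements.

* `isLC₁_tanCocycle` : `MatCont t`, `ofMat t` unramified outside `S` ⟹
  `IsLC₁ (Fermat.Agent.GC.C0.levelS S) (tanCocycle t)`;
* `exists_lcCocycle_of_lift` : … ⟹ `∃ z ∈ lcCocycles₁ (Fermat.Agent.GC.C0.levelS S) N, emb ∘ z = tanCocycle t`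
  (needs trace zero, i.e. `DetIsCyclotomic`);
* `selmerBound_of_local` : `SelmerBound` from a finite `Sel ∋ 0` in `Hlc (Fermat.Agent.GC.C0.levelS S) N 1` with
  `#Sel ≤ |k|^r` such that the class of the cocycle of every lift of type `𝒟` lies in `Sel`.
-/
import Fermat.Agent.GP.Tan.Selmer
import Fermat.Agent.GC.C0.Level

set_option autoImplicit false
set_option linter.unusedSectionVars false
set_option linter.style.haveILetI false

namespace Fermat.Agent.GP.Tan.SelmerGlobal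

open IsLocalRing Fermat.Agent.S53_helper35 Matrix Fermat.Agent.GP.Tan.Cocycle
  Fermat.Agent.GP.Tan.TanTop Fermat.Agent.GP.Tan.Selmer Fermat.Agent.GC.Prof
  groupCohomology

section LC

local instance isAlgebraicQbar_tanSel : Algebra.IsAlgebraic ℚ (AlgebraicClosure ℚ) :=
  AlgebraicClosure.isAlgebraic ℚ
local instance isAlgClosureQbar_tanSel : IsAlgClosure ℚ (AlgebraicClosure ℚ) :=
  ⟨inferInstance, inferInstance⟩
local instance normalQbar_tanSel : Normal ℚ (AlgebraicClosure ℚ) :=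
  IsAlgClosure.normal ℚ (AlgebraicClosure ℚ)
local instance isGaloisQbar_tanSel : IsGalois ℚ (AlgebraicClosure ℚ) := ⟨⟩

variable {k : Type} [Field k] (S : Finset Nat.Primes)
  (t : S53_helper35.GQ →* Matrix (Fin 2) (Fin 2) (DualNumber k)) (ht : MatCont t)

/-- the kernel of a matrix representation, as a subgroup. -/
noncomputable def kerSub : Subgroup S53_helper35.GQ := t.ker

include ht in
theorem kerSub_mem_levelS
    (hur : ∀ q : Nat.Primes, q ∉ S → (ofMat t ht).IsUnramifiedAt (q : ℕ)) :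
    kerSub t ∈ (Fermat.Agent.GC.C0.levelS S).sets := by
  obtain ⟨L, hL, h1⟩ := exists_eq_one_of_matCont t ht
  have hle : L.fixingSubgroup ≤ kerSub t := by
    intro s hs
    rw [IntermediateField.mem_fixingSubgroup_iff] at hs
    exact MonoidHom.mem_ker.2 (h1 s hs)
  have hopen : IsOpen ((kerSub t : Subgroup S53_helper35.GQ) : Set S53_helper35.GQ) :=
    Subgroup.isOpen_mono hle ((InfiniteGalois.isOpen_iff_finite L).2 hL)
  refine Fermat.Agent.GC.C0.mem_levelS_of_isOpen_of_inertia_le S (kerSub t) hopen fun q hq A hA g hg => ?_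
  exact MonoidHom.mem_ker.2 ((ofMat_ρ_eq_one_iff t ht g).1 (hur q hq A hA g hg))

include ht in
/-- the tangent cocycle of a lift unramified outside `S` is level-constant for `levelS S`. -/
theorem isLC₁_tanCocycle
    (hur : ∀ q : Nat.Primes, q ∉ S → (ofMat t ht).IsUnramifiedAt (q : ℕ)) :
    IsLC₁ (Fermat.Agent.GC.C0.levelS S) (tanCocycle t) := by
  refine ⟨kerSub t, kerSub_mem_levelS S t ht hur, fun g s hs => ?_⟩
  have h1 : t s = 1 := MonoidHom.mem_ker.1 hs
  rw [tanCocycle_mul, tanCocycle_eq_zero_of_eq_one t h1, Matrix.mul_zero, Matrix.zero_mul,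
    add_zero]

end LC

section Model

variable {𝒪 : Type} [CommRing 𝒪] [IsLocalRing 𝒪]
  (ρbar : ResidualGaloisRep (ResidueField 𝒪))
  (b : Module.Basis (Fin 2) (ResidueField 𝒪) ρbar.V)
  (𝒟 : ∀ ⦃A : Type⦄ [CommRing A] [IsLocalRing A] [Algebra 𝒪 A], GaloisRepAdic A → Prop)
  {k' : Type} [CommRing k'] (N : Rep k' S53_helper35.GQ) (S : Finset Nat.Primes)
  [IsDiscrete (Fermat.Agent.GC.C0.levelS S) N]
  (emb : N →+ Matrix (Fin 2) (Fin 2) (ResidueField 𝒪))
  (hinj : Function.Injective emb)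
  (hsurj : ∀ X : Matrix (Fin 2) (Fin 2) (ResidueField 𝒪), Matrix.trace X = 0 → ∃ x : N, emb x = X)
  (hact : ∀ (σ : S53_helper35.GQ) (x : N),
    emb (N.ρ σ x) = toMatRes ρbar b σ * emb x * toMatRes ρbar b σ⁻¹)

include hinj hsurj hact in
/-- the tangent cocycle of a trace-zero lift unramified outside `S`, as a level-constant
`1`-cocycle with values in the model `N` of `ad⁰ρ̄`. -/
theorem exists_lcCocycle_of_lift
    (t : S53_helper35.GQ →* Matrix (Fin 2) (Fin 2) (DualNumber (ResidueField 𝒪)))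
    (ht : MatCont t) (hfst : rfst t = toMatRes ρbar b)
    (htr : ∀ σ, Matrix.trace (tanCocycle t σ) = 0)
    (hur : ∀ q : Nat.Primes, q ∉ S → (ofMat t ht).IsUnramifiedAt (q : ℕ)) :
    ∃ z : lcCocycles₁ (Fermat.Agent.GC.C0.levelS S) N,
      ∀ σ, emb ((z : S53_helper35.GQ → N) σ) = tanCocycle t σ := by
  classical
  let z : S53_helper35.GQ → N := fun σ => Classical.choose (hsurj (tanCocycle t σ) (htr σ))
  have hz : ∀ σ, emb (z σ) = tanCocycle t σ := fun σ =>
    Classical.choose_spec (hsurj (tanCocycle t σ) (htr σ))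
  have hcoc : z ∈ cocycles₁ N := by
    rw [mem_cocycles₁_iff]
    intro g h
    apply hinj
    rw [map_add, hz, hact, hz, hz, tanCocycle_mul, hfst, add_comm]
  have hlc : IsLC₁ (Fermat.Agent.GC.C0.levelS S) z := by
    obtain ⟨U, hU, h⟩ := isLC₁_tanCocycle S t ht hur
    refine ⟨U, hU, fun g s hs => ?_⟩
    apply hinj
    rw [hz, hz, h g s hs]
  exact ⟨⟨z, hcoc, hlc⟩, hz⟩

include hinj hsurj hact in
/-- **`SelmerBound` from local membership.** `Sel` is a finite set of classes containing `0`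
(e.g. a Selmer group `Sel_L ⊆ Hlc (Fermat.Agent.GC.C0.levelS S) N 1`); `hglob` says that type `𝒟` forces trace zero
and no ramification outside `S`; `hloc` is the local input: the class of the cocycle of every
matrix lift of type `𝒟` lies in `Sel`. -/
theorem selmerBound_of_local (h2 : (2 : ResidueField 𝒪) ≠ 0) (r : ℕ)
    (Sel : Set (Hlc (Fermat.Agent.GC.C0.levelS S) N 1)) (hfin : Sel.Finite) (h0 : (0 : Hlc (Fermat.Agent.GC.C0.levelS S) N 1) ∈ Sel)
    (hcard : Sel.ncard ≤ Nat.card (ResidueField 𝒪) ^ r)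
    (hglob : ∀ (t : S53_helper35.GQ →* Matrix (Fin 2) (Fin 2) (DualNumber (ResidueField 𝒪)))
      (ht : MatCont t), (∃ ρ, 𝒟 ρ ∧ ρ.IsEquiv (ofMat t ht)) →
        (∀ σ, Matrix.trace (tanCocycle t σ) = 0) ∧
          ∀ q : Nat.Primes, q ∉ S → (ofMat t ht).IsUnramifiedAt (q : ℕ))
    (hloc : ∀ (t : S53_helper35.GQ →* Matrix (Fin 2) (Fin 2) (DualNumber (ResidueField 𝒪)))
      (ht : MatCont t), rfst t = toMatRes ρbar b → (∃ ρ, 𝒟 ρ ∧ ρ.IsEquiv (ofMat t ht)) →
        ∀ z : lcCocycles₁ (Fermat.Agent.GC.C0.levelS S) N,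
          (∀ σ, emb ((z : S53_helper35.GQ → N) σ) = tanCocycle t σ) →
            Hlc1π (Fermat.Agent.GC.C0.levelS S) N z ∈ Sel) :
    SelmerBound 𝒪 ρbar b 𝒟 r := by
  refine selmerBound_of_classes ρbar b 𝒟 N (Fermat.Agent.GC.C0.levelS S) emb hact r Sel hfin hcard ?_
  rintro c (⟨X, hX⟩ | ⟨t, ht, hfst, h𝒟, hc⟩)
  · -- a coboundary: normalise `X` to trace zero
    set X₀ : Matrix (Fin 2) (Fin 2) (ResidueField 𝒪) :=
      X - (Matrix.trace X / 2) • (1 : Matrix (Fin 2) (Fin 2) (ResidueField 𝒪)) with hX₀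
    have htr0 : Matrix.trace (-X₀) = 0 := by
      rw [Matrix.trace_neg, hX₀, Matrix.trace_sub, Matrix.trace_smul, Matrix.trace_one,
        Fintype.card_fin, smul_eq_mul]
      field_simp
      push_cast
      ring
    obtain ⟨x, hx⟩ := hsurj (-X₀) htr0
    have hzc : (fun σ => N.ρ σ x - x) ∈ coboundaries₁ N := ⟨x, rfl⟩
    have hzl : (fun σ => N.ρ σ x - x) ∈ lcCocycles₁ (Fermat.Agent.GC.C0.levelS S) N :=
      coboundaries₁_le_lcCocycles₁ (Fermat.Agent.GC.C0.levelS S) N hzc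
    refine ⟨⟨_, hzl⟩, fun σ => ?_, ?_⟩
    · show emb (N.ρ σ x - x) = c σ
      rw [map_sub, hact, hx, hX σ, hX₀]
      have hinv : toMatRes ρbar b σ * toMatRes ρbar b σ⁻¹ = 1 := by
        rw [← map_mul, mul_inv_cancel, map_one]
      simp only [Matrix.mul_neg, Matrix.neg_mul, Matrix.mul_sub, Matrix.sub_mul, Matrix.mul_smul,
        Matrix.smul_mul, Matrix.mul_one, hinv]
      abel
    · have : Hlc1π (Fermat.Agent.GC.C0.levelS S) N ⟨_, hzl⟩ = 0 := (Hlc1π_eq_zero_iff (Fermat.Agent.GC.C0.levelS S) N _).2 hzc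
      rw [this]
      exact h0
  · obtain ⟨htr, hur⟩ := hglob t ht h𝒟
    obtain ⟨z, hz⟩ := exists_lcCocycle_of_lift ρbar b N S emb hinj hsurj hact t ht hfst htr hur
    exact ⟨z, fun σ => (hz σ).trans (hc σ).symm, hloc t ht hfst h𝒟 z hz⟩

end Model

end Fermat.Agent.GP.Tan.SelmerGlobal
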