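/-
S56 / [P-TAN], ZERO-REGRET PREP (helper11): **a complete noetherian local `𝒪`-algebra whose relative
cotangent space is spanned by `r` elements is a quotient of `𝒪[[x₁,…,x_r]]`**.

* `surjective_of_span` : `A` local, `𝔪_A`-adically Hausdorff, `𝒪 → A/𝔪_A` surjective,
  `φ : 𝒪[[x_i]] →ₐ[𝒪] A` with `𝔪_A ≤ (φ x_i) ⊔ 𝔪_𝒪 A ⊔ 𝔪_A²` (and `𝔪_A` finitely generated)
  ⟹ `φ` surjective  (Nakayama + Mathlib `surjective_of_mk_map_comp_surjective`);
* `exists_surjective_of_span` : the same with `φ` produced from `a : Fin r → 𝔪_A`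
  (`S53.exists_algHom_X`);
* `exists_surjective_of_finrank_le` : the dimension form — if the `k`-space
  `𝔪_A / (𝔪_𝒪 A + 𝔪_A²)` (`k = A/𝔪_A`) has a spanning family of `r` elements, in particular if its
  dimension is `≤ r`.
-/
import Fermat.Agent.S53.PSEval
import Fermat.Agent.S53.PSComplete
import Mathlib.RingTheory.AdicCompletion.Functoriality
import Mathlib.RingTheory.Nakayama

set_option autoImplicit false
set_option linter.unusedSectionVars false

namespace Fermat.Agent.GP.Tan

open IsLocalRing MvPowerSeries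

/-- the truncation in total degree `< 1` is the constant term. -/
theorem coe_truncTotal_one {𝒪 : Type*} [CommRing 𝒪] {ι : Type*} [Finite ι]
    (g : MvPowerSeries ι 𝒪) :
    ((truncTotal 1 g : MvPolynomial ι 𝒪) : MvPowerSeries ι 𝒪) =
      C (σ := ι) (R := 𝒪) (constantCoeff g) := by
  classical
  ext d
  rw [MvPolynomial.coeff_coe, coeff_truncTotal_eq_ite, coeff_C]
  by_cases hd : d = 0
  · subst hd
    simp
  · have h : ¬ d.degree < 1 := by
      rw [Nat.lt_one_iff, Finsupp.degree_eq_zero_iff]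
      exact hd
    rw [if_neg h, if_neg hd]

section

variable {𝒪 : Type*} [CommRing 𝒪] [IsLocalRing 𝒪] [IsNoetherianRing 𝒪]
  [IsAdicComplete (maximalIdeal 𝒪) 𝒪]
variable {ι : Type*} [Finite ι]
variable {A : Type*} [CommRing A] [IsLocalRing A] [Algebra 𝒪 A]

/-- the images of the maximal ideal of the power series ring generate `(φ x_i) ⊔ 𝔪_𝒪 A`. -/
theorem map_maximalIdeal_ge (φ : MvPowerSeries ι 𝒪 →ₐ[𝒪] A) :
    Ideal.span (Set.range fun s => φ (X s)) ⊔ (maximalIdeal 𝒪).map (algebraMap 𝒪 A) ≤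
      (maximalIdeal (MvPowerSeries ι 𝒪)).map (φ : MvPowerSeries ι 𝒪 →+* A) := by
  refine sup_le ?_ ?_
  · rw [Ideal.span_le]
    rintro _ ⟨s, rfl⟩
    exact Ideal.mem_map_of_mem _ (Fermat.Agent.S53.PSC.X_mem 𝒪 ι s)
  · rw [Ideal.map_le_iff_le_comap]
    intro c hc
    rw [Ideal.mem_comap]
    have h1 : algebraMap 𝒪 A c = (φ : MvPowerSeries ι 𝒪 →+* A) (C (σ := ι) (R := 𝒪) c) := by
      have : (C (σ := ι) (R := 𝒪) c) = algebraMap 𝒪 (MvPowerSeries ι 𝒪) c := rfl
      rw [this]
      exact (φ.commutes c).symm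
    rw [h1]
    refine Ideal.mem_map_of_mem _ ?_
    rw [Fermat.Agent.S53.PSC.mem_maximalIdeal_iff]
    simpa using hc

/-- **surjectivity from a spanning condition on the relative cotangent space.** -/
theorem surjective_of_span [IsHausdorff (maximalIdeal A) A]
    (hfg : (maximalIdeal A).FG)
    (hres : Function.Surjective (residue A ∘ algebraMap 𝒪 A))
    (φ : MvPowerSeries ι 𝒪 →ₐ[𝒪] A) (hφ : ∀ s, φ (X s) ∈ maximalIdeal A)
    (hspan : maximalIdeal A ≤ Ideal.span (Set.range fun s => φ (X s)) ⊔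
      (maximalIdeal 𝒪).map (algebraMap 𝒪 A) ⊔ maximalIdeal A ^ 2) :
    Function.Surjective φ := by
  classical
  set f : MvPowerSeries ι 𝒪 →+* A := (φ : MvPowerSeries ι 𝒪 →+* A) with hf
  set J : Ideal A := (maximalIdeal (MvPowerSeries ι 𝒪)).map f with hJ
  -- `J ≤ 𝔪_A`
  have hJle : J ≤ maximalIdeal A := by
    rw [hJ, Ideal.map_le_iff_le_comap]
    intro g hg
    rw [Ideal.mem_comap]
    by_contra hu
    have hu' : IsUnit (f g) := by
      rwa [mem_maximalIdeal, mem_nonunits_iff, not_not] at hu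
    -- `g = c + (g - c)`, `c` the constant coefficient
    have hg0 : constantCoeff g ∈ maximalIdeal 𝒪 :=
      (Fermat.Agent.S53.PSC.mem_maximalIdeal_iff 𝒪 ι g).1 hg
    have h1 : g - C (σ := ι) (R := 𝒪) (constantCoeff g) ∈ Fermat.Agent.S53.psVars 𝒪 ι ^ 1 := by
      have h0 := Fermat.Agent.S53.sub_truncTotal_mem_psVars_pow (𝒪 := 𝒪) (ι := ι) 1 g
      rwa [coe_truncTotal_one g] at h0
    have h2 : φ (g - C (σ := ι) (R := 𝒪) (constantCoeff g)) ∈ maximalIdeal A ^ 1 :=
      Fermat.Agent.S53.algHom_mem_pow_of_mem_psVars_pow φ hφ h1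
    rw [pow_one] at h2
    have h3 : φ (C (σ := ι) (R := 𝒪) (constantCoeff g)) ∈ maximalIdeal A := by
      have e : (C (σ := ι) (R := 𝒪) (constantCoeff g)) =
          algebraMap 𝒪 (MvPowerSeries ι 𝒪) (constantCoeff g) := rfl
      rw [e, φ.commutes]
      -- the structure map is local on residue fields: a nonunit of `𝒪` maps to a nonunit of `A`
      by_contra hcu
      have hcu' : IsUnit (algebraMap 𝒪 A (constantCoeff g)) := by
        rwa [mem_maximalIdeal, mem_nonunits_iff, not_not] at hcu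
      -- use surjectivity of `𝒪 → k_A` : the kernel is a proper ideal containing... we argue by
      -- contradiction through the residue map
      obtain ⟨c', hc'⟩ := hres (residue A (hcu'.unit⁻¹ : Aˣ))
      have hmul : residue A (algebraMap 𝒪 A (constantCoeff g * c')) = 1 := by
        rw [map_mul, map_mul]
        have : residue A (algebraMap 𝒪 A c') = residue A ((hcu'.unit⁻¹ : Aˣ) : A) := hc'
        rw [this, ← map_mul, IsUnit.mul_val_inv, map_one]
      have hmem : constantCoeff g * c' ∈ maximalIdeal 𝒪 := Ideal.mul_mem_right _ _ hg0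
      -- `1 - (g₀ c')` is a unit of `𝒪`, its image is in `𝔪_A`: contradiction
      have hunit : IsUnit (1 - constantCoeff g * c') := by
        by_contra hnu
        have h4 : 1 - constantCoeff g * c' ∈ maximalIdeal 𝒪 := by
          rwa [mem_maximalIdeal, mem_nonunits_iff]
        have := (maximalIdeal 𝒪).add_mem h4 hmem
        rw [sub_add_cancel] at this
        exact (Ideal.ne_top_iff_one _).1 (maximalIdeal.isMaximal 𝒪).ne_top this
      have h5 : residue A (algebraMap 𝒪 A (1 - constantCoeff g * c')) = 0 := by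
        rw [map_sub, map_sub, map_one, map_one, hmul, sub_self]
      have h6 := (hunit.map (algebraMap 𝒪 A)).map (residue A)
      rw [h5] at h6
      exact not_isUnit_zero h6
    have : φ g ∈ maximalIdeal A := by
      have e : φ g = φ (g - C (σ := ι) (R := 𝒪) (constantCoeff g)) +
          φ (C (σ := ι) (R := 𝒪) (constantCoeff g)) := by
        rw [← map_add, sub_add_cancel]
      rw [e]
      exact (maximalIdeal A).add_mem h2 h3
    exact hu this
  -- Nakayama: `J = 𝔪_A`
  have hJeq : J = maximalIdeal A := by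
    refine le_antisymm hJle ?_
    have h1 : maximalIdeal A ≤ J ⊔ maximalIdeal A • maximalIdeal A := by
      refine hspan.trans ?_
      rw [pow_two, smul_eq_mul]
      exact sup_le_sup_right (map_maximalIdeal_ge φ) _
    exact Submodule.le_of_le_smul_of_le_jacobson_bot hfg
      (by rw [jacobson_eq_maximalIdeal ⊥ bot_ne_top]) h1
  -- apply Mathlib's criterion
  have : IsAdicComplete (maximalIdeal (MvPowerSeries ι 𝒪)) (MvPowerSeries ι 𝒪) :=
    Fermat.Agent.S53.isAdicComplete_mvPowerSeries 𝒪 ι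
  have : IsHausdorff ((maximalIdeal (MvPowerSeries ι 𝒪)).map f) A := by
    rw [← hJ, hJeq]; infer_instance
  have key : Function.Surjective ((Ideal.Quotient.mk ((maximalIdeal (MvPowerSeries ι 𝒪)).map f)).comp
      f) := by
    rw [← hJ]
    intro y
    obtain ⟨a, rfl⟩ := Ideal.Quotient.mk_surjective y
    obtain ⟨c, hc⟩ := hres (residue A a)
    refine ⟨C (σ := ι) (R := 𝒪) c, ?_⟩
    rw [RingHom.comp_apply, Ideal.Quotient.eq, hJeq]
    have e : f (C (σ := ι) (R := 𝒪) c) = algebraMap 𝒪 A c := by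
      have : (C (σ := ι) (R := 𝒪) c) = algebraMap 𝒪 (MvPowerSeries ι 𝒪) c := rfl
      rw [this]; exact φ.commutes c
    rw [e]
    have : residue A (algebraMap 𝒪 A c - a) = 0 := by
      rw [map_sub]
      have : residue A (algebraMap 𝒪 A c) = residue A a := hc
      rw [this, sub_self]
    exact (residue_eq_zero_iff _).1 this
  exact surjective_of_mk_map_comp_surjective f key

/-- **existence form**: any family `a : ι → 𝔪_A` spanning the relative cotangent space
`𝔪_A / (𝔪_𝒪 A + 𝔪_A²)` gives a surjection `𝒪[[x_i]] ↠ A`, `x_i ↦ a_i`. -/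
theorem exists_surjective_of_span [IsAdicComplete (maximalIdeal A) A]
    (hfg : (maximalIdeal A).FG)
    (hres : Function.Surjective (residue A ∘ algebraMap 𝒪 A))
    (a : ι → A) (ha : ∀ s, a s ∈ maximalIdeal A)
    (hspan : maximalIdeal A ≤ Ideal.span (Set.range a) ⊔
      (maximalIdeal 𝒪).map (algebraMap 𝒪 A) ⊔ maximalIdeal A ^ 2) :
    ∃ γ : MvPowerSeries ι 𝒪 →ₐ[𝒪] A, (∀ s, γ (X s) = a s) ∧ Function.Surjective γ := by
  obtain ⟨γ, hγ⟩ := Fermat.Agent.S53.exists_algHom_X (𝒪 := 𝒪) a ha
  have e : (fun s => γ (X s)) = a := funext hγ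
  refine ⟨γ, hγ, surjective_of_span hfg hres γ (fun s => by rw [hγ s]; exact ha s) ?_⟩
  rw [e]
  exact hspan

/-- the noetherian form (the shape of the fields of `GaloisRep.DeformationRingData`). -/
theorem exists_surjective_of_span_noeth [IsNoetherianRing A] [IsAdicComplete (maximalIdeal A) A]
    (hres : Function.Surjective (residue A ∘ algebraMap 𝒪 A))
    (a : ι → A) (ha : ∀ s, a s ∈ maximalIdeal A)
    (hspan : maximalIdeal A ≤ Ideal.span (Set.range a) ⊔
      (maximalIdeal 𝒪).map (algebraMap 𝒪 A) ⊔ maximalIdeal A ^ 2) :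
    ∃ γ : MvPowerSeries ι 𝒪 →ₐ[𝒪] A, (∀ s, γ (X s) = a s) ∧ Function.Surjective γ :=
  exists_surjective_of_span (IsNoetherian.noetherian _) hres a ha hspan

end

end Fermat.Agent.GP.Tan
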