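/-
S56 / [P-TAN], consumer side of `GP/Alg/TangentSurj` (helper11): **injectivity of
`φ ↦ [ρ^univ ⊗_φ A]` from the uniqueness clause of `DeformationRingData.universal`**.

* `residual_baseChangeAlong_isEquiv` : residual representation of a base change;
* `DeformationRingData` form `residual_baseChangeAlong_univ`;
* `algHom_eq_of_isEquiv` : two `𝒪`-algebra maps `DQ.R → A` whose push-forwards of the universal
  deformation are equivalent (one of them of type `𝒟`) are equal;
* `k[ε]` as a coefficient ring for `universal` (`isAdicComplete_of_pow_eq_bot`, …);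
* `algHom_dualNumber_eq_of_not_surjective`, `injective_of_class` : the map
  `(DQ.R →ₐ[𝒪] k[ε]) → T`, `φ ↦ cls (ρ^univ ⊗_φ k[ε])` is injective as soon as `cls` separates
  inequivalent lifts and `𝒟` is stable under SURJECTIVE base change to `k[ε]`.
-/
import Fermat.Agent.S53_helper35.MatDict
import Fermat.Agent.S53_helper84.TangentBridge
import Fermat.Prelude.Def_GaloisRep_DeformationRingData

set_option autoImplicit false
set_option linter.unusedSectionVars false
set_option linter.style.haveILetI false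

namespace Fermat.Agent.GP.Tan.UnivInj

open IsLocalRing Fermat.Agent.S53_helper35

section Residual

variable {R : Type} [CommRing R] [IsLocalRing R] {A : Type} [CommRing A] [IsLocalRing A]
  {k : Type} [Field k]

/-- the residual representation of a base change is the base change of the residual
representation (formulated relative to a model `ρbar` over a subfield `k`). -/
theorem residual_baseChangeAlong_isEquiv (ρ : GaloisRepAdic R) (φ : R →+* A) (hφ : IsLocalHom φ)
    (ρbar : ResidualGaloisRep k) (ψ : k →+* ResidueField R)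
    (h : ρ.residual.IsEquiv (ρbar.baseChangeAlong ψ)) :
    (ρ.baseChangeAlong φ hφ).residual.IsEquiv
      (ρbar.baseChangeAlong ((haveI := hφ; ResidueField.map φ).comp ψ)) := by
  haveI := hφ
  set φbar : ResidueField R →+* ResidueField A := ResidueField.map φ with hφbar
  set b := stdBasis ρ
  set r := toMat ρ b
  have hr : MatCont r := matCont_toMat ρ b
  set bb := stdBasisRes ρbar
  set rbar := toMatRes ρbar bb
  have hrbar : ResCont rbar := resCont_toMatRes ρbar bb
  obtain ⟨e1⟩ := residual_isEquiv_ofMatRes ρ b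
  obtain ⟨e2⟩ := baseChangeAlong_isEquiv_ofMatRes ψ ρbar bb
  obtain ⟨e0⟩ := h
  obtain ⟨P, hP⟩ := (ofMatRes_isEquiv_iff (resCont_mapMat_residue hr)
    (resCont_mapMat ψ hrbar)).mp ⟨(e1.symm.trans e0).trans e2⟩
  -- the base change in matrices
  obtain ⟨e3⟩ := baseChangeAlong_isEquiv_ofMat φ hφ ρ b
  obtain ⟨e4⟩ := residual_ofMat_isEquiv (mapMat φ r) (matCont_mapMat φ hφ hr)
  obtain ⟨e5⟩ := baseChangeAlong_isEquiv_ofMatRes (φbar.comp ψ) ρbar bb
  -- conjugate by the image of `P`
  have hconj : (ofMatRes (mapMat (residue A) (mapMat φ r))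
      (resCont_mapMat_residue (matCont_mapMat φ hφ hr))).IsEquiv
      (ofMatRes (mapMat (φbar.comp ψ) rbar) (resCont_mapMat (φbar.comp ψ) hrbar)) := by
    rw [ofMatRes_isEquiv_iff]
    refine ⟨Matrix.GeneralLinearGroup.map φbar P, fun σ => ?_⟩
    have h1 := congrArg (fun M : Matrix (Fin 2) (Fin 2) (ResidueField R) => M.map φbar) (hP σ)
    simp only [Matrix.map_mul, mapMat_apply] at h1
    have h2 : ((r σ).map (residue R)).map φbar = ((r σ).map φ).map (residue A) := by
      ext i j
      simp only [Matrix.map_apply]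
      exact ResidueField.map_residue φ _
    have h3 : ((rbar σ).map ψ).map φbar = (rbar σ).map (φbar.comp ψ) := by
      ext i j
      simp only [Matrix.map_apply, RingHom.comp_apply]
    rw [h2, h3] at h1
    rw [mapMat_apply, mapMat_apply, mapMat_apply]
    exact h1
  obtain ⟨e6⟩ := hconj
  exact ⟨(((e3.residual).trans e4).trans e6).trans e5.symm⟩

end Residual

section Univ

variable {𝒪 : Type} [CommRing 𝒪] [IsDomain 𝒪] [IsDiscreteValuationRing 𝒪]
  [IsAdicComplete (maximalIdeal 𝒪) 𝒪]
  {ρbar : ResidualGaloisRep (ResidueField 𝒪)}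
  {𝒟 : ∀ ⦃A : Type⦄ [CommRing A] [IsLocalRing A] [Algebra 𝒪 A], GaloisRepAdic A → Prop}
  (DQ : GaloisRep.DeformationRingData 𝒪 ρbar 𝒟)
  {A : Type} [CommRing A] [IsLocalRing A] [Algebra 𝒪 A] [IsLocalHom (algebraMap 𝒪 A)]

/-- the push-forward of the universal deformation along any local `𝒪`-algebra map is a lift of
`ρbar` (in the shape required by `DeformationRingData.universal`). -/
theorem residual_baseChangeAlong_univ (φ : DQ.R →ₐ[𝒪] A) (hφ : IsLocalHom (φ : DQ.R →+* A)) :
    (DQ.ρ.baseChangeAlong (φ : DQ.R →+* A) hφ).residual.IsEquiv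
      (ρbar.baseChangeAlong (ResidueField.map (algebraMap 𝒪 A))) := by
  have h := residual_baseChangeAlong_isEquiv DQ.ρ (φ : DQ.R →+* A) hφ ρbar
    (ResidueField.map (algebraMap 𝒪 DQ.R)) DQ.residual_isEquiv
  haveI := hφ
  have e : (ResidueField.map (φ : DQ.R →+* A)).comp (ResidueField.map (algebraMap 𝒪 DQ.R)) =
      ResidueField.map (algebraMap 𝒪 A) := by
    ext x
    obtain ⟨a, rfl⟩ := residue_surjective x
    rw [RingHom.comp_apply, ResidueField.map_residue, ResidueField.map_residue,
      ResidueField.map_residue]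
    congr 1
    exact φ.commutes a
  rw [e] at h
  exact h

variable [IsNoetherianRing A] [IsAdicComplete (maximalIdeal A) A]

/-- **uniqueness clause of the universal property, as an injectivity statement.** -/
theorem algHom_eq_of_isEquiv (hA : Function.Surjective (residue A ∘ algebraMap 𝒪 A))
    (φ φ' : DQ.R →ₐ[𝒪] A) (hφ : IsLocalHom (φ : DQ.R →+* A))
    (hφ' : IsLocalHom (φ' : DQ.R →+* A))
    (h𝒟 : 𝒟 (DQ.ρ.baseChangeAlong (φ' : DQ.R →+* A) hφ'))
    (he : (DQ.ρ.baseChangeAlong (φ : DQ.R →+* A) hφ).IsEquiv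
      (DQ.ρ.baseChangeAlong (φ' : DQ.R →+* A) hφ')) : φ = φ' := by
  obtain ⟨ψ, -, huniq⟩ := DQ.universal A hA (DQ.ρ.baseChangeAlong (φ' : DQ.R →+* A) hφ') h𝒟
    (residual_baseChangeAlong_univ DQ φ' hφ')
  have h1 : φ = ψ := huniq φ ⟨hφ, he⟩
  have h2 : φ' = ψ := huniq φ' ⟨hφ', ⟨GaloisRepAdic.Equiv.refl _⟩⟩
  rw [h1, h2]

end Univ

section LocalHom

variable {𝒪 : Type} [CommRing 𝒪]
  {A : Type} [CommRing A] [IsLocalRing A] [Algebra 𝒪 A]
  {B : Type} [CommRing B] [IsLocalRing B] [Algebra 𝒪 B]

/-- an `𝒪`-algebra map into a local `𝒪`-algebra whose residue field is covered by `𝒪` is local. -/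
theorem isLocalHom_of_residue_cover (hB : Function.Surjective (residue B ∘ algebraMap 𝒪 B))
    (φ : A →ₐ[𝒪] B) : IsLocalHom (φ : A →+* B) := by
  refine ⟨fun x hx => ?_⟩
  by_contra hnu
  have hxm : x ∈ maximalIdeal A := (mem_maximalIdeal x).mpr hnu
  obtain ⟨u, hu⟩ := hx
  obtain ⟨c, hc⟩ := hB (residue B (↑u⁻¹ : B))
  have h1 : IsUnit (1 - x * algebraMap 𝒪 A c) := by
    by_contra hcon
    have hm : 1 - x * algebraMap 𝒪 A c ∈ maximalIdeal A := (mem_maximalIdeal _).mpr hcon
    have h1m : (1 : A) ∈ maximalIdeal A := by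
      have := Ideal.add_mem _ hm (Ideal.mul_mem_right (algebraMap 𝒪 A c) _ hxm)
      rwa [sub_add_cancel] at this
    exact (Ideal.ne_top_iff_one _).mp (maximalIdeal.isMaximal A).ne_top h1m
  have h2 : IsUnit ((φ : A →+* B) (1 - x * algebraMap 𝒪 A c)) := h1.map _
  have h3 : (φ : A →+* B) (1 - x * algebraMap 𝒪 A c) = 1 - ↑u * algebraMap 𝒪 B c := by
    rw [map_sub, map_one, map_mul, ← hu]
    congr 2
    exact φ.commutes c
  rw [h3] at h2
  have h4 : (1 : B) - ↑u * algebraMap 𝒪 B c ∈ maximalIdeal B := by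
    rw [← residue_eq_zero_iff, map_sub, map_one, map_mul]
    have : residue B (algebraMap 𝒪 B c) = residue B (↑u⁻¹ : B) := hc
    rw [this, ← map_mul, Units.mul_inv, map_one, sub_self]
  exact ((mem_maximalIdeal _).mp h4) h2

end LocalHom

section DualNumberRing

/-- an ideal with a vanishing power defines a complete topology. -/
theorem isAdicComplete_of_pow_eq_bot {R : Type*} [CommRing R] (I : Ideal R) {n : ℕ}
    (h : I ^ n = ⊥) : IsAdicComplete I R := by
  refine { toIsHausdorff := ⟨fun x hx => ?_⟩, toIsPrecomplete := ⟨fun {f} hf => ?_⟩ }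
  · have := hx n
    rw [h, Submodule.bot_smul, SModEq.zero, Submodule.mem_bot] at this
    exact this
  · refine ⟨f n, fun m => ?_⟩
    rcases le_total m n with hmn | hnm
    · exact hf hmn
    · have h1 := hf hnm
      rw [h, Submodule.bot_smul, SModEq.bot] at h1
      rw [h1]

variable (k : Type) [Field k]

theorem mem_maximalIdeal_dualNumber_iff (x : DualNumber k) :
    x ∈ maximalIdeal (DualNumber k) ↔ x.fst = 0 := by
  rw [mem_maximalIdeal, mem_nonunits_iff, TrivSqZeroExt.isUnit_iff_isUnit_fst, isUnit_iff_ne_zero,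
    not_not]

theorem maximalIdeal_dualNumber_sq : maximalIdeal (DualNumber k) ^ 2 = ⊥ := by
  rw [eq_bot_iff, sq, Ideal.mul_le]
  intro x hx y hy
  rw [mem_maximalIdeal_dualNumber_iff] at hx hy
  rw [Ideal.mem_bot]
  ext
  · rw [TrivSqZeroExt.fst_mul, hx, zero_mul, TrivSqZeroExt.fst_zero]
  · rw [TrivSqZeroExt.snd_mul, hx, hy]
    simp

instance isAdicComplete_dualNumber :
    IsAdicComplete (maximalIdeal (DualNumber k)) (DualNumber k) :=
  isAdicComplete_of_pow_eq_bot _ (maximalIdeal_dualNumber_sq k)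

instance isNoetherianRing_dualNumber : IsNoetherianRing (DualNumber k) := by
  haveI := Fermat.Agent.S53_helper84.isArtinianRing_dualNumber k
  infer_instance

end DualNumberRing

section TangentAlg

open Fermat.Agent.S53_helper84

variable {𝒪 : Type} [CommRing 𝒪] [IsLocalRing 𝒪]
  {R : Type} [CommRing R] [IsLocalRing R] [Algebra 𝒪 R]

/-- `𝒪 → k[ε] → k` is onto. -/
theorem residue_cover_dualNumber :
    Function.Surjective (residue (DualNumber (ResidueField 𝒪)) ∘
      algebraMap 𝒪 (DualNumber (ResidueField 𝒪))) :=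
  (isArtinianTestAlgebra_dualNumber 𝒪).residue_surjective

/-- every tangent vector `R →ₐ[𝒪] k[ε]` is a local homomorphism. -/
theorem isLocalHom_algHom_dualNumber (φ : R →ₐ[𝒪] DualNumber (ResidueField 𝒪)) :
    IsLocalHom (φ : R →+* DualNumber (ResidueField 𝒪)) :=
  isLocalHom_of_residue_cover residue_cover_dualNumber φ

/-- the `k`-component of a tangent vector does not depend on the tangent vector. -/
theorem fst_algHom_dualNumber_eq (hres : Function.Surjective (residue R ∘ algebraMap 𝒪 R))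
    (φ φ' : R →ₐ[𝒪] DualNumber (ResidueField 𝒪)) (x : R) : (φ x).fst = (φ' x).fst := by
  obtain ⟨c, hc⟩ := hres (residue R x)
  have hm : x - algebraMap 𝒪 R c ∈ maximalIdeal R := by
    rw [← residue_eq_zero_iff, map_sub, sub_eq_zero]
    exact hc.symm
  have key : ∀ ψ : R →ₐ[𝒪] DualNumber (ResidueField 𝒪), (ψ x).fst = residue 𝒪 c := by
    intro ψ
    haveI := isLocalHom_algHom_dualNumber ψ
    have h1 : (ψ : R →+* DualNumber (ResidueField 𝒪)) (x - algebraMap 𝒪 R c) ∈
        maximalIdeal (DualNumber (ResidueField 𝒪)) := by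
      rw [mem_maximalIdeal, mem_nonunits_iff] at hm ⊢
      exact fun hu => hm (isUnit_of_map_unit _ _ hu)
    rw [mem_maximalIdeal_dualNumber_iff] at h1
    have h2 : (ψ : R →+* DualNumber (ResidueField 𝒪)) (x - algebraMap 𝒪 R c) =
        ψ x - algebraMap 𝒪 (DualNumber (ResidueField 𝒪)) c := by
      rw [map_sub]
      congr 1
      exact ψ.commutes c
    rw [h2, TrivSqZeroExt.fst_sub, sub_eq_zero, algebraMap_dualNumber_apply,
      TrivSqZeroExt.fst_inl] at h1
    exact h1
  rw [key φ, key φ']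

/-- a tangent vector with a nonzero `ε`-component is onto. -/
theorem algHom_dualNumber_surjective_of_snd_ne_zero
    (φ : R →ₐ[𝒪] DualNumber (ResidueField 𝒪)) (x₀ : R) (h0 : (φ x₀).snd ≠ 0) :
    Function.Surjective φ := by
  obtain ⟨c₀, hc₀⟩ := residue_surjective (R := 𝒪) (φ x₀).fst
  set x₁ := x₀ - algebraMap 𝒪 R c₀ with hx₁
  have e1 : φ x₁ = φ x₀ - algebraMap 𝒪 (DualNumber (ResidueField 𝒪)) c₀ := by
    rw [hx₁, map_sub, φ.commutes]
  have hf : (φ x₁).fst = 0 := by
    rw [e1, TrivSqZeroExt.fst_sub, algebraMap_dualNumber_apply, TrivSqZeroExt.fst_inl, hc₀,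
      sub_self]
  have hs : (φ x₁).snd = (φ x₀).snd := by
    rw [e1, TrivSqZeroExt.snd_sub, algebraMap_dualNumber_apply, TrivSqZeroExt.snd_inl, sub_zero]
  intro y
  obtain ⟨a, ha⟩ := residue_surjective (R := 𝒪) y.fst
  obtain ⟨b, hb⟩ := residue_surjective (R := 𝒪) (y.snd / (φ x₀).snd)
  refine ⟨algebraMap 𝒪 R a + algebraMap 𝒪 R b * x₁, ?_⟩
  rw [map_add, map_mul, φ.commutes, φ.commutes, algebraMap_dualNumber_apply,
    algebraMap_dualNumber_apply, ha, hb]
  ext
  · rw [TrivSqZeroExt.fst_add, TrivSqZeroExt.fst_mul, TrivSqZeroExt.fst_inl,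
      TrivSqZeroExt.fst_inl, hf, mul_zero, add_zero]
  · rw [TrivSqZeroExt.snd_add, TrivSqZeroExt.snd_mul, TrivSqZeroExt.snd_inl,
      TrivSqZeroExt.snd_inl, TrivSqZeroExt.fst_inl, hf, hs]
    simp only [zero_add, smul_eq_mul, MulOpposite.op_zero, zero_smul, add_zero]
    exact div_mul_cancel₀ _ h0

/-- two tangent vectors which are not onto are equal (both are the trivial one). -/
theorem algHom_dualNumber_eq_of_not_surjective
    (hres : Function.Surjective (residue R ∘ algebraMap 𝒪 R))
    (φ φ' : R →ₐ[𝒪] DualNumber (ResidueField 𝒪))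
    (h : ¬ Function.Surjective φ) (h' : ¬ Function.Surjective φ') : φ = φ' := by
  refine AlgHom.ext fun x => ?_
  ext
  · exact fst_algHom_dualNumber_eq hres φ φ' x
  · have h1 : (φ x).snd = 0 := by
      by_contra h0
      exact h (algHom_dualNumber_surjective_of_snd_ne_zero φ x h0)
    have h2 : (φ' x).snd = 0 := by
      by_contra h0
      exact h' (algHom_dualNumber_surjective_of_snd_ne_zero φ' x h0)
    rw [h1, h2]

end TangentAlg

section Main

variable {𝒪 : Type} [CommRing 𝒪] [IsDomain 𝒪] [IsDiscreteValuationRing 𝒪]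
  [IsAdicComplete (maximalIdeal 𝒪) 𝒪]
  {ρbar : ResidualGaloisRep (ResidueField 𝒪)}
  {𝒟 : ∀ ⦃A : Type⦄ [CommRing A] [IsLocalRing A] [Algebra 𝒪 A], GaloisRepAdic A → Prop}
  (DQ : GaloisRep.DeformationRingData 𝒪 ρbar 𝒟)

/-- the first-order deformation of `ρbar` attached to a tangent vector of the universal
deformation ring. -/
noncomputable def tangentRep (φ : DQ.R →ₐ[𝒪] DualNumber (ResidueField 𝒪)) :
    GaloisRepAdic (DualNumber (ResidueField 𝒪)) :=
  DQ.ρ.baseChangeAlong (φ : DQ.R →+* DualNumber (ResidueField 𝒪)) (isLocalHom_algHom_dualNumber φ)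

/-- `tangentRep` is a lift of `ρbar`. -/
theorem tangentRep_residual (φ : DQ.R →ₐ[𝒪] DualNumber (ResidueField 𝒪)) :
    (tangentRep DQ φ).residual.IsEquiv (ρbar.baseChangeAlong
      (ResidueField.map (algebraMap 𝒪 (DualNumber (ResidueField 𝒪))))) :=
  residual_baseChangeAlong_univ DQ φ (isLocalHom_algHom_dualNumber φ)

/-- tangent vectors with equivalent first-order deformations are equal, as soon as one of the two
deformations is of type `𝒟`. -/
theorem algHom_dualNumber_eq_of_isEquiv (φ φ' : DQ.R →ₐ[𝒪] DualNumber (ResidueField 𝒪))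
    (h𝒟 : 𝒟 (tangentRep DQ φ')) (he : (tangentRep DQ φ).IsEquiv (tangentRep DQ φ')) : φ = φ' :=
  algHom_eq_of_isEquiv DQ residue_cover_dualNumber φ φ' (isLocalHom_algHom_dualNumber φ)
    (isLocalHom_algHom_dualNumber φ') h𝒟 he

/-- **the tangent space of the universal deformation ring injects into any set of invariants that
separates inequivalent first-order deformations** — provided `𝒟` is stable under SURJECTIVE
base change `DQ.R ↠ k[ε]` (the trivial tangent vector needs nothing). This is the `ι`, `hι` of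
`GP.Alg.exists_surjective_of_deformationRingData`. -/
theorem injective_of_class
    (h𝒟 : ∀ φ : DQ.R →ₐ[𝒪] DualNumber (ResidueField 𝒪), Function.Surjective φ →
      𝒟 (tangentRep DQ φ))
    {T : Type*} (cls : GaloisRepAdic (DualNumber (ResidueField 𝒪)) → T)
    (hcls : ∀ φ φ' : DQ.R →ₐ[𝒪] DualNumber (ResidueField 𝒪),
      cls (tangentRep DQ φ) = cls (tangentRep DQ φ') →
        (tangentRep DQ φ).IsEquiv (tangentRep DQ φ')) :
    Function.Injective fun φ : DQ.R →ₐ[𝒪] DualNumber (ResidueField 𝒪) =>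
      cls (tangentRep DQ φ) := by
  intro φ φ' h
  by_cases hs' : Function.Surjective φ'
  · exact algHom_dualNumber_eq_of_isEquiv DQ φ φ' (h𝒟 φ' hs') (hcls φ φ' h)
  · by_cases hs : Function.Surjective φ
    · exact (algHom_dualNumber_eq_of_isEquiv DQ φ' φ (h𝒟 φ hs) (hcls φ' φ h.symm)).symm
    · exact algHom_dualNumber_eq_of_not_surjective DQ.residue_surjective φ φ' hs hs'

/-- variant: `ι` is allowed to depend on the tangent vector through any choice of a representative
(e.g. a matrix form) — only "equal invariants ⟹ equivalent deformations" is used. -/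
theorem injective_of_class'
    (h𝒟 : ∀ φ : DQ.R →ₐ[𝒪] DualNumber (ResidueField 𝒪), Function.Surjective φ →
      𝒟 (tangentRep DQ φ))
    {T : Type*} (ι : (DQ.R →ₐ[𝒪] DualNumber (ResidueField 𝒪)) → T)
    (hι : ∀ φ φ' : DQ.R →ₐ[𝒪] DualNumber (ResidueField 𝒪), ι φ = ι φ' →
        (tangentRep DQ φ).IsEquiv (tangentRep DQ φ')) :
    Function.Injective ι := by
  intro φ φ' h
  by_cases hs' : Function.Surjective φ'
  · exact algHom_dualNumber_eq_of_isEquiv DQ φ φ' (h𝒟 φ' hs') (hι φ φ' h)
  · by_cases hs : Function.Surjective φ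
    · exact (algHom_dualNumber_eq_of_isEquiv DQ φ' φ (h𝒟 φ hs) (hι φ' φ h.symm)).symm
    · exact algHom_dualNumber_eq_of_not_surjective DQ.residue_surjective φ φ' hs hs'

end Main

end Fermat.Agent.GP.Tan.UnivInj
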