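/-
GATE-P / adapter S56-TAN-CONDEQUIV (helper64).

(1) The two IsEquiv-invariances that were missing on main:
    `isStrictOrdinaryAt_of_isEquiv`, `isFlatAt_of_isEquiv` (+ the packaged conditions).
(2) RESIDUAL SHAPE: a `k[ε]`-lift of `ρbar` of type `cond56` forces `ρbar` itself
    (as `GaloisRepAdic.ofResidualGaloisRep ρbar`) to be of type `cond56`.
-/
import Fermat.Agent.GP.Tan.BaseChangeCond
import Fermat.Agent.GP.Tan.Cocycle
import Fermat.Agent.GP.Loc.UnipGlue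
import Fermat.Agent.GP.Top.S56OfGates

set_option autoImplicit false
set_option linter.unusedSectionVars false
set_option linter.unusedVariables false

open scoped TensorProduct
open IsLocalRing

namespace Fermat.Agent.GP.Tan

variable {A : Type} [CommRing A] [IsLocalRing A]

/-! ### IsEquiv-invariance -/

theorem isStrictOrdinaryAt_of_isEquiv {ρ ρ' : GaloisRepAdic A} (h : ρ.IsEquiv ρ') {p : ℕ}
    (hρ : ρ.IsStrictOrdinaryAt p) : ρ'.IsStrictOrdinaryAt p := by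
  obtain ⟨e⟩ := h
  refine ⟨hρ.1, fun P hP => ?_⟩
  obtain ⟨L, ⟨b, hb⟩, hD, hI, hS⟩ := hρ.2 P hP
  have key : ∀ (σ : AlgebraicClosure ℚ ≃ₐ[ℚ] AlgebraicClosure ℚ) (v : ρ.V),
      ρ'.ρ σ (e.toLinearEquiv v) = e.toLinearEquiv (ρ.ρ σ v) := fun σ v => (e.map_apply σ v).symm
  have hsurj : ∀ w : ρ'.V, ∃ v : ρ.V, e.toLinearEquiv v = w := e.toLinearEquiv.surjective
  refine ⟨L.map (e.toLinearEquiv : ρ.V →ₗ[A] ρ'.V), ⟨b.map e.toLinearEquiv, ?_⟩, ?_, ?_, ?_⟩
  · rw [hb, Submodule.map_span, Set.image_singleton, Module.Basis.map_apply]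
    rfl
  · rintro σ hσ w ⟨v, hv, rfl⟩
    exact ⟨ρ.ρ σ v, hD σ hσ v hv, (key σ v).symm⟩
  · intro σ hσ w
    obtain ⟨v, rfl⟩ := hsurj w
    refine ⟨ρ.ρ σ v - v, hI σ hσ v, ?_⟩
    rw [LinearEquiv.coe_coe, map_sub, key]
  · intro σ hσ
    obtain ⟨x, z, hx, hz, hxz⟩ := hS σ hσ
    refine ⟨x, z, ?_, ?_, hxz⟩
    · rintro w ⟨v, hv, rfl⟩
      rw [LinearEquiv.coe_coe, key, hx v hv, map_smul]
    · intro w
      obtain ⟨v, rfl⟩ := hsurj w
      refine ⟨ρ.ρ σ v - z • v, hz v, ?_⟩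
      rw [LinearEquiv.coe_coe, map_sub, map_smul, key]

theorem isFlatAt_of_isEquiv {ρ ρ' : GaloisRepAdic A} (h : ρ.IsEquiv ρ') {p : ℕ}
    (hρ : ρ.IsFlatAt p) : ρ'.IsFlatAt p := by
  obtain ⟨e⟩ := h
  refine ⟨hρ.1, fun I hI => ?_⟩
  obtain ⟨H, i1, i2, hfinH, hflat, hcocomm, e₀, hadd, hequiv⟩ := hρ.2 I hI
  have hmap : (I • (⊤ : Submodule A ρ.V)).map (e.toLinearEquiv : ρ.V →ₗ[A] ρ'.V) =
      I • (⊤ : Submodule A ρ'.V) := by
    rw [Submodule.map_smul'', Submodule.map_top, LinearEquiv.range]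
  let Ψ : (ρ.V ⧸ (I • (⊤ : Submodule A ρ.V))) ≃ₗ[A] (ρ'.V ⧸ (I • (⊤ : Submodule A ρ'.V))) :=
    Submodule.Quotient.equiv _ _ e.toLinearEquiv hmap
  have hΨ : ∀ v : ρ.V, Ψ (Submodule.Quotient.mk v) = Submodule.Quotient.mk (e.toLinearEquiv v) :=
    fun v => rfl
  refine ⟨H, i1, i2, hfinH, hflat, hcocomm, e₀.trans Ψ.toEquiv, ?_, ?_⟩
  · intro f g
    simp only [Equiv.trans_apply, hadd, LinearEquiv.coe_toEquiv, map_add]
  · intro σ f g hfg
    rw [Equiv.trans_apply, hequiv σ f g hfg, Equiv.trans_apply]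
    generalize e₀ f = x
    obtain ⟨v, rfl⟩ := Submodule.Quotient.mk_surjective _ x
    change Ψ (Submodule.Quotient.mk (ρ.ρ σ v)) = ρ'.levelAction I σ (Ψ (Submodule.Quotient.mk v))
    rw [hΨ, hΨ, e.map_apply]
    rfl

/-! ### Generic transfer to the residual representation -/

section Transfer

open Fermat.Agent.S53_helper35 Fermat.Agent.GP.Top Fermat.Agent.GP.Tan.UnivInj

/-- a ring hom out of a field into a nontrivial ring is local. -/
theorem isLocalHom_of_field {k K : Type} [Field k] [CommRing K] [Nontrivial K] (f : k →+* K) :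
    IsLocalHom f :=
  ⟨fun a ha => by
    have h0 : a ≠ 0 := by
      rintro rfl
      rw [map_zero] at ha
      exact not_isUnit_zero ha
    exact isUnit_iff_ne_zero.2 h0⟩

/-- `ResidualGaloisRep.IsEquiv` gives `GaloisRepAdic.IsEquiv` of the associated adic reps. -/
theorem ofResidualGaloisRep_isEquiv {k : Type} [Field k] {ρ₁ ρ₂ : ResidualGaloisRep k}
    (h : ρ₁.IsEquiv ρ₂) :
    (GaloisRepAdic.ofResidualGaloisRep ρ₁).IsEquiv (GaloisRepAdic.ofResidualGaloisRep ρ₂) := by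
  obtain ⟨e⟩ := h
  exact ⟨⟨e.toLinearEquiv, e.map_apply⟩⟩

/-- base change along (a ring hom equal to) the identity is equivalent to the original. -/
theorem baseChangeAlong_isEquiv_of_eq_id (ρ : GaloisRepAdic A) (ψ : A →+* A)
    (hψ : IsLocalHom ψ) (h : ψ = RingHom.id A) : (ρ.baseChangeAlong ψ hψ).IsEquiv ρ := by
  set b := stdBasis ρ
  obtain ⟨e1⟩ := baseChangeAlong_isEquiv_ofMat ψ hψ ρ b
  have hm : mapMat ψ (toMat ρ b) = toMat ρ b := by
    subst h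
    refine MonoidHom.ext fun σ => ?_
    rw [mapMat_apply]
    ext i j
    simp
  obtain ⟨e2⟩ := isEquiv_ofMat_of_eq (matCont_mapMat ψ hψ (matCont_toMat ρ b))
    (matCont_toMat ρ b) hm
  exact ⟨(e1.trans e2).trans (equivOfMatToMat ρ b).symm⟩

variable {𝒪 : Type} [CommRing 𝒪] [IsDomain 𝒪] [IsDiscreteValuationRing 𝒪]
  [IsAdicComplete (maximalIdeal 𝒪) 𝒪]

omit [IsAdicComplete (maximalIdeal 𝒪) 𝒪] in
/-- **Transfer principle**: a property of adic Galois representations (over arbitrary local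
coefficient rings) that is stable under surjective base change and under equivalence passes from
any `k[ε]`-lift of `ρbar` to `ρbar` itself. -/
theorem residual_transfer
    (Pr : ∀ ⦃B : Type⦄ [CommRing B] [IsLocalRing B], GaloisRepAdic B → Prop)
    (hbc : ∀ ⦃B C : Type⦄ [CommRing B] [IsLocalRing B] [CommRing C] [IsLocalRing C]
      (φ : B →+* C) (hφ : IsLocalHom φ), Function.Surjective φ →
      ∀ ⦃ρ : GaloisRepAdic B⦄, Pr ρ → Pr (ρ.baseChangeAlong φ hφ))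
    (heq : ∀ ⦃B : Type⦄ [CommRing B] [IsLocalRing B] ⦃ρ ρ' : GaloisRepAdic B⦄,
      ρ.IsEquiv ρ' → Pr ρ → Pr ρ')
    (ρbar : ResidualGaloisRep (ResidueField 𝒪))
    {ρ₁ : GaloisRepAdic (DualNumber (ResidueField 𝒪))} (hlift : IsLift 𝒪 ρbar ρ₁)
    (h : Pr ρ₁) : Pr (GaloisRepAdic.ofResidualGaloisRep ρbar) := by
  -- the iso `ι : k ≃ ResidueField k[ε]`
  set ι : ResidueField 𝒪 →+* ResidueField (DualNumber (ResidueField 𝒪)) :=
    ResidueField.map (algebraMap 𝒪 (DualNumber (ResidueField 𝒪))) with hι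
  have hιsurj : Function.Surjective ι := by
    intro y
    obtain ⟨x, rfl⟩ := IsLocalRing.residue_surjective y
    obtain ⟨a, ha⟩ := residue_cover_dualNumber (𝒪 := 𝒪) (IsLocalRing.residue _ x)
    refine ⟨IsLocalRing.residue 𝒪 a, ?_⟩
    rw [hι, ResidueField.map_residue]
    exact ha
  have hιbij : Function.Bijective ι := ⟨ι.injective, hιsurj⟩
  let E : ResidueField 𝒪 ≃+* ResidueField (DualNumber (ResidueField 𝒪)) :=
    RingEquiv.ofBijective ι hιbij
  let ι' : ResidueField (DualNumber (ResidueField 𝒪)) →+* ResidueField 𝒪 := E.symm.toRingHom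
  have hι'surj : Function.Surjective ι' := E.symm.surjective
  have hcomp : ι'.comp ι = RingHom.id (ResidueField 𝒪) := by
    refine RingHom.ext fun x => ?_
    exact E.symm_apply_apply x
  -- step 1: reduce modulo `ε`
  have h1 : Pr (ρ₁.baseChangeAlong (IsLocalRing.residue (DualNumber (ResidueField 𝒪)))
      inferInstance) :=
    hbc _ _ IsLocalRing.residue_surjective h
  have h2 : Pr (GaloisRepAdic.ofResidualGaloisRep ρ₁.residual) := h1
  -- step 2: transport along the lift equivalence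
  have h3 : Pr (GaloisRepAdic.ofResidualGaloisRep (ρbar.baseChangeAlong ι)) :=
    heq (ofResidualGaloisRep_isEquiv hlift) h2
  have h4 : Pr ((GaloisRepAdic.ofResidualGaloisRep ρbar).baseChangeAlong ι
      (isLocalHom_of_field ι)) := h3
  -- step 3: come back along `ι⁻¹`
  have h5 := hbc ι' (isLocalHom_of_field ι') hι'surj h4
  obtain ⟨e6⟩ := baseChangeAlong_comp_isEquiv (GaloisRepAdic.ofResidualGaloisRep ρbar) ι
    (isLocalHom_of_field ι) ι' (isLocalHom_of_field ι')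
  have h6 := heq ⟨e6⟩ h5
  exact heq (baseChangeAlong_isEquiv_of_eq_id _ _ _ hcomp) h6

/-! ### The residual representation has the local shape -/

open Fermat.Agent.GP.Tan.Cocycle Fermat.Agent.GP.Loc.UnipGlue in
/-- `cond56` at the strictly ordinary condition is invariant under equivalence. -/
theorem cond56_SO_of_isEquiv (p : ℕ) (Smin Q : Finset ℕ) [Algebra 𝒪 A] {ρ ρ' : GaloisRepAdic A}
    (h : ρ.IsEquiv ρ')
    (hρ : cond56 𝒪 (GaloisRep.strictOrdinaryCondition 𝒪 p) p Smin Q ρ) :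
    cond56 𝒪 (GaloisRep.strictOrdinaryCondition 𝒪 p) p Smin Q ρ' :=
  ⟨⟨detIsCyclotomic_of_isEquiv h hρ.1.1, isStrictOrdinaryAt_of_isEquiv h hρ.1.2.1,
      fun q hq hqT => isUnramifiedAt_of_isEquiv h (hρ.1.2.2 q hq hqT)⟩,
    fun q hq hqp hne => isUnipotentOnInertiaAt_of_isEquiv h (hρ.2 q hq hqp hne)⟩

open Fermat.Agent.GP.Tan.Cocycle Fermat.Agent.GP.Loc.UnipGlue in
/-- `cond56` at the flat condition is invariant under equivalence. -/
theorem cond56_FL_of_isEquiv (p : ℕ) (Smin Q : Finset ℕ) [Algebra 𝒪 A] {ρ ρ' : GaloisRepAdic A}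
    (h : ρ.IsEquiv ρ')
    (hρ : cond56 𝒪 (GaloisRep.flatCondition 𝒪 p) p Smin Q ρ) :
    cond56 𝒪 (GaloisRep.flatCondition 𝒪 p) p Smin Q ρ' :=
  ⟨⟨detIsCyclotomic_of_isEquiv h hρ.1.1, isFlatAt_of_isEquiv h hρ.1.2.1,
      fun q hq hqT => isUnramifiedAt_of_isEquiv h (hρ.1.2.2 q hq hqT)⟩,
    fun q hq hqp hne => isUnipotentOnInertiaAt_of_isEquiv h (hρ.2 q hq hqp hne)⟩

open Fermat.Agent.GP.Tan.Cocycle Fermat.Agent.GP.Loc.UnipGlue in
/-- **Residual shape, strictly ordinary case**: if `ρbar` has a `k[ε]`-lift of type `cond56`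
(strictly ordinary at `p`), then `ρbar` itself is of that type. -/
theorem cond56_SO_residual (p : ℕ) (Smin Q : Finset ℕ)
    (ρbar : ResidualGaloisRep (ResidueField 𝒪))
    {ρ₁ : GaloisRepAdic (DualNumber (ResidueField 𝒪))} (hlift : IsLift 𝒪 ρbar ρ₁)
    (h : cond56 𝒪 (GaloisRep.strictOrdinaryCondition 𝒪 p) p Smin Q ρ₁) :
    cond56 𝒪 (GaloisRep.strictOrdinaryCondition 𝒪 p) p Smin Q
      (GaloisRepAdic.ofResidualGaloisRep ρbar) :=
  residual_transfer
    (fun B _ _ ρ => (ρ.DetIsCyclotomic p ∧ ρ.IsStrictOrdinaryAt p ∧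
        ∀ q : ℕ, q.Prime → q ∉ Smin ∪ Q → ρ.IsUnramifiedAt q) ∧
      ∀ q ∈ Smin, q.Prime → q ≠ p → ρ.IsUnipotentOnInertiaAt q)
    (fun _ _ _ _ _ _ φ hφ _ _ hρ =>
      ⟨⟨detIsCyclotomic_baseChangeAlong φ hφ hρ.1.1, isStrictOrdinaryAt_baseChangeAlong φ hφ hρ.1.2.1,
          fun q hq hqT => isUnramifiedAt_baseChangeAlong φ hφ (hρ.1.2.2 q hq hqT)⟩,
        fun q hq hqp hne => isUnipotentOnInertiaAt_baseChangeAlong φ hφ (hρ.2 q hq hqp hne)⟩)
    (fun _ _ _ _ _ he hρ =>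
      ⟨⟨detIsCyclotomic_of_isEquiv he hρ.1.1, isStrictOrdinaryAt_of_isEquiv he hρ.1.2.1,
          fun q hq hqT => isUnramifiedAt_of_isEquiv he (hρ.1.2.2 q hq hqT)⟩,
        fun q hq hqp hne => isUnipotentOnInertiaAt_of_isEquiv he (hρ.2 q hq hqp hne)⟩)
    ρbar hlift h

open Fermat.Agent.GP.Tan.Cocycle Fermat.Agent.GP.Loc.UnipGlue in
/-- **Residual shape, flat case**: if `ρbar` has a `k[ε]`-lift of type `cond56` (flat at `p`),
then `ρbar` itself is of that type. -/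
theorem cond56_FL_residual (p : ℕ) (Smin Q : Finset ℕ)
    (ρbar : ResidualGaloisRep (ResidueField 𝒪))
    {ρ₁ : GaloisRepAdic (DualNumber (ResidueField 𝒪))} (hlift : IsLift 𝒪 ρbar ρ₁)
    (h : cond56 𝒪 (GaloisRep.flatCondition 𝒪 p) p Smin Q ρ₁) :
    cond56 𝒪 (GaloisRep.flatCondition 𝒪 p) p Smin Q
      (GaloisRepAdic.ofResidualGaloisRep ρbar) :=
  residual_transfer
    (fun B _ _ ρ => (ρ.DetIsCyclotomic p ∧ ρ.IsFlatAt p ∧
        ∀ q : ℕ, q.Prime → q ∉ Smin ∪ Q → ρ.IsUnramifiedAt q) ∧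
      ∀ q ∈ Smin, q.Prime → q ≠ p → ρ.IsUnipotentOnInertiaAt q)
    (fun _ _ _ _ _ _ φ hφ hsurj _ hρ =>
      ⟨⟨detIsCyclotomic_baseChangeAlong φ hφ hρ.1.1,
          isFlatAt_baseChangeAlong_of_surjective φ hφ hsurj hρ.1.2.1,
          fun q hq hqT => isUnramifiedAt_baseChangeAlong φ hφ (hρ.1.2.2 q hq hqT)⟩,
        fun q hq hqp hne => isUnipotentOnInertiaAt_baseChangeAlong φ hφ (hρ.2 q hq hqp hne)⟩)
    (fun _ _ _ _ _ he hρ =>
      ⟨⟨detIsCyclotomic_of_isEquiv he hρ.1.1, isFlatAt_of_isEquiv he hρ.1.2.1,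
          fun q hq hqT => isUnramifiedAt_of_isEquiv he (hρ.1.2.2 q hq hqT)⟩,
        fun q hq hqp hne => isUnipotentOnInertiaAt_of_isEquiv he (hρ.2 q hq hqp hne)⟩)
    ρbar hlift h

end Transfer

end Fermat.Agent.GP.Tan
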