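/-
GATE-P / S56, node S56-TAN-SEL (helper11), FROZEN INSTANTIATION: the hypothesis `hglob` of
`SelmerGlobal.selmerBound_of_local` is discharged for the two frozen deformation conditions of
S56 (`strictOrdinaryCondition` / `flatCondition` at level `Smin ∪ Q` + unipotent inertia at
`Smin`): cyclotomic determinant gives trace-zero tangent cocycles, and "unramified outside
`Smin ∪ Q`" gives level-constancy for `levelS Σ` for every finite set `Σ` of primes containing
the primes of `Smin ∪ Q`.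

* `primesIn T` : the primes of a `Finset ℕ` as a `Finset Nat.Primes`;
* `BaseGlobal p base` : the two global clauses shared by both frozen base conditions;
* `hglob_of_baseGlobal` : the `hglob` binder of `selmerBound_of_local`;
* `selmerBound_strict_of_local`, `selmerBound_flat_of_local` : `SelmerBound` in the literal shape
  consumed by `TanTop.s56_of_selmerBounds`, from the purely local input.
-/
import Fermat.Agent.GP.Tan.SelmerGlobal

set_option autoImplicit false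
set_option linter.unusedSectionVars false
set_option linter.style.haveILetI false

namespace Fermat.Agent.GP.Tan.SelmerFrozen

open IsLocalRing Fermat.Agent.S53_helper35 Matrix Fermat.Agent.GP.Tan.Cocycle
  Fermat.Agent.GP.Tan.TanTop Fermat.Agent.GP.Tan.Selmer Fermat.Agent.GP.Tan.SelmerGlobal
  Fermat.Agent.GC.Prof groupCohomology

/-- the primes of a finite set of naturals, as a finite set of `Nat.Primes`. -/
def primesIn (T : Finset ℕ) : Finset Nat.Primes := T.subtype Nat.Prime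

theorem mem_primesIn {T : Finset ℕ} {q : Nat.Primes} : q ∈ primesIn T ↔ (q : ℕ) ∈ T :=
  Finset.mem_subtype

/-- the global clauses common to the frozen base conditions: cyclotomic determinant and no
ramification outside the level. -/
def BaseGlobal (𝒪 : Type) [CommRing 𝒪] (p : ℕ)
    (base : Finset ℕ → ∀ ⦃A : Type⦄ [CommRing A] [IsLocalRing A] [Algebra 𝒪 A],
      GaloisRepAdic A → Prop) : Prop :=
  ∀ (T : Finset ℕ) ⦃A : Type⦄ [CommRing A] [IsLocalRing A] [Algebra 𝒪 A] (ρ : GaloisRepAdic A),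
    base T ρ → ρ.DetIsCyclotomic p ∧ ∀ q : ℕ, q.Prime → q ∉ T → ρ.IsUnramifiedAt q

theorem baseGlobal_strictOrdinary (𝒪 : Type) [CommRing 𝒪] (p : ℕ) :
    BaseGlobal 𝒪 p (GaloisRep.strictOrdinaryCondition 𝒪 p) :=
  fun _T _A _ _ _ _ρ h => ⟨h.1, h.2.2⟩

theorem baseGlobal_flat (𝒪 : Type) [CommRing 𝒪] (p : ℕ) :
    BaseGlobal 𝒪 p (GaloisRep.flatCondition 𝒪 p) :=
  fun _T _A _ _ _ _ρ h => ⟨h.1, h.2.2⟩

section Frozen

variable {𝒪 : Type} [CommRing 𝒪] [IsLocalRing 𝒪]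
  (ρbar : ResidualGaloisRep (ResidueField 𝒪))
  (b : Module.Basis (Fin 2) (ResidueField 𝒪) ρbar.V)
  (p : ℕ) (hp : 0 < p)
  (base : Finset ℕ → ∀ ⦃A : Type⦄ [CommRing A] [IsLocalRing A] [Algebra 𝒪 A],
    GaloisRepAdic A → Prop)
  (hbase : BaseGlobal 𝒪 p base)
  (Smin Q : Finset ℕ) (S : Finset Nat.Primes)
  (hS : ∀ q : Nat.Primes, (q : ℕ) ∈ Smin ∪ Q → q ∈ S)

include hp hbase hS in
/-- the binder `hglob` of `selmerBound_of_local` for a frozen-shaped condition. -/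
theorem hglob_of_baseGlobal
    (t : S53_helper35.GQ →* Matrix (Fin 2) (Fin 2) (DualNumber (ResidueField 𝒪)))
    (ht : MatCont t)
    (h : ∃ ρ : GaloisRepAdic (DualNumber (ResidueField 𝒪)),
      (base (Smin ∪ Q) ρ ∧ ∀ q ∈ Smin, q.Prime → q ≠ p → ρ.IsUnipotentOnInertiaAt q) ∧
        ρ.IsEquiv (ofMat t ht)) :
    (∀ σ, Matrix.trace (tanCocycle t σ) = 0) ∧
      ∀ q : Nat.Primes, q ∉ S → (ofMat t ht).IsUnramifiedAt (q : ℕ) := by
  obtain ⟨ρ, ⟨hb, -⟩, he⟩ := h
  obtain ⟨hdet, hur⟩ := hbase _ ρ hb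
  refine ⟨fun σ => trace_tanCocycle_eq_zero_of_detIsCyclotomic t ht p hp
    (detIsCyclotomic_of_isEquiv he hdet) σ, fun q hq => ?_⟩
  exact isUnramifiedAt_of_isEquiv he (hur q q.2 fun hmem => hq (hS q hmem))

variable {k' : Type} [CommRing k'] (N : Rep k' S53_helper35.GQ)
  [IsDiscrete (Fermat.Agent.GC.C0.levelS S) N]
  (emb : N →+ Matrix (Fin 2) (Fin 2) (ResidueField 𝒪))
  (hinj : Function.Injective emb)
  (hsurj : ∀ X : Matrix (Fin 2) (Fin 2) (ResidueField 𝒪), Matrix.trace X = 0 → ∃ x : N, emb x = X)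
  (hact : ∀ (σ : S53_helper35.GQ) (x : N),
    emb (N.ρ σ x) = toMatRes ρbar b σ * emb x * toMatRes ρbar b σ⁻¹)

include hp hbase hS hinj hsurj hact in
/-- **`SelmerBound` for a frozen-shaped condition from local membership.** -/
theorem selmerBound_base_of_local (h2 : (2 : ResidueField 𝒪) ≠ 0) (r : ℕ)
    (Sel : Set (Hlc (Fermat.Agent.GC.C0.levelS S) N 1)) (hfin : Sel.Finite)
    (h0 : (0 : Hlc (Fermat.Agent.GC.C0.levelS S) N 1) ∈ Sel)
    (hcard : Sel.ncard ≤ Nat.card (ResidueField 𝒪) ^ r)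
    (hloc : ∀ (t : S53_helper35.GQ →* Matrix (Fin 2) (Fin 2) (DualNumber (ResidueField 𝒪)))
      (ht : MatCont t), rfst t = toMatRes ρbar b →
        (∃ ρ : GaloisRepAdic (DualNumber (ResidueField 𝒪)),
          (base (Smin ∪ Q) ρ ∧ ∀ q ∈ Smin, q.Prime → q ≠ p → ρ.IsUnipotentOnInertiaAt q) ∧
            ρ.IsEquiv (ofMat t ht)) →
        ∀ z : lcCocycles₁ (Fermat.Agent.GC.C0.levelS S) N,
          (∀ σ, emb ((z : S53_helper35.GQ → N) σ) = tanCocycle t σ) →
            Hlc1π (Fermat.Agent.GC.C0.levelS S) N z ∈ Sel) :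
    SelmerBound 𝒪 ρbar b (fun _A _ _ _ ρ =>
      base (Smin ∪ Q) ρ ∧ ∀ q ∈ Smin, q.Prime → q ≠ p → ρ.IsUnipotentOnInertiaAt q) r :=
  selmerBound_of_local ρbar b _ N S emb hinj hsurj hact h2 r Sel hfin h0 hcard
    (fun t ht h => hglob_of_baseGlobal p hp base hbase Smin Q S hS t ht h) hloc

include hp hS hinj hsurj hact in
/-- the strict-ordinary conjunct of S56, in the shape of `TanTop.s56_of_selmerBounds`. -/
theorem selmerBound_strict_of_local (h2 : (2 : ResidueField 𝒪) ≠ 0) (r : ℕ)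
    (Sel : Set (Hlc (Fermat.Agent.GC.C0.levelS S) N 1)) (hfin : Sel.Finite)
    (h0 : (0 : Hlc (Fermat.Agent.GC.C0.levelS S) N 1) ∈ Sel)
    (hcard : Sel.ncard ≤ Nat.card (ResidueField 𝒪) ^ r)
    (hloc : ∀ (t : S53_helper35.GQ →* Matrix (Fin 2) (Fin 2) (DualNumber (ResidueField 𝒪)))
      (ht : MatCont t), rfst t = toMatRes ρbar b →
        (∃ ρ : GaloisRepAdic (DualNumber (ResidueField 𝒪)),
          (GaloisRep.strictOrdinaryCondition 𝒪 p (Smin ∪ Q) ρ ∧
            ∀ q ∈ Smin, q.Prime → q ≠ p → ρ.IsUnipotentOnInertiaAt q) ∧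
            ρ.IsEquiv (ofMat t ht)) →
        ∀ z : lcCocycles₁ (Fermat.Agent.GC.C0.levelS S) N,
          (∀ σ, emb ((z : S53_helper35.GQ → N) σ) = tanCocycle t σ) →
            Hlc1π (Fermat.Agent.GC.C0.levelS S) N z ∈ Sel) :
    SelmerBound 𝒪 ρbar b (fun _A _ _ _ ρ =>
      GaloisRep.strictOrdinaryCondition 𝒪 p (Smin ∪ Q) ρ ∧
        ∀ q ∈ Smin, q.Prime → q ≠ p → ρ.IsUnipotentOnInertiaAt q) r :=
  selmerBound_base_of_local ρbar b p hp (GaloisRep.strictOrdinaryCondition 𝒪 p)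
    (baseGlobal_strictOrdinary 𝒪 p) Smin Q S hS N emb hinj hsurj hact h2 r Sel hfin h0 hcard hloc

include hp hS hinj hsurj hact in
/-- the flat conjunct of S56, in the shape of `TanTop.s56_of_selmerBounds`. -/
theorem selmerBound_flat_of_local (h2 : (2 : ResidueField 𝒪) ≠ 0) (r : ℕ)
    (Sel : Set (Hlc (Fermat.Agent.GC.C0.levelS S) N 1)) (hfin : Sel.Finite)
    (h0 : (0 : Hlc (Fermat.Agent.GC.C0.levelS S) N 1) ∈ Sel)
    (hcard : Sel.ncard ≤ Nat.card (ResidueField 𝒪) ^ r)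
    (hloc : ∀ (t : S53_helper35.GQ →* Matrix (Fin 2) (Fin 2) (DualNumber (ResidueField 𝒪)))
      (ht : MatCont t), rfst t = toMatRes ρbar b →
        (∃ ρ : GaloisRepAdic (DualNumber (ResidueField 𝒪)),
          (GaloisRep.flatCondition 𝒪 p (Smin ∪ Q) ρ ∧
            ∀ q ∈ Smin, q.Prime → q ≠ p → ρ.IsUnipotentOnInertiaAt q) ∧
            ρ.IsEquiv (ofMat t ht)) →
        ∀ z : lcCocycles₁ (Fermat.Agent.GC.C0.levelS S) N,
          (∀ σ, emb ((z : S53_helper35.GQ → N) σ) = tanCocycle t σ) →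
            Hlc1π (Fermat.Agent.GC.C0.levelS S) N z ∈ Sel) :
    SelmerBound 𝒪 ρbar b (fun _A _ _ _ ρ =>
      GaloisRep.flatCondition 𝒪 p (Smin ∪ Q) ρ ∧
        ∀ q ∈ Smin, q.Prime → q ≠ p → ρ.IsUnipotentOnInertiaAt q) r :=
  selmerBound_base_of_local ρbar b p hp (GaloisRep.flatCondition 𝒪 p)
    (baseGlobal_flat 𝒪 p) Smin Q S hS N emb hinj hsurj hact h2 r Sel hfin h0 hcard hloc

end Frozen

/-- `primesIn (Smin ∪ Q)` is the minimal admissible level. -/
theorem mem_primesIn_of_mem (Smin Q : Finset ℕ) (q : Nat.Primes) (h : (q : ℕ) ∈ Smin ∪ Q) :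
    q ∈ primesIn (Smin ∪ Q) := mem_primesIn.2 h

end Fermat.Agent.GP.Tan.SelmerFrozen
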