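/-
GATE-P / S56, node S56-TAN-SEL (helper11), CARDINALITY GLUE: `SelmerBound` for the frozen
conditions from a finite-dimensional `𝔽_p`-SUBSPACE `Sel ⊆ Hlc (levelS S) N 1` (e.g.
`GP.GW.selmerGrp S N L` of the pinned model) with `dim_{𝔽_p} Sel ≤ r · [k : 𝔽_p]`.

* `ncard_submodule_le` : `#W = p ^ finrank W ≤ |k| ^ r` for `finrank W ≤ r * d`, `|k| = p ^ d`;
* `selmerBound_base_of_submodule` : the consumer form of `SelmerFrozen.selmerBound_base_of_local`;
* `selmerBound_strict_of_submodule`, `selmerBound_flat_of_submodule` : the two frozen conjuncts.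
-/
import Fermat.Agent.GP.Tan.SelmerFrozen

set_option autoImplicit false
set_option linter.unusedSectionVars false
set_option linter.style.haveILetI false

namespace Fermat.Agent.GP.Tan.SelmerCard

open IsLocalRing Fermat.Agent.S53_helper35 Matrix Fermat.Agent.GP.Tan.Cocycle
  Fermat.Agent.GP.Tan.TanTop Fermat.Agent.GP.Tan.Selmer Fermat.Agent.GP.Tan.SelmerGlobal
  Fermat.Agent.GP.Tan.SelmerFrozen Fermat.Agent.GC.Prof groupCohomology

/-- a finite-dimensional `𝔽_p`-subspace of dimension `≤ r·d` has at most `(p^d)^r` elements. -/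
theorem ncard_submodule_le {p : ℕ} [Fact p.Prime] {H : Type*} [AddCommGroup H]
    [Module (ZMod p) H] (W : Submodule (ZMod p) H) [Module.Finite (ZMod p) W] {r d c : ℕ}
    (hc : c = p ^ d) (hdim : Module.finrank (ZMod p) W ≤ r * d) :
    ((W : Set H)).Finite ∧ (0 : H) ∈ (W : Set H) ∧ (W : Set H).ncard ≤ c ^ r := by
  haveI : Finite W := Module.finite_of_finite (ZMod p)
  refine ⟨Set.toFinite _, W.zero_mem, ?_⟩
  have h1 : (W : Set H).ncard = Nat.card W := (Nat.card_coe_set_eq _).symm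
  rw [h1, Module.natCard_eq_pow_finrank (K := ZMod p) (V := W), Nat.card_zmod, hc, ← pow_mul,
    mul_comm d r]
  exact Nat.pow_le_pow_right (Fact.out : p.Prime).pos hdim

section Frozen

variable {𝒪 : Type} [CommRing 𝒪] [IsLocalRing 𝒪]
  (ρbar : ResidualGaloisRep (ResidueField 𝒪))
  (b : Module.Basis (Fin 2) (ResidueField 𝒪) ρbar.V)
  (p : ℕ) [Fact p.Prime]
  (base : Finset ℕ → ∀ ⦃A : Type⦄ [CommRing A] [IsLocalRing A] [Algebra 𝒪 A],
    GaloisRepAdic A → Prop)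
  (hbase : BaseGlobal 𝒪 p base)
  (Smin Q : Finset ℕ) (S : Finset Nat.Primes)
  (hS : ∀ q : Nat.Primes, (q : ℕ) ∈ Smin ∪ Q → q ∈ S)
  (N : Rep (ZMod p) S53_helper35.GQ)
  [IsDiscrete (Fermat.Agent.GC.C0.levelS S) N]
  (emb : N →+ Matrix (Fin 2) (Fin 2) (ResidueField 𝒪))
  (hinj : Function.Injective emb)
  (hsurj : ∀ X : Matrix (Fin 2) (Fin 2) (ResidueField 𝒪), Matrix.trace X = 0 → ∃ x : N, emb x = X)
  (hact : ∀ (σ : S53_helper35.GQ) (x : N),
    emb (N.ρ σ x) = toMatRes ρbar b σ * emb x * toMatRes ρbar b σ⁻¹)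

include hbase hS hinj hsurj hact in
/-- **`SelmerBound` from an `𝔽_p`-subspace of classes** of dimension `≤ r·d`, `|k| = p^d`. -/
theorem selmerBound_base_of_submodule (h2 : (2 : ResidueField 𝒪) ≠ 0) (r d : ℕ)
    (hk : Nat.card (ResidueField 𝒪) = p ^ d)
    (Sel : Submodule (ZMod p) (Hlc (Fermat.Agent.GC.C0.levelS S) N 1))
    [Module.Finite (ZMod p) Sel]
    (hdim : Module.finrank (ZMod p) Sel ≤ r * d)
    (hloc : ∀ (t : S53_helper35.GQ →* Matrix (Fin 2) (Fin 2) (DualNumber (ResidueField 𝒪)))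
      (ht : MatCont t), rfst t = toMatRes ρbar b →
        (∃ ρ : GaloisRepAdic (DualNumber (ResidueField 𝒪)),
          (base (Smin ∪ Q) ρ ∧ ∀ q ∈ Smin, q.Prime → q ≠ p → ρ.IsUnipotentOnInertiaAt q) ∧
            ρ.IsEquiv (ofMat t ht)) →
        ∀ z : lcCocycles₁ (Fermat.Agent.GC.C0.levelS S) N,
          (∀ σ, emb ((z : S53_helper35.GQ → N) σ) = tanCocycle t σ) →
            Hlc1π (Fermat.Agent.GC.C0.levelS S) N z ∈ Sel) :
    SelmerBound 𝒪 ρbar b (fun _A _ _ _ ρ =>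
      base (Smin ∪ Q) ρ ∧ ∀ q ∈ Smin, q.Prime → q ≠ p → ρ.IsUnipotentOnInertiaAt q) r := by
  obtain ⟨hfin, h0, hcard⟩ := ncard_submodule_le Sel hk hdim
  exact selmerBound_base_of_local ρbar b p (Fact.out : p.Prime).pos base hbase Smin Q S hS N emb
    hinj hsurj hact h2 r (Sel : Set _) hfin h0 hcard hloc

include hS hinj hsurj hact in
/-- the strict-ordinary conjunct. -/
theorem selmerBound_strict_of_submodule (h2 : (2 : ResidueField 𝒪) ≠ 0) (r d : ℕ)
    (hk : Nat.card (ResidueField 𝒪) = p ^ d)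
    (Sel : Submodule (ZMod p) (Hlc (Fermat.Agent.GC.C0.levelS S) N 1))
    [Module.Finite (ZMod p) Sel]
    (hdim : Module.finrank (ZMod p) Sel ≤ r * d)
    (hloc : ∀ (t : S53_helper35.GQ →* Matrix (Fin 2) (Fin 2) (DualNumber (ResidueField 𝒪)))
      (ht : MatCont t), rfst t = toMatRes ρbar b →
        (∃ ρ : GaloisRepAdic (DualNumber (ResidueField 𝒪)),
          (GaloisRep.strictOrdinaryCondition 𝒪 p (Smin ∪ Q) ρ ∧
            ∀ q ∈ Smin, q.Prime → q ≠ p → ρ.IsUnipotentOnInertiaAt q) ∧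
            ρ.IsEquiv (ofMat t ht)) →
        ∀ z : lcCocycles₁ (Fermat.Agent.GC.C0.levelS S) N,
          (∀ σ, emb ((z : S53_helper35.GQ → N) σ) = tanCocycle t σ) →
            Hlc1π (Fermat.Agent.GC.C0.levelS S) N z ∈ Sel) :
    SelmerBound 𝒪 ρbar b (fun _A _ _ _ ρ =>
      GaloisRep.strictOrdinaryCondition 𝒪 p (Smin ∪ Q) ρ ∧
        ∀ q ∈ Smin, q.Prime → q ≠ p → ρ.IsUnipotentOnInertiaAt q) r :=
  selmerBound_base_of_submodule ρbar b p (GaloisRep.strictOrdinaryCondition 𝒪 p)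
    (baseGlobal_strictOrdinary 𝒪 p) Smin Q S hS N emb hinj hsurj hact h2 r d hk Sel hdim hloc

include hS hinj hsurj hact in
/-- the flat conjunct. -/
theorem selmerBound_flat_of_submodule (h2 : (2 : ResidueField 𝒪) ≠ 0) (r d : ℕ)
    (hk : Nat.card (ResidueField 𝒪) = p ^ d)
    (Sel : Submodule (ZMod p) (Hlc (Fermat.Agent.GC.C0.levelS S) N 1))
    [Module.Finite (ZMod p) Sel]
    (hdim : Module.finrank (ZMod p) Sel ≤ r * d)
    (hloc : ∀ (t : S53_helper35.GQ →* Matrix (Fin 2) (Fin 2) (DualNumber (ResidueField 𝒪)))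
      (ht : MatCont t), rfst t = toMatRes ρbar b →
        (∃ ρ : GaloisRepAdic (DualNumber (ResidueField 𝒪)),
          (GaloisRep.flatCondition 𝒪 p (Smin ∪ Q) ρ ∧
            ∀ q ∈ Smin, q.Prime → q ≠ p → ρ.IsUnipotentOnInertiaAt q) ∧
            ρ.IsEquiv (ofMat t ht)) →
        ∀ z : lcCocycles₁ (Fermat.Agent.GC.C0.levelS S) N,
          (∀ σ, emb ((z : S53_helper35.GQ → N) σ) = tanCocycle t σ) →
            Hlc1π (Fermat.Agent.GC.C0.levelS S) N z ∈ Sel) :
    SelmerBound 𝒪 ρbar b (fun _A _ _ _ ρ =>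
      GaloisRep.flatCondition 𝒪 p (Smin ∪ Q) ρ ∧
        ∀ q ∈ Smin, q.Prime → q ≠ p → ρ.IsUnipotentOnInertiaAt q) r :=
  selmerBound_base_of_submodule ρbar b p (GaloisRep.flatCondition 𝒪 p)
    (baseGlobal_flat 𝒪 p) Smin Q S hS N emb hinj hsurj hact h2 r d hk Sel hdim hloc

end Frozen

/-- `|k| = p ^ [k : 𝔽_p]` for a finite field `k` with an `𝔽_p`-algebra structure. -/
theorem natCard_eq_pow_finrank_zmod (p : ℕ) [Fact p.Prime] (k : Type*) [Field k] [Finite k]
    [Algebra (ZMod p) k] : Nat.card k = p ^ Module.finrank (ZMod p) k := by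
  haveI : Module.Finite (ZMod p) k := Module.Finite.of_finite
  rw [Module.natCard_eq_pow_finrank (K := ZMod p) (V := k), Nat.card_zmod]

end Fermat.Agent.GP.Tan.SelmerCard
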