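/-
GATE-P / S56, node S56-TAN-SEL (helper11), MODEL INSTANTIATION: the model binders
`(N, emb, hinj, hsurj, hact, IsDiscrete)` of `SelmerGlobal.selmerBound_of_local` are discharged
for helper94's coefficient object `N := adRep p (toMatRes ρbar b) 1` (`GP/Bridge/Ad0Rep.lean`),
`emb :=` the inclusion of the traceless matrices.

* `adN p ρbar b` : `ad⁰ρ̄` as an object of `Rep (ZMod p) G_ℚ`; `embN`, `embN_injective`,
  `exists_embN_eq`, `embN_act`;
* `isDiscrete_adN` : discreteness for `levelS S` when `ρ̄` is unramified outside `S`;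
* `unramified_outside_of_hmin` : the frozen `hmin` gives "unramified outside `S`";
* `selmerBound_strict_of_adN`, `selmerBound_flat_of_adN` : `SelmerBound` for the two frozen
  conjuncts from an `𝔽_p`-subspace `Sel ⊆ Hlc (levelS S) (adN p ρbar b) 1`.
-/
import Fermat.Agent.GP.Tan.SelmerCard
import Fermat.Agent.GP.Bridge.Ad0Rep

set_option autoImplicit false
set_option linter.unusedSectionVars false
set_option linter.style.haveILetI false

namespace Fermat.Agent.GP.Tan.SelmerAd0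

open IsLocalRing Fermat.Agent.S53_helper35 Matrix Fermat.Agent.GP.Tan.Cocycle
  Fermat.Agent.GP.Tan.TanTop Fermat.Agent.GP.Tan.Selmer Fermat.Agent.GP.Tan.SelmerGlobal
  Fermat.Agent.GP.Tan.SelmerFrozen Fermat.Agent.GP.Tan.SelmerCard Fermat.Agent.GC.Prof
  Fermat.Agent.GP.Bridge.Ad0 groupCohomology

section Model

variable {𝒪 : Type} [CommRing 𝒪] [IsLocalRing 𝒪]
  (p : ℕ) [Fact p.Prime] [Algebra (ZMod p) (ResidueField 𝒪)]
  (ρbar : ResidualGaloisRep (ResidueField 𝒪))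
  (b : Module.Basis (Fin 2) (ResidueField 𝒪) ρbar.V)

/-- **`ad⁰ρ̄`** as an object of `Rep (ZMod p) G_ℚ` (helper94's `adRep` for the matrices of `ρ̄`
in the basis `b`, no twist). -/
noncomputable abbrev adN : Rep (ZMod p) S53_helper35.GQ :=
  adRep p (toMatRes ρbar b) 1

/-- the inclusion of the traceless matrices. -/
noncomputable def embN : adN p ρbar b →+ Matrix (Fin 2) (Fin 2) (ResidueField 𝒪) :=
  (sl2F p (k := ResidueField 𝒪)).subtype.toAddMonoidHom

theorem embN_apply (x : adN p ρbar b) :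
    embN p ρbar b x = ((show sl2F p (k := ResidueField 𝒪) from x) :
      Matrix (Fin 2) (Fin 2) (ResidueField 𝒪)) := rfl

theorem embN_injective : Function.Injective (embN p ρbar b) :=
  fun _ _ h => Subtype.ext h

theorem exists_embN_eq (X : Matrix (Fin 2) (Fin 2) (ResidueField 𝒪)) (hX : Matrix.trace X = 0) :
    ∃ x : adN p ρbar b, embN p ρbar b x = X :=
  ⟨(⟨X, (mem_sl2F p).2 hX⟩ : sl2F p (k := ResidueField 𝒪)), rfl⟩

theorem trace_embN (x : adN p ρbar b) : Matrix.trace (embN p ρbar b x) = 0 :=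
  (mem_sl2F p).1 (show sl2F p (k := ResidueField 𝒪) from x).2

theorem embN_act (σ : S53_helper35.GQ) (x : adN p ρbar b) :
    embN p ρbar b ((adN p ρbar b).ρ σ x) =
      toMatRes ρbar b σ * embN p ρbar b x * toMatRes ρbar b σ⁻¹ := by
  have h := adRho_apply p (toMatRes ρbar b) 1 σ (show sl2F p (k := ResidueField 𝒪) from x)
  rw [MonoidHom.one_apply, Units.val_one, one_smul] at h
  exact h

/-- `ad⁰ρ̄` is discrete for `levelS S` as soon as `ρ̄` is unramified outside `S`. -/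
theorem isDiscrete_adN (S : Finset Nat.Primes)
    (hur : ∀ q : Nat.Primes, q ∉ S → ρbar.IsUnramifiedAt (q : ℕ)) :
    IsDiscrete (Fermat.Agent.GC.C0.levelS S) (adN p ρbar b) := by
  refine isDiscrete_adRep p (toMatRes ρbar b) S 1 (resCont_toMatRes ρbar b)
    ⟨⊥, inferInstance, fun _ _ => rfl⟩ (fun q hq A hA g hg => ?_) (fun _ _ _ _ _ _ => rfl)
  rw [toMatRes_apply, hur q hq A hA g hg]
  exact LinearMap.toMatrix_one b

/-- the frozen minimality hypothesis of S56 gives "unramified outside `S`" for every finite set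
`S` of primes containing the primes of `Smin`. -/
theorem unramified_outside_of_hmin (Smin : Finset ℕ) (hpSmin : p ∈ Smin)
    (hmin : ∀ q : ℕ, q.Prime → q ≠ p → (q ∈ Smin ↔ ¬ ρbar.IsUnramifiedAt q))
    (S : Finset Nat.Primes) (hS : ∀ q : Nat.Primes, (q : ℕ) ∈ Smin → q ∈ S) :
    ∀ q : Nat.Primes, q ∉ S → ρbar.IsUnramifiedAt (q : ℕ) := by
  intro q hq
  have hqS : (q : ℕ) ∉ Smin := fun h => hq (hS q h)
  have hqp : (q : ℕ) ≠ p := fun h => hqS (h ▸ hpSmin)
  by_contra hram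
  exact hqS ((hmin q q.2 hqp).2 hram)

end Model

section Frozen

variable {𝒪 : Type} [CommRing 𝒪] [IsLocalRing 𝒪]
  (p : ℕ) [Fact p.Prime] [Algebra (ZMod p) (ResidueField 𝒪)]
  (ρbar : ResidualGaloisRep (ResidueField 𝒪))
  (b : Module.Basis (Fin 2) (ResidueField 𝒪) ρbar.V)
  (Smin Q : Finset ℕ) (S : Finset Nat.Primes)
  (hS : ∀ q : Nat.Primes, (q : ℕ) ∈ Smin ∪ Q → q ∈ S)
  [IsDiscrete (Fermat.Agent.GC.C0.levelS S) (adN p ρbar b)]

include hS in
/-- **the strict-ordinary conjunct of S56 for `N = ad⁰ρ̄`.** -/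
theorem selmerBound_strict_of_adN (h2 : (2 : ResidueField 𝒪) ≠ 0) (r d : ℕ)
    (hk : Nat.card (ResidueField 𝒪) = p ^ d)
    (Sel : Submodule (ZMod p) (Hlc (Fermat.Agent.GC.C0.levelS S) (adN p ρbar b) 1))
    [Module.Finite (ZMod p) Sel]
    (hdim : Module.finrank (ZMod p) Sel ≤ r * d)
    (hloc : ∀ (t : S53_helper35.GQ →* Matrix (Fin 2) (Fin 2) (DualNumber (ResidueField 𝒪)))
      (ht : MatCont t), rfst t = toMatRes ρbar b →
        (∃ ρ : GaloisRepAdic (DualNumber (ResidueField 𝒪)),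
          (GaloisRep.strictOrdinaryCondition 𝒪 p (Smin ∪ Q) ρ ∧
            ∀ q ∈ Smin, q.Prime → q ≠ p → ρ.IsUnipotentOnInertiaAt q) ∧
            ρ.IsEquiv (ofMat t ht)) →
        ∀ z : lcCocycles₁ (Fermat.Agent.GC.C0.levelS S) (adN p ρbar b),
          (∀ σ, embN p ρbar b ((z : S53_helper35.GQ → adN p ρbar b) σ) = tanCocycle t σ) →
            Hlc1π (Fermat.Agent.GC.C0.levelS S) (adN p ρbar b) z ∈ Sel) :
    SelmerBound 𝒪 ρbar b (fun _A _ _ _ ρ =>
      GaloisRep.strictOrdinaryCondition 𝒪 p (Smin ∪ Q) ρ ∧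
        ∀ q ∈ Smin, q.Prime → q ≠ p → ρ.IsUnipotentOnInertiaAt q) r :=
  selmerBound_strict_of_submodule ρbar b p Smin Q S hS (adN p ρbar b) (embN p ρbar b)
    (embN_injective p ρbar b) (exists_embN_eq p ρbar b) (embN_act p ρbar b) h2 r d hk Sel hdim hloc

include hS in
/-- **the flat conjunct of S56 for `N = ad⁰ρ̄`.** -/
theorem selmerBound_flat_of_adN (h2 : (2 : ResidueField 𝒪) ≠ 0) (r d : ℕ)
    (hk : Nat.card (ResidueField 𝒪) = p ^ d)
    (Sel : Submodule (ZMod p) (Hlc (Fermat.Agent.GC.C0.levelS S) (adN p ρbar b) 1))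
    [Module.Finite (ZMod p) Sel]
    (hdim : Module.finrank (ZMod p) Sel ≤ r * d)
    (hloc : ∀ (t : S53_helper35.GQ →* Matrix (Fin 2) (Fin 2) (DualNumber (ResidueField 𝒪)))
      (ht : MatCont t), rfst t = toMatRes ρbar b →
        (∃ ρ : GaloisRepAdic (DualNumber (ResidueField 𝒪)),
          (GaloisRep.flatCondition 𝒪 p (Smin ∪ Q) ρ ∧
            ∀ q ∈ Smin, q.Prime → q ≠ p → ρ.IsUnipotentOnInertiaAt q) ∧
            ρ.IsEquiv (ofMat t ht)) →
        ∀ z : lcCocycles₁ (Fermat.Agent.GC.C0.levelS S) (adN p ρbar b),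
          (∀ σ, embN p ρbar b ((z : S53_helper35.GQ → adN p ρbar b) σ) = tanCocycle t σ) →
            Hlc1π (Fermat.Agent.GC.C0.levelS S) (adN p ρbar b) z ∈ Sel) :
    SelmerBound 𝒪 ρbar b (fun _A _ _ _ ρ =>
      GaloisRep.flatCondition 𝒪 p (Smin ∪ Q) ρ ∧
        ∀ q ∈ Smin, q.Prime → q ≠ p → ρ.IsUnipotentOnInertiaAt q) r :=
  selmerBound_flat_of_submodule ρbar b p Smin Q S hS (adN p ρbar b) (embN p ρbar b)
    (embN_injective p ρbar b) (exists_embN_eq p ρbar b) (embN_act p ρbar b) h2 r d hk Sel hdim hloc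

end Frozen

end Fermat.Agent.GP.Tan.SelmerAd0
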