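/-
GATE-P / S56 [P-TAN] adapter S56-LIFT-CLASS (helper66): **first-order lifts of `ρbar` modulo
equivalence inject into `Z¹/B¹(G_ℚ, ad ρbar)`** — the bridge between helper39's `SelmerGate`
(`GP/Top/S56OfGates`) and the cocycle calculus of helper11 (`GP/Tan/Cocycle`).

Fix a basis `b` of `ρbar` (`r̄ := toMatRes ρbar b`). For a lift `ρ` of `ρbar` to `k[ε]`
(`IsLift 𝒪 ρbar ρ`) we choose an ADAPTED basis `β` of `ρ.V`, i.e. the matrices
`liftMat ρ σ = LinearMap.toMatrix β β (ρ.ρ σ)` reduce to `r̄ σ`, and put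
`liftCocycle ρ σ := ε-part (liftMat ρ σ) · r̄ σ⁻¹ : M₂(k)` (`0` outside the lifts).

* `liftCocycle_mul`, `exists_levelConstant_liftCocycle`, `trace_liftCocycle`,
  `liftCocycle_eq_zero_of_isUnramifiedAt` : it is a level-constant 1-cocycle for the adjoint
  action, of trace zero if `det ρ` is cyclotomic, vanishing on inertia at unramified primes;
* `isEquiv_of_sub_mem_B1`  : `c ρ₁ − c ρ₂ ∈ B¹` ⟹ `ρ₁ ≅ ρ₂`               (clause (i));
* `isEquiv_theta_of_mem_B1` : `c ρ₁ ∈ B¹` ⟹ `ρ₁ ≅ ρ₁ ⊗_θ k[ε]` (constant lift)   (clause (ii));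
* **`selmerGate_of_linearMap`** : a submodule `Z ⊆ (G_ℚ → M₂(k))` containing the cocycles of all
  lifts of type `𝒟`, and a linear map `π : Z → W` with `ker π ⊆ B¹`, `dim W ≤ r`
  ⟹ `SelmerGate 𝒪 ρbar 𝒟 r`;  `selmerGate_of_finrank_quotient` : the case `W = Z / (Z ∩ B¹)`.
-/
import Fermat.Agent.GP.Tan.Cocycle
import Fermat.Agent.GP.Top.S56OfGates

set_option autoImplicit false
set_option linter.unusedSectionVars false
set_option linter.style.haveILetI false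

noncomputable section

namespace Fermat.Agent.GP.Tan.LiftClass

open IsLocalRing Matrix Fermat.Agent.S53_helper35 Fermat.Agent.GP.Tan.Cocycle
  Fermat.Agent.GP.Top

/-! ### the coboundary submodule -/

section Cob

variable {k : Type} [Field k]

/-- the adjoint coboundary `X ↦ (σ ↦ r̄ σ · X · r̄ σ⁻¹ − X)`. -/
def cobdry (rbar : GQ →* Matrix (Fin 2) (Fin 2) k) :
    Matrix (Fin 2) (Fin 2) k →ₗ[k] (GQ → Matrix (Fin 2) (Fin 2) k) where
  toFun X σ := rbar σ * X * rbar σ⁻¹ - X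
  map_add' X Y := by
    funext σ
    simp only [Pi.add_apply, Matrix.mul_add, Matrix.add_mul]
    abel
  map_smul' c X := by
    funext σ
    simp only [Pi.smul_apply, RingHom.id_apply, Matrix.mul_smul, Matrix.smul_mul, smul_sub]

@[simp] theorem cobdry_apply (rbar : GQ →* Matrix (Fin 2) (Fin 2) k)
    (X : Matrix (Fin 2) (Fin 2) k) (σ : GQ) :
    cobdry rbar X σ = rbar σ * X * rbar σ⁻¹ - X := rfl

/-- `B¹(G_ℚ, ad r̄)` in the function model. -/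
def B1 (rbar : GQ →* Matrix (Fin 2) (Fin 2) k) : Submodule k (GQ → Matrix (Fin 2) (Fin 2) k) :=
  LinearMap.range (cobdry rbar)

theorem mem_B1_iff (rbar : GQ →* Matrix (Fin 2) (Fin 2) k)
    (z : GQ → Matrix (Fin 2) (Fin 2) k) :
    z ∈ B1 rbar ↔ ∃ X : Matrix (Fin 2) (Fin 2) k, ∀ σ, z σ = rbar σ * X * rbar σ⁻¹ - X := by
  constructor
  · rintro ⟨X, rfl⟩
    exact ⟨X, fun σ => rfl⟩
  · rintro ⟨X, hX⟩
    exact ⟨X, funext fun σ => (hX σ).symm⟩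

/-- scalars have zero coboundary: if `2 ≠ 0` every coboundary is the coboundary of a
trace-zero matrix (`B¹(ad) = B¹(ad⁰)`). -/
theorem cobdry_sub_scalar (rbar : GQ →* Matrix (Fin 2) (Fin 2) k)
    (X : Matrix (Fin 2) (Fin 2) k) (c : k) :
    cobdry rbar (X - c • (1 : Matrix (Fin 2) (Fin 2) k)) = cobdry rbar X := by
  funext σ
  have h1 : rbar σ * rbar σ⁻¹ = 1 := by rw [← map_mul, mul_inv_cancel, map_one]
  simp only [cobdry_apply, Matrix.mul_sub, Matrix.sub_mul, Matrix.mul_smul, Matrix.smul_mul,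
    Matrix.mul_one, h1]
  abel

theorem exists_trace_zero_of_mem_B1 (h2 : (2 : k) ≠ 0)
    (rbar : GQ →* Matrix (Fin 2) (Fin 2) k) {z : GQ → Matrix (Fin 2) (Fin 2) k}
    (hz : z ∈ B1 rbar) :
    ∃ X : Matrix (Fin 2) (Fin 2) k, Matrix.trace X = 0 ∧
      ∀ σ, z σ = rbar σ * X * rbar σ⁻¹ - X := by
  obtain ⟨X, rfl⟩ := hz
  refine ⟨X - (Matrix.trace X / 2) • (1 : Matrix (Fin 2) (Fin 2) k), ?_, fun σ => ?_⟩
  · rw [Matrix.trace_sub, Matrix.trace_smul, Matrix.trace_one, Fintype.card_fin, smul_eq_mul]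
    push_cast
    field_simp
    ring
  · rw [← cobdry_apply, cobdry_sub_scalar]

end Cob

/-! ### adapted bases and the cocycle of a lift -/

section Lift

variable (𝒪 : Type) [CommRing 𝒪] [IsDomain 𝒪] [IsDiscreteValuationRing 𝒪]
  [IsAdicComplete (maximalIdeal 𝒪) 𝒪]
  (ρbar : ResidualGaloisRep (ResidueField 𝒪))
  (b : Module.Basis (Fin 2) (ResidueField 𝒪) ρbar.V)

/-- a `GaloisRepAdic` equivalent to `ofMat r` has a basis in which its matrices are `r`. -/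
theorem exists_basis_toMat_eq {A : Type} [CommRing A] [IsLocalRing A] (ρ : GaloisRepAdic A)
    (r : GQ →* Matrix (Fin 2) (Fin 2) A) (hr : MatCont r) (h : ρ.IsEquiv (ofMat r hr)) :
    ∃ β : Module.Basis (Fin 2) A ρ.V, toMat ρ β = r := by
  obtain ⟨e⟩ := h
  let e' : ρ.V ≃ₗ[A] (Fin 2 → A) := e.toLinearEquiv
  have he' : ∀ (σ : GQ) (v : ρ.V), e' (ρ.ρ σ v) = (r σ).mulVec (e' v) := fun σ v => e.map_apply σ v
  refine ⟨(Pi.basisFun A (Fin 2)).map e'.symm, MonoidHom.ext fun σ => ?_⟩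
  ext i j
  rw [toMat_apply, LinearMap.toMatrix_apply, Module.Basis.map_repr, Module.Basis.map_apply,
    LinearEquiv.trans_apply, LinearEquiv.symm_symm, he', LinearEquiv.apply_symm_apply,
    Pi.basisFun_repr, Pi.basisFun_apply, Matrix.mulVec_single_one]
  rfl

/-- **adapted basis**: a lift of `ρbar` has a basis in which its matrices reduce to the matrices
of `ρbar` in the basis `b`. -/
theorem exists_adaptedBasis (ρ : GaloisRepAdic (DualNumber (ResidueField 𝒪)))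
    (h : IsLift 𝒪 ρbar ρ) :
    ∃ β : Module.Basis (Fin 2) (DualNumber (ResidueField 𝒪)) ρ.V,
      rfst (toMat ρ β) = toMatRes ρbar b := by
  obtain ⟨r, hr, he, hfst⟩ := exists_matrix_of_residual ρbar b ρ h
  obtain ⟨β, hβ⟩ := exists_basis_toMat_eq ρ r hr he
  exact ⟨β, by rw [hβ, hfst]⟩

/-- the chosen adapted basis of a lift. -/
def adaptedBasis (ρ : GaloisRepAdic (DualNumber (ResidueField 𝒪))) (h : IsLift 𝒪 ρbar ρ) :
    Module.Basis (Fin 2) (DualNumber (ResidueField 𝒪)) ρ.V :=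
  Classical.choose (exists_adaptedBasis 𝒪 ρbar b ρ h)

/-- the matrices of a lift in its adapted basis. -/
def liftMat (ρ : GaloisRepAdic (DualNumber (ResidueField 𝒪))) (h : IsLift 𝒪 ρbar ρ) :
    GQ →* Matrix (Fin 2) (Fin 2) (DualNumber (ResidueField 𝒪)) :=
  toMat ρ (adaptedBasis 𝒪 ρbar b ρ h)

variable {𝒪 ρbar}

theorem liftMat_apply (ρ : GaloisRepAdic (DualNumber (ResidueField 𝒪))) (h : IsLift 𝒪 ρbar ρ)
    (σ : GQ) :
    liftMat 𝒪 ρbar b ρ h σ =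
      LinearMap.toMatrix (adaptedBasis 𝒪 ρbar b ρ h) (adaptedBasis 𝒪 ρbar b ρ h) (ρ.ρ σ) := rfl

theorem rfst_liftMat (ρ : GaloisRepAdic (DualNumber (ResidueField 𝒪))) (h : IsLift 𝒪 ρbar ρ) :
    rfst (liftMat 𝒪 ρbar b ρ h) = toMatRes ρbar b :=
  Classical.choose_spec (exists_adaptedBasis 𝒪 ρbar b ρ h)

theorem matCont_liftMat (ρ : GaloisRepAdic (DualNumber (ResidueField 𝒪)))
    (h : IsLift 𝒪 ρbar ρ) : MatCont (liftMat 𝒪 ρbar b ρ h) :=
  matCont_toMat ρ _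

theorem isEquiv_ofMat_liftMat (ρ : GaloisRepAdic (DualNumber (ResidueField 𝒪)))
    (h : IsLift 𝒪 ρbar ρ) :
    ρ.IsEquiv (ofMat (liftMat 𝒪 ρbar b ρ h) (matCont_liftMat b ρ h)) :=
  ⟨equivOfMatToMat ρ _⟩

/-- the `k`-part of the matrix of a lift is the matrix of `ρbar`. -/
theorem mfst_liftMat (ρ : GaloisRepAdic (DualNumber (ResidueField 𝒪))) (h : IsLift 𝒪 ρbar ρ)
    (σ : GQ) : mfst (liftMat 𝒪 ρbar b ρ h σ) = toMatRes ρbar b σ := by
  rw [← rfst_apply, rfst_liftMat]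

variable (𝒪 ρbar)

open Classical in
/-- **the cocycle of a lift** (in the adapted basis), `0` outside the lifts. -/
def liftCocycle (ρ : GaloisRepAdic (DualNumber (ResidueField 𝒪))) :
    GQ → Matrix (Fin 2) (Fin 2) (ResidueField 𝒪) :=
  if h : IsLift 𝒪 ρbar ρ then tanCocycle (liftMat 𝒪 ρbar b ρ h) else 0

variable {𝒪 ρbar}

theorem liftCocycle_eq (ρ : GaloisRepAdic (DualNumber (ResidueField 𝒪)))
    (h : IsLift 𝒪 ρbar ρ) :
    liftCocycle 𝒪 ρbar b ρ = tanCocycle (liftMat 𝒪 ρbar b ρ h) := by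
  unfold liftCocycle
  rw [dif_pos h]

/-- explicit formula: `c σ = ε-part (matrix of ρ σ) · r̄ σ⁻¹`. -/
theorem liftCocycle_apply (ρ : GaloisRepAdic (DualNumber (ResidueField 𝒪)))
    (h : IsLift 𝒪 ρbar ρ) (σ : GQ) :
    liftCocycle 𝒪 ρbar b ρ σ = msnd (liftMat 𝒪 ρbar b ρ h σ) * toMatRes ρbar b σ⁻¹ := by
  rw [liftCocycle_eq b ρ h]
  unfold tanCocycle
  rw [rfst_liftMat]
  rfl

/-- the matrix of `ρ σ` in the adapted basis is `(1 + ε c σ) r̄ σ`. -/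
theorem msnd_liftMat (ρ : GaloisRepAdic (DualNumber (ResidueField 𝒪))) (h : IsLift 𝒪 ρbar ρ)
    (σ : GQ) :
    msnd (liftMat 𝒪 ρbar b ρ h σ) = liftCocycle 𝒪 ρbar b ρ σ * toMatRes ρbar b σ := by
  rw [liftCocycle_eq b ρ h]
  have := rsnd_eq_tanCocycle_mul (liftMat 𝒪 ρbar b ρ h) σ
  rw [rfst_liftMat] at this
  exact this

/-- the cocycle identity for the adjoint action of `ρbar`. -/
theorem liftCocycle_mul (ρ : GaloisRepAdic (DualNumber (ResidueField 𝒪)))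
    (h : IsLift 𝒪 ρbar ρ) (σ τ : GQ) :
    liftCocycle 𝒪 ρbar b ρ (σ * τ) = liftCocycle 𝒪 ρbar b ρ σ +
      toMatRes ρbar b σ * liftCocycle 𝒪 ρbar b ρ τ * toMatRes ρbar b σ⁻¹ := by
  rw [liftCocycle_eq b ρ h, tanCocycle_mul, rfst_liftMat]

theorem liftCocycle_one (ρ : GaloisRepAdic (DualNumber (ResidueField 𝒪))) :
    liftCocycle 𝒪 ρbar b ρ 1 = 0 := by
  by_cases h : IsLift 𝒪 ρbar ρ
  · rw [liftCocycle_eq b ρ h, tanCocycle_one]
  · unfold liftCocycle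
    rw [dif_neg h]
    rfl

/-- the cocycle of a lift is constant on the cosets of an open subgroup (and vanishes on it). -/
theorem exists_levelConstant_liftCocycle (ρ : GaloisRepAdic (DualNumber (ResidueField 𝒪)))
    (h : IsLift 𝒪 ρbar ρ) :
    ∃ L : IntermediateField ℚ (AlgebraicClosure ℚ), FiniteDimensional ℚ L ∧
      (∀ s : GQ, (∀ x ∈ L, s x = x) → liftCocycle 𝒪 ρbar b ρ s = 0) ∧
      ∀ g s : GQ, (∀ x ∈ L, s x = x) →
        liftCocycle 𝒪 ρbar b ρ (g * s) = liftCocycle 𝒪 ρbar b ρ g := by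
  rw [liftCocycle_eq b ρ h]
  exact exists_levelConstant _ (matCont_liftMat b ρ h)

/-- cyclotomic determinant ⟹ trace-zero cocycle. -/
theorem trace_liftCocycle (ρ : GaloisRepAdic (DualNumber (ResidueField 𝒪)))
    (h : IsLift 𝒪 ρbar ρ) (p : ℕ) (hp : 0 < p) (hdet : ρ.DetIsCyclotomic p) (σ : GQ) :
    Matrix.trace (liftCocycle 𝒪 ρbar b ρ σ) = 0 := by
  rw [liftCocycle_eq b ρ h]
  exact trace_tanCocycle_eq_zero_of_detIsCyclotomic _ (matCont_liftMat b ρ h) p hp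
    (detIsCyclotomic_of_isEquiv (isEquiv_ofMat_liftMat b ρ h) hdet) σ

/-- `ρ σ = 1` ⟹ the cocycle vanishes at `σ`. -/
theorem liftCocycle_eq_zero_of_eq_one (ρ : GaloisRepAdic (DualNumber (ResidueField 𝒪)))
    (h : IsLift 𝒪 ρbar ρ) {σ : GQ} (hσ : ρ.ρ σ = 1) : liftCocycle 𝒪 ρbar b ρ σ = 0 := by
  rw [liftCocycle_eq b ρ h]
  refine tanCocycle_eq_zero_of_eq_one _ ?_
  rw [liftMat_apply, hσ]
  exact LinearMap.toMatrix_one _

/-- unramified at `q` ⟹ the cocycle vanishes on the inertia groups at `q`. -/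
theorem liftCocycle_eq_zero_of_isUnramifiedAt (ρ : GaloisRepAdic (DualNumber (ResidueField 𝒪)))
    (h : IsLift 𝒪 ρbar ρ) {q : ℕ} (hq : ρ.IsUnramifiedAt q)
    (P : ValuationSubring (AlgebraicClosure ℚ)) (hP : P.LiesOverPrime q) (σ : GQ)
    (hσ : σ ∈ P.inertiaSubgroupIn ℚ) : liftCocycle 𝒪 ρbar b ρ σ = 0 :=
  liftCocycle_eq_zero_of_eq_one b ρ h (hq P hP σ hσ)

/-! ### clauses (i) and (ii) of `SelmerGate` -/

/-- **clause (i)**: two lifts whose cocycles differ by a coboundary are equivalent. -/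
theorem isEquiv_of_sub_mem_B1 (ρ₁ ρ₂ : GaloisRepAdic (DualNumber (ResidueField 𝒪)))
    (h₁ : IsLift 𝒪 ρbar ρ₁) (h₂ : IsLift 𝒪 ρbar ρ₂)
    (h : liftCocycle 𝒪 ρbar b ρ₁ - liftCocycle 𝒪 ρbar b ρ₂ ∈ B1 (toMatRes ρbar b)) :
    ρ₁.IsEquiv ρ₂ := by
  obtain ⟨X, hX⟩ := (mem_B1_iff _ _).1 h
  obtain ⟨e1⟩ := isEquiv_ofMat_liftMat b ρ₁ h₁
  obtain ⟨e2⟩ := isEquiv_ofMat_liftMat b ρ₂ h₂
  obtain ⟨e3⟩ := isEquiv_of_cohomologous (liftMat 𝒪 ρbar b ρ₁ h₁) (liftMat 𝒪 ρbar b ρ₂ h₂)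
    (matCont_liftMat b ρ₁ h₁) (matCont_liftMat b ρ₂ h₂)
    ((rfst_liftMat b ρ₁ h₁).trans (rfst_liftMat b ρ₂ h₂).symm) X (by
      intro σ
      have h3 := hX σ
      rw [Pi.sub_apply, liftCocycle_eq b ρ₁ h₁, liftCocycle_eq b ρ₂ h₂] at h3
      rw [rfst_liftMat]
      rw [sub_eq_iff_eq_add] at h3
      rw [h3]
      abel)
  exact ⟨(e1.trans e3).trans e2.symm⟩

/-- `fst ∘ θ = fst`, `snd ∘ θ = 0` on matrices. -/
theorem mfst_map_theta (M : Matrix (Fin 2) (Fin 2) (DualNumber (ResidueField 𝒪))) :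
    mfst (M.map ((theta 𝒪 : DualNumber (ResidueField 𝒪) →ₐ[𝒪] DualNumber (ResidueField 𝒪)) :
      DualNumber (ResidueField 𝒪) →+* DualNumber (ResidueField 𝒪))) = mfst M := by
  ext i j
  simp only [mfst_apply, Matrix.map_apply, RingHom.coe_coe, theta_apply, TrivSqZeroExt.fst_inl]

theorem msnd_map_theta (M : Matrix (Fin 2) (Fin 2) (DualNumber (ResidueField 𝒪))) :
    msnd (M.map ((theta 𝒪 : DualNumber (ResidueField 𝒪) →ₐ[𝒪] DualNumber (ResidueField 𝒪)) :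
      DualNumber (ResidueField 𝒪) →+* DualNumber (ResidueField 𝒪))) = 0 := by
  ext i j
  simp only [msnd_apply, Matrix.map_apply, RingHom.coe_coe, theta_apply, TrivSqZeroExt.snd_inl,
    Matrix.zero_apply]

/-- **clause (ii)**: a lift whose cocycle is a coboundary is equivalent to the constant lift
(its own base change along `θ : k[ε] → k → k[ε]`). -/
theorem isEquiv_theta_of_mem_B1 (ρ₁ : GaloisRepAdic (DualNumber (ResidueField 𝒪)))
    (h₁ : IsLift 𝒪 ρbar ρ₁) (h : liftCocycle 𝒪 ρbar b ρ₁ ∈ B1 (toMatRes ρbar b)) :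
    ρ₁.IsEquiv (ρ₁.baseChangeAlong
      ((theta 𝒪 : DualNumber (ResidueField 𝒪) →ₐ[𝒪] DualNumber (ResidueField 𝒪)) :
        DualNumber (ResidueField 𝒪) →+* DualNumber (ResidueField 𝒪))
      (isLocalHom_theta 𝒪)) := by
  obtain ⟨X, hX⟩ := (mem_B1_iff _ _).1 h
  set θ : DualNumber (ResidueField 𝒪) →+* DualNumber (ResidueField 𝒪) :=
    ((theta 𝒪 : DualNumber (ResidueField 𝒪) →ₐ[𝒪] DualNumber (ResidueField 𝒪)) :
      DualNumber (ResidueField 𝒪) →+* DualNumber (ResidueField 𝒪)) with hθ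
  set r₁ := liftMat 𝒪 ρbar b ρ₁ h₁ with hr₁
  have hc₁ : MatCont r₁ := matCont_liftMat b ρ₁ h₁
  have hc' : MatCont (mapMat θ r₁) := matCont_mapMat θ (isLocalHom_theta 𝒪) hc₁
  obtain ⟨e1⟩ := isEquiv_ofMat_liftMat b ρ₁ h₁
  obtain ⟨e2⟩ := baseChangeAlong_isEquiv_ofMat θ (isLocalHom_theta 𝒪) ρ₁
    (adaptedBasis 𝒪 ρbar b ρ₁ h₁)
  have hfst : rfst r₁ = rfst (mapMat θ r₁) := by
    refine MonoidHom.ext fun σ => ?_
    rw [rfst_apply, rfst_apply, mapMat_apply, mfst_map_theta]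
  have hzero : ∀ σ, tanCocycle (mapMat θ r₁) σ = 0 := by
    intro σ
    unfold tanCocycle rsnd
    rw [mapMat_apply, msnd_map_theta, Matrix.zero_mul]
  obtain ⟨e3⟩ := isEquiv_of_cohomologous r₁ (mapMat θ r₁) hc₁ hc' hfst X (by
    intro σ
    have h3 := hX σ
    rw [liftCocycle_eq b ρ₁ h₁] at h3
    rw [hzero σ, rfst_liftMat, h3]
    abel)
  exact ⟨(e1.trans e3).trans e2.symm⟩

end Lift

/-! ### the packaged gate -/

section Gate

variable {𝒪 : Type} [CommRing 𝒪] [IsDomain 𝒪] [IsDiscreteValuationRing 𝒪]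
  [IsAdicComplete (maximalIdeal 𝒪) 𝒪]
  {ρbar : ResidualGaloisRep (ResidueField 𝒪)}
  (b : Module.Basis (Fin 2) (ResidueField 𝒪) ρbar.V)
  {𝒟 : ∀ ⦃A : Type⦄ [CommRing A] [IsLocalRing A] [Algebra 𝒪 A], GaloisRepAdic A → Prop}

open Classical in
/-- **`SelmerGate` from a Selmer space of cocycles**: `Z` a `k`-submodule of the functions
`G_ℚ → M₂(k)` containing the cocycles of all lifts of type `𝒟`, `π : Z → W` linear with
`ker π ⊆ B¹(G_ℚ, ad ρbar)` and `dim_k W ≤ r`. (E.g. `W = H¹_𝓛(G_ℚ, ad⁰ ρbar)`, `Z = Z¹_𝓛`.) -/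
theorem selmerGate_of_linearMap {r : ℕ}
    (Z : Submodule (ResidueField 𝒪) (GQ → Matrix (Fin 2) (Fin 2) (ResidueField 𝒪)))
    (hZ : ∀ ρ : GaloisRepAdic (DualNumber (ResidueField 𝒪)), IsLift 𝒪 ρbar ρ → 𝒟 ρ →
      liftCocycle 𝒪 ρbar b ρ ∈ Z)
    {W : Type} [AddCommGroup W] [Module (ResidueField 𝒪) W] [Module.Finite (ResidueField 𝒪) W]
    (π : Z →ₗ[ResidueField 𝒪] W)
    (hπ : ∀ z : Z, π z = 0 →
      (z : GQ → Matrix (Fin 2) (Fin 2) (ResidueField 𝒪)) ∈ B1 (toMatRes ρbar b))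
    (hr : Module.finrank (ResidueField 𝒪) W ≤ r) :
    SelmerGate 𝒪 ρbar 𝒟 r := by
  refine ⟨W, inferInstance, inferInstance, inferInstance, hr,
    fun ρ => if h : IsLift 𝒪 ρbar ρ ∧ 𝒟 ρ then π ⟨liftCocycle 𝒪 ρbar b ρ, hZ ρ h.1 h.2⟩ else 0,
    ?_, ?_⟩
  · intro ρ₁ ρ₂ h₁ h₂ d₁ d₂ hc
    simp only [dif_pos (And.intro h₁ d₁), dif_pos (And.intro h₂ d₂)] at hc
    refine isEquiv_of_sub_mem_B1 b ρ₁ ρ₂ h₁ h₂ ?_
    have h0 : π (⟨liftCocycle 𝒪 ρbar b ρ₁, hZ ρ₁ h₁ d₁⟩ - ⟨liftCocycle 𝒪 ρbar b ρ₂, hZ ρ₂ h₂ d₂⟩)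
        = 0 := by
      rw [map_sub, hc, sub_self]
    exact hπ _ h0
  · intro ρ₁ h₁ d₁ hc
    simp only [dif_pos (And.intro h₁ d₁)] at hc
    exact isEquiv_theta_of_mem_B1 b ρ₁ h₁ (hπ _ hc)

/-- **`SelmerGate` from `dim Z/(Z ∩ B¹) ≤ r`.** -/
theorem selmerGate_of_finrank_quotient {r : ℕ}
    (Z : Submodule (ResidueField 𝒪) (GQ → Matrix (Fin 2) (Fin 2) (ResidueField 𝒪)))
    (hZ : ∀ ρ : GaloisRepAdic (DualNumber (ResidueField 𝒪)), IsLift 𝒪 ρbar ρ → 𝒟 ρ →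
      liftCocycle 𝒪 ρbar b ρ ∈ Z)
    [Module.Finite (ResidueField 𝒪) (Z ⧸ (B1 (toMatRes ρbar b)).comap Z.subtype)]
    (hr : Module.finrank (ResidueField 𝒪) (Z ⧸ (B1 (toMatRes ρbar b)).comap Z.subtype) ≤ r) :
    SelmerGate 𝒪 ρbar 𝒟 r :=
  selmerGate_of_linearMap b Z hZ ((B1 (toMatRes ρbar b)).comap Z.subtype).mkQ
    (fun z hz => by
      rw [Submodule.mkQ_apply, Submodule.Quotient.mk_eq_zero] at hz
      exact hz) hr

end Gate

end Fermat.Agent.GP.Tan.LiftClass
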