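/-
GATE-P (S56, zero-regret prep) / S56-TAN-ALG (helper69): the dual numbers `k[ε]`, `k = 𝒪 / 𝔪_𝒪`, as
a coefficient ring of `GaloisRep.DeformationRingData.universal`.

`DeformationRingData.universal` quantifies over `A : Type` with
`[CommRing A] [IsLocalRing A] [IsNoetherianRing A] [IsAdicComplete (maximalIdeal A) A] [Algebra 𝒪 A]`
`[IsLocalHom (algebraMap 𝒪 A)]` and `Surjective (residue A ∘ algebraMap 𝒪 A)`.  Mathlib provides
`CommRing`, `IsLocalRing`, `IsNoetherianRing` (principal ideal ring) and `Algebra 𝒪` for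
`A := DualNumber (ResidueField 𝒪)`; this file provides the remaining three.
-/
import Mathlib
import Fermat.Prelude.Def_GaloisRep_DeformationRingData
import Fermat.Agent.GL.Alg.NilRoot

set_option autoImplicit false

noncomputable section

namespace Fermat.Agent.GP.Tan.DN

open IsLocalRing

section Field

variable (K : Type*) [Field K]

theorem dualNumber_maximalIdeal_sq : maximalIdeal (DualNumber K) ^ 2 = ⊥ := by
  rw [DualNumber.maximalIdeal_eq_span_singleton_eps, Ideal.span_singleton_pow, pow_two,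
    DualNumber.eps_mul_eps]
  exact Ideal.span_singleton_eq_bot.mpr rfl

/-- `k[ε]` is complete for its (nilpotent) maximal ideal -/
instance dualNumber_isAdicComplete :
    IsAdicComplete (maximalIdeal (DualNumber K)) (DualNumber K) :=
  Fermat.Agent.GL.NilRoot.isAdicComplete_of_isNilpotent _
    ⟨2, by rw [dualNumber_maximalIdeal_sq]; rfl⟩

theorem dualNumber_mem_maximalIdeal_iff (x : DualNumber K) :
    x ∈ maximalIdeal (DualNumber K) ↔ x.fst = 0 := by
  rw [DualNumber.maximalIdeal_eq_span_singleton_eps, Ideal.mem_span_singleton,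
    DualNumber.fst_eq_zero_iff_eps_dvd]

end Field

section Residue

variable (𝒪 : Type*) [CommRing 𝒪] [IsLocalRing 𝒪]

theorem dualNumber_algebraMap (c : 𝒪) :
    algebraMap 𝒪 (DualNumber (ResidueField 𝒪)) c = TrivSqZeroExt.inl (residue 𝒪 c) := rfl

/-- `𝒪 → k[ε]` is a local homomorphism -/
instance dualNumber_isLocalHom : IsLocalHom (algebraMap 𝒪 (DualNumber (ResidueField 𝒪))) where
  map_nonunit c hc := by
    rw [dualNumber_algebraMap, TrivSqZeroExt.isUnit_iff_isUnit_fst, TrivSqZeroExt.fst_inl] at hc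
    by_contra hcu
    have : residue 𝒪 c = 0 := (residue_eq_zero_iff c).mpr (by
      rw [mem_maximalIdeal, mem_nonunits_iff]; exact hcu)
    rw [this] at hc
    exact not_isUnit_zero hc

/-- `𝒪 → k[ε] → k[ε] / (ε)` is onto -/
theorem dualNumber_residue_surjective :
    Function.Surjective (residue (DualNumber (ResidueField 𝒪)) ∘
      algebraMap 𝒪 (DualNumber (ResidueField 𝒪))) := by
  intro y
  obtain ⟨x, rfl⟩ := residue_surjective y
  obtain ⟨c, hc⟩ := residue_surjective (R := 𝒪) x.fst
  refine ⟨c, ?_⟩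
  show residue _ (algebraMap 𝒪 (DualNumber (ResidueField 𝒪)) c) = residue _ x
  rw [← sub_eq_zero, ← map_sub, residue_eq_zero_iff, dualNumber_mem_maximalIdeal_iff,
    dualNumber_algebraMap, TrivSqZeroExt.fst_sub, TrivSqZeroExt.fst_inl, hc, sub_self]

end Residue

/-! ### `DeformationRingData.universal` at the dual numbers -/

section Universal

variable {𝒪 : Type} [CommRing 𝒪] [IsDomain 𝒪] [IsDiscreteValuationRing 𝒪]
  [IsAdicComplete (maximalIdeal 𝒪) 𝒪]
  {ρbar : ResidualGaloisRep (ResidueField 𝒪)}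
  {𝒟 : ∀ ⦃A : Type⦄ [CommRing A] [IsLocalRing A] [Algebra 𝒪 A], GaloisRepAdic A → Prop}

/-- **`DQ.universal` at `A := k[ε]`**: every instance argument and the surjectivity of
`𝒪 → k[ε] / (ε)` discharged. -/
theorem universal_dualNumber (DQ : GaloisRep.DeformationRingData 𝒪 ρbar 𝒟)
    (ρA : GaloisRepAdic (DualNumber (ResidueField 𝒪))) (hρA : 𝒟 ρA)
    (hres : ρA.residual.IsEquiv (ρbar.baseChangeAlong
      (IsLocalRing.ResidueField.map (algebraMap 𝒪 (DualNumber (ResidueField 𝒪)))))) :
    ∃! φ : DQ.R →ₐ[𝒪] DualNumber (ResidueField 𝒪),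
      ∃ hφ : IsLocalHom (φ : DQ.R →+* DualNumber (ResidueField 𝒪)),
        (DQ.ρ.baseChangeAlong (φ : DQ.R →+* DualNumber (ResidueField 𝒪)) hφ).IsEquiv ρA :=
  DQ.universal (DualNumber (ResidueField 𝒪)) (dualNumber_residue_surjective 𝒪) ρA hρA hres

omit [IsAdicComplete (maximalIdeal 𝒪) 𝒪] in
/-- every `𝒪`-algebra map `R → k[ε]` out of a local `𝒪`-algebra is a local homomorphism -/
theorem isLocalHom_algHom {R : Type*} [CommRing R] [IsLocalRing R] [Algebra 𝒪 R]
    (φ : R →ₐ[𝒪] DualNumber (ResidueField 𝒪)) :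
    IsLocalHom (φ : R →+* DualNumber (ResidueField 𝒪)) := by
  refine ⟨fun x hx => ?_⟩
  by_contra hxu
  -- `ψ := residue ∘ φ : R → k[ε] / (ε)` is a ring hom onto a field, so its kernel is `𝔪_R`
  set ψ : R →+* ResidueField (DualNumber (ResidueField 𝒪)) :=
    (residue _).comp (φ : R →+* DualNumber (ResidueField 𝒪)) with hψ
  have hψs : Function.Surjective ψ := by
    intro y
    obtain ⟨d, hd⟩ := dualNumber_residue_surjective 𝒪 y
    refine ⟨algebraMap 𝒪 R d, ?_⟩
    rw [hψ, RingHom.comp_apply, RingHom.coe_coe, AlgHom.commutes]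
    exact hd
  have hmax : (RingHom.ker ψ).IsMaximal := RingHom.ker_isMaximal_of_surjective ψ hψs
  have hker : RingHom.ker ψ = maximalIdeal R := IsLocalRing.eq_maximalIdeal hmax
  have hxk : x ∈ RingHom.ker ψ := by
    rw [hker, mem_maximalIdeal, mem_nonunits_iff]; exact hxu
  rw [RingHom.mem_ker, hψ, RingHom.comp_apply, residue_eq_zero_iff, mem_maximalIdeal,
    mem_nonunits_iff] at hxk
  exact hxk hx

end Universal

end Fermat.Agent.GP.Tan.DN
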