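/-
GATE-P / S56 [P-TAN] S56-LIFT-BASIS (helper66): **change of basis for the cocycle of a first-order
deformation** — for the [P-LOC] / [P-FLAT] consumers, whose matrix shapes live in a basis adapted
to a LOCAL flag and not in the adapted basis of `GP/Tan/LiftClass`.

`k` a field, `r r' : G_ℚ →* M₂(k[ε])`, `Q ∈ GL₂(k[ε])` with `Q · r σ = r' σ · Q`. Write
`Q = Q̄ (1 + εY)` (`Q̄ = mfst Q`, `Y = Q̄⁻¹ · msnd Q`). Then

* `rfst_conj`      : `r̄' σ = Q̄ · r̄ σ · Q̄⁻¹`;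
* `tanCocycle_conj` : `c' σ = Q̄ · (c σ − (r̄ σ · Y · r̄ σ⁻¹ − Y)) · Q̄⁻¹`;
* `conj_cobdry`    : `Q̄⁻¹ · (r̄' σ · X · r̄' σ⁻¹ − X) · Q̄ = r̄ σ · (Q̄⁻¹XQ̄) · r̄ σ⁻¹ − Q̄⁻¹XQ̄`;
* `exists_gl_toMat_conj` : two bases of a `GaloisRepAdic` give conjugate matrix forms;
* **`liftCocycle_eq_conj`** : for a lift `ρ` of `ρbar` and ANY basis `β'` of `ρ.V`:
  `∃ Q̄ Q̄i Y, Q̄ Q̄i = 1 ∧ Q̄i Q̄ = 1 ∧ ∀ σ, mfst (toMat ρ β' σ) = Q̄ · r̄ σ · Q̄i ∧
     liftCocycle ρ σ = Q̄i · tanCocycle (toMat ρ β') σ · Q̄ + (r̄ σ · Y · r̄ σ⁻¹ − Y)`;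
* `liftCocycle_mem_B1_on` : if in the basis `β'` the cocycle is a coboundary on a subset `J ⊆ G_ℚ`
  then so is `liftCocycle ρ` (with an explicit matrix).
-/
import Fermat.Agent.GP.Tan.LiftClass

set_option autoImplicit false
set_option linter.unusedSectionVars false
set_option linter.style.haveILetI false

noncomputable section

namespace Fermat.Agent.GP.Tan.LiftClass

open IsLocalRing Matrix Fermat.Agent.S53_helper35 Fermat.Agent.GP.Tan.Cocycle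
  Fermat.Agent.GP.Top

/-! ### a non-commutative identity -/

section Ring

variable {M : Type*} [Ring M]

/-- the algebra behind the change-of-basis formula. -/
theorem conj_formula (A Ai R Ri R' R'i b b' Q₁ : M) (hA : A * Ai = 1) (hA' : Ai * A = 1)
    (hR : R * Ri = 1) (h1 : A * R = R' * A) (h1' : A * Ri = R'i * A)
    (h2 : A * b + Q₁ * R = R' * Q₁ + b' * A) :
    b' * R'i = A * (b * Ri - (R * (Ai * Q₁) * Ri - Ai * Q₁)) * Ai := by
  have hR' : R' = A * R * Ai := by rw [h1, mul_assoc, hA, mul_one]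
  have hR'i : R'i = A * Ri * Ai := by rw [h1', mul_assoc, hA, mul_one]
  have hb' : b' = (A * b + Q₁ * R - R' * Q₁) * Ai := by
    have : b' * A = A * b + Q₁ * R - R' * Q₁ := by rw [h2]; abel
    rw [← this, mul_assoc, hA, mul_one]
  have k1 : ∀ x : M, Ai * (A * x) = x := fun x => by rw [← mul_assoc, hA', one_mul]
  have k2 : ∀ x : M, A * (Ai * x) = x := fun x => by rw [← mul_assoc, hA, one_mul]
  have k3 : ∀ x : M, R * (Ri * x) = x := fun x => by rw [← mul_assoc, hR, one_mul]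
  rw [hb', hR'i, hR']
  simp only [mul_assoc, sub_mul, add_mul, mul_sub, k1, k2, k3]
  abel

end Ring

/-! ### conjugate matrix representations over `k[ε]` -/

section Conj

variable {k : Type} [Field k]
  (r r' : GQ →* Matrix (Fin 2) (Fin 2) (DualNumber k))
  (Q Qi : Matrix (Fin 2) (Fin 2) (DualNumber k))

theorem rfst_conj (hQ : Q * Qi = 1) (h : ∀ σ, Q * r σ = r' σ * Q) (σ : GQ) :
    rfst r' σ = mfst Q * rfst r σ * mfst Qi := by
  have h1 : mfst Q * mfst Qi = 1 := by rw [← mfst_mul, hQ, mfst_one]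
  have h2 := congrArg mfst (h σ)
  rw [mfst_mul, mfst_mul] at h2
  rw [rfst_apply, rfst_apply, h2, Matrix.mul_assoc, h1, Matrix.mul_one]

/-- **change of basis for the tangent cocycle.** -/
theorem tanCocycle_conj (hQ : Q * Qi = 1) (hQ' : Qi * Q = 1) (h : ∀ σ, Q * r σ = r' σ * Q)
    (σ : GQ) :
    tanCocycle r' σ = mfst Q * (tanCocycle r σ -
      (rfst r σ * (mfst Qi * msnd Q) * rfst r σ⁻¹ - mfst Qi * msnd Q)) * mfst Qi := by
  have hA : mfst Q * mfst Qi = 1 := by rw [← mfst_mul, hQ, mfst_one]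
  have hA' : mfst Qi * mfst Q = 1 := by rw [← mfst_mul, hQ', mfst_one]
  have e1 : ∀ τ, mfst Q * rfst r τ = rfst r' τ * mfst Q := by
    intro τ
    have := congrArg mfst (h τ)
    rw [mfst_mul, mfst_mul] at this
    exact this
  have e2 : mfst Q * rsnd r σ + msnd Q * rfst r σ = rfst r' σ * msnd Q + rsnd r' σ * mfst Q := by
    have := congrArg msnd (h σ)
    rw [msnd_mul, msnd_mul] at this
    exact this
  unfold tanCocycle
  exact conj_formula (mfst Q) (mfst Qi) (rfst r σ) (rfst r σ⁻¹) (rfst r' σ) (rfst r' σ⁻¹)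
    (rsnd r σ) (rsnd r' σ) (msnd Q) hA hA' (rfst_mul_inv r σ) (e1 σ) (e1 σ⁻¹) e2

/-- conjugating a coboundary. -/
theorem conj_cobdry (rbar rbar' : GQ →* Matrix (Fin 2) (Fin 2) k)
    (A Ai : Matrix (Fin 2) (Fin 2) k) (hA' : Ai * A = 1)
    (h : ∀ σ, rbar' σ = A * rbar σ * Ai) (X : Matrix (Fin 2) (Fin 2) k) (σ : GQ) :
    Ai * (rbar' σ * X * rbar' σ⁻¹ - X) * A =
      rbar σ * (Ai * X * A) * rbar σ⁻¹ - Ai * X * A := by
  have k1 : ∀ x : Matrix (Fin 2) (Fin 2) k, Ai * (A * x) = x := fun x => by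
    rw [← Matrix.mul_assoc, hA', Matrix.one_mul]
  rw [h σ, h σ⁻¹]
  simp only [Matrix.mul_assoc, Matrix.mul_sub, Matrix.sub_mul, k1, hA', Matrix.mul_one]

end Conj

/-! ### two bases of a `GaloisRepAdic` -/

section Bases

variable {A : Type} [CommRing A] [IsLocalRing A]

/-- the matrix forms of a `GaloisRepAdic` in two bases are conjugate. -/
theorem exists_gl_toMat_conj (ρ : GaloisRepAdic A) (β β' : Module.Basis (Fin 2) A ρ.V) :
    ∃ Q : GL (Fin 2) A, ∀ σ, (Q : Matrix (Fin 2) (Fin 2) A) * toMat ρ β σ =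
      toMat ρ β' σ * (Q : Matrix (Fin 2) (Fin 2) A) :=
  (ofMat_isEquiv_iff (matCont_toMat ρ β) (matCont_toMat ρ β')).1
    ⟨(equivOfMatToMat ρ β).symm.trans (equivOfMatToMat ρ β')⟩

/-- a `GaloisRepAdic` equivalent to `ofMat t` has matrices conjugate to `t` in every basis. -/
theorem exists_gl_conj_of_isEquiv (ρ : GaloisRepAdic A) (t : GQ →* Matrix (Fin 2) (Fin 2) A)
    (ht : MatCont t) (h : ρ.IsEquiv (ofMat t ht)) (β' : Module.Basis (Fin 2) A ρ.V) :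
    ∃ Q : GL (Fin 2) A, ∀ σ, (Q : Matrix (Fin 2) (Fin 2) A) * t σ =
      toMat ρ β' σ * (Q : Matrix (Fin 2) (Fin 2) A) := by
  obtain ⟨e⟩ := h
  exact (ofMat_isEquiv_iff ht (matCont_toMat ρ β')).1 ⟨e.symm.trans (equivOfMatToMat ρ β')⟩

end Bases

/-! ### the cocycle of a lift in an arbitrary basis -/

section Lift

variable {𝒪 : Type} [CommRing 𝒪] [IsDomain 𝒪] [IsDiscreteValuationRing 𝒪]
  [IsAdicComplete (maximalIdeal 𝒪) 𝒪]
  {ρbar : ResidualGaloisRep (ResidueField 𝒪)}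
  (b : Module.Basis (Fin 2) (ResidueField 𝒪) ρbar.V)

/-- **the cocycle of a matrix form `t` conjugate to the adapted one.** -/
theorem liftCocycle_eq_conj_of_gl (ρ : GaloisRepAdic (DualNumber (ResidueField 𝒪)))
    (h : IsLift 𝒪 ρbar ρ) (t : GQ →* Matrix (Fin 2) (Fin 2) (DualNumber (ResidueField 𝒪)))
    (Q : GL (Fin 2) (DualNumber (ResidueField 𝒪)))
    (hQ : ∀ σ, (Q : Matrix (Fin 2) (Fin 2) (DualNumber (ResidueField 𝒪))) *
      liftMat 𝒪 ρbar b ρ h σ = t σ * (Q : Matrix (Fin 2) (Fin 2) (DualNumber (ResidueField 𝒪)))) :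
    ∃ Qb Qbi Y : Matrix (Fin 2) (Fin 2) (ResidueField 𝒪), Qb * Qbi = 1 ∧ Qbi * Qb = 1 ∧
      ∀ σ, rfst t σ = Qb * toMatRes ρbar b σ * Qbi ∧
        liftCocycle 𝒪 ρbar b ρ σ = Qbi * tanCocycle t σ * Qb +
          (toMatRes ρbar b σ * Y * toMatRes ρbar b σ⁻¹ - Y) := by
  set Qm : Matrix (Fin 2) (Fin 2) (DualNumber (ResidueField 𝒪)) :=
    (Q : Matrix (Fin 2) (Fin 2) (DualNumber (ResidueField 𝒪))) with hQm
  set Qi : Matrix (Fin 2) (Fin 2) (DualNumber (ResidueField 𝒪)) :=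
    ((Q⁻¹ : GL (Fin 2) (DualNumber (ResidueField 𝒪))) :
      Matrix (Fin 2) (Fin 2) (DualNumber (ResidueField 𝒪))) with hQi
  have h1 : Qm * Qi = 1 := by rw [hQm, hQi, ← Units.val_mul, mul_inv_cancel, Units.val_one]
  have h2 : Qi * Qm = 1 := by rw [hQm, hQi, ← Units.val_mul, inv_mul_cancel, Units.val_one]
  have hA : mfst Qm * mfst Qi = 1 := by rw [← mfst_mul, h1, mfst_one]
  have hA' : mfst Qi * mfst Qm = 1 := by rw [← mfst_mul, h2, mfst_one]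
  refine ⟨mfst Qm, mfst Qi, mfst Qi * msnd Qm, hA, hA', fun σ => ⟨?_, ?_⟩⟩
  · rw [rfst_conj (liftMat 𝒪 ρbar b ρ h) t Qm Qi h1 hQ σ, rfst_liftMat]
  · have h3 := tanCocycle_conj (liftMat 𝒪 ρbar b ρ h) t Qm Qi h1 h2 hQ σ
    rw [rfst_liftMat, ← liftCocycle_eq b ρ h] at h3
    rw [h3]
    have k1 : ∀ x : Matrix (Fin 2) (Fin 2) (ResidueField 𝒪), mfst Qi * (mfst Qm * x) = x :=
      fun x => by rw [← Matrix.mul_assoc, hA', Matrix.one_mul]
    simp only [Matrix.mul_assoc, k1, hA', Matrix.mul_one]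
    abel

/-- **the cocycle of a lift in an ARBITRARY basis `β'` of `ρ.V`**: up to conjugation by the
reduction `Q̄` of the change of basis and a coboundary. -/
theorem liftCocycle_eq_conj (ρ : GaloisRepAdic (DualNumber (ResidueField 𝒪)))
    (h : IsLift 𝒪 ρbar ρ) (β' : Module.Basis (Fin 2) (DualNumber (ResidueField 𝒪)) ρ.V) :
    ∃ Qb Qbi Y : Matrix (Fin 2) (Fin 2) (ResidueField 𝒪), Qb * Qbi = 1 ∧ Qbi * Qb = 1 ∧
      ∀ σ, mfst (toMat ρ β' σ) = Qb * toMatRes ρbar b σ * Qbi ∧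
        liftCocycle 𝒪 ρbar b ρ σ = Qbi * tanCocycle (toMat ρ β') σ * Qb +
          (toMatRes ρbar b σ * Y * toMatRes ρbar b σ⁻¹ - Y) := by
  obtain ⟨Q, hQ⟩ := exists_gl_toMat_conj ρ (adaptedBasis 𝒪 ρbar b ρ h) β'
  exact liftCocycle_eq_conj_of_gl b ρ h (toMat ρ β') Q hQ

/-- the same for a matrix form `t` with `ρ ≅ ofMat t` (the shape of helper11's `Adm`). -/
theorem liftCocycle_eq_conj_of_isEquiv (ρ : GaloisRepAdic (DualNumber (ResidueField 𝒪)))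
    (h : IsLift 𝒪 ρbar ρ) (t : GQ →* Matrix (Fin 2) (Fin 2) (DualNumber (ResidueField 𝒪)))
    (ht : MatCont t) (he : ρ.IsEquiv (ofMat t ht)) :
    ∃ Qb Qbi Y : Matrix (Fin 2) (Fin 2) (ResidueField 𝒪), Qb * Qbi = 1 ∧ Qbi * Qb = 1 ∧
      ∀ σ, rfst t σ = Qb * toMatRes ρbar b σ * Qbi ∧
        liftCocycle 𝒪 ρbar b ρ σ = Qbi * tanCocycle t σ * Qb +
          (toMatRes ρbar b σ * Y * toMatRes ρbar b σ⁻¹ - Y) := by
  obtain ⟨e⟩ := he
  obtain ⟨e1⟩ := isEquiv_ofMat_liftMat b ρ h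
  obtain ⟨Q, hQ⟩ := (ofMat_isEquiv_iff (matCont_liftMat b ρ h) ht).1 ⟨e1.symm.trans e⟩
  exact liftCocycle_eq_conj_of_gl b ρ h t Q hQ

/-- **local coboundaries are basis-independent**: if in SOME basis `β'` of `ρ.V` the cocycle of
`ρ` is a coboundary on a subset `J ⊆ G_ℚ` (an inertia or decomposition group), then so is
`liftCocycle ρ`. -/
theorem liftCocycle_mem_B1_on (ρ : GaloisRepAdic (DualNumber (ResidueField 𝒪)))
    (h : IsLift 𝒪 ρbar ρ) (β' : Module.Basis (Fin 2) (DualNumber (ResidueField 𝒪)) ρ.V)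
    (J : Set GQ) (X' : Matrix (Fin 2) (Fin 2) (ResidueField 𝒪))
    (hJ : ∀ σ ∈ J, tanCocycle (toMat ρ β') σ =
      rfst (toMat ρ β') σ * X' * rfst (toMat ρ β') σ⁻¹ - X') :
    ∃ X : Matrix (Fin 2) (Fin 2) (ResidueField 𝒪), ∀ σ ∈ J,
      liftCocycle 𝒪 ρbar b ρ σ = toMatRes ρbar b σ * X * toMatRes ρbar b σ⁻¹ - X := by
  obtain ⟨Qb, Qbi, Y, hA, hA', hσ⟩ := liftCocycle_eq_conj b ρ h β'
  refine ⟨Qbi * X' * Qb + Y, fun σ hσJ => ?_⟩
  obtain ⟨-, h2⟩ := hσ σ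
  have h3 := conj_cobdry (toMatRes ρbar b) (rfst (toMat ρ β')) Qb Qbi hA'
    (fun τ => (hσ τ).1) X' σ
  rw [h2, hJ σ hσJ, h3]
  simp only [Matrix.mul_add, Matrix.add_mul]
  abel

end Lift

end Fermat.Agent.GP.Tan.LiftClass
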