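/-
GATE-P / S56, [P-TAN] (helper11): CONVERSE of `Cocycle.exists_matrix_of_residual` — a matrix
lift `t : G_ℚ → GL₂(k[ε])` with `rfst t = toMatRes ρbar b` IS a lift of `ρ̄` in the sense of
`DeformationRingData.universal` / helper39's `IsLift`; so the data `(t, ht, hfst, ρ ~ ofMat t)`
carried by an admissible cocycle of `SelmerBound` feeds every consumer stated with `IsLift`
(helper64 `cond56_SO_residual` / `cond56_FL_residual`, helper66 `liftCocycle…`).
-/
import Fermat.Agent.GP.Tan.Cocycle

set_option autoImplicit false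
set_option linter.unusedSectionVars false

namespace Fermat.Agent.GP.Tan.LiftOfMat

open IsLocalRing Fermat.Agent.S53_helper35 Matrix Fermat.Agent.GP.Tan.Cocycle
  Fermat.Agent.S53_helper84

variable {𝒪 : Type} [CommRing 𝒪] [IsLocalRing 𝒪]
  (ρbar : ResidualGaloisRep (ResidueField 𝒪))
  (b : Module.Basis (Fin 2) (ResidueField 𝒪) ρbar.V)

/-- the reduction of a matrix lift with `rfst t = toMatRes ρbar b`. -/
theorem mapMat_residue_eq
    (t : GQ →* Matrix (Fin 2) (Fin 2) (DualNumber (ResidueField 𝒪)))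
    (hfst : rfst t = toMatRes ρbar b) :
    mapMat (IsLocalRing.residue (DualNumber (ResidueField 𝒪))) t =
      mapMat (ResidueField.map (algebraMap 𝒪 (DualNumber (ResidueField 𝒪))))
        (toMatRes ρbar b) := by
  refine MonoidHom.ext fun σ => ?_
  ext i j
  simp only [mapMat_apply, Matrix.map_apply]
  rw [residueFieldMap_eq, RingHom.comp_apply, ← hfst, rfst_apply, mfst_apply]
  have h2 : t σ i j - algebraMap (ResidueField 𝒪) (DualNumber (ResidueField 𝒪))
      ((t σ i j).fst) ∈ maximalIdeal (DualNumber (ResidueField 𝒪)) := by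
    rw [Fermat.Agent.GP.Tan.UnivInj.mem_maximalIdeal_dualNumber_iff, TrivSqZeroExt.fst_sub,
      sub_eq_zero]
    rfl
  rw [← residue_eq_zero_iff, map_sub, sub_eq_zero] at h2
  exact h2

/-- **a matrix lift is a lift**: the residual representation of `ofMat t` is `ρ̄` (base-changed
to the residue field of `k[ε]`). -/
theorem residual_ofMat_isEquiv
    (t : GQ →* Matrix (Fin 2) (Fin 2) (DualNumber (ResidueField 𝒪))) (ht : MatCont t)
    (hfst : rfst t = toMatRes ρbar b) :
    (ofMat t ht).residual.IsEquiv (ρbar.baseChangeAlong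
      (ResidueField.map (algebraMap 𝒪 (DualNumber (ResidueField 𝒪))))) := by
  obtain ⟨e1⟩ := residual_ofMat_isEquiv_of_eq t ht (toMatRes ρbar b) (resCont_toMatRes ρbar b)
    (ResidueField.map (algebraMap 𝒪 (DualNumber (ResidueField 𝒪))))
    (mapMat_residue_eq ρbar b t hfst)
  obtain ⟨e2⟩ := baseChangeAlong_isEquiv_ofMatRes
    (ResidueField.map (algebraMap 𝒪 (DualNumber (ResidueField 𝒪)))) ρbar b
  exact ⟨e1.trans e2.symm⟩

/-- **`IsLift` from the admissible data of `SelmerBound`** (statement = helper39's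
`GP.Top.IsLift 𝒪 ρbar ρ` unfolded = the clause of `DeformationRingData.universal`). -/
theorem residual_isEquiv_of_matrix (ρ : GaloisRepAdic (DualNumber (ResidueField 𝒪)))
    (t : GQ →* Matrix (Fin 2) (Fin 2) (DualNumber (ResidueField 𝒪))) (ht : MatCont t)
    (hfst : rfst t = toMatRes ρbar b) (he : ρ.IsEquiv (ofMat t ht)) :
    ρ.residual.IsEquiv (ρbar.baseChangeAlong
      (ResidueField.map (algebraMap 𝒪 (DualNumber (ResidueField 𝒪))))) := by
  obtain ⟨e⟩ := he
  obtain ⟨e'⟩ := residual_ofMat_isEquiv ρbar b t ht hfst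
  exact ⟨e.residual.trans e'⟩

end Fermat.Agent.GP.Tan.LiftOfMat
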