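/-
GATE-P / S56, node S56-TAN-SEL (helper11), NEGATIVE BRANCH: if NO matrix lift of `ρ̄` to the dual
numbers has type `𝒟`, then `SelmerBound 𝒪 ρbar b 𝒟 r` holds for every `r` (the admissible
functions are exactly the coboundaries).  This is the trivial branch of the `by_cases` in the
TWGATE assembly ("does `ρ̄` admit a first-order deformation of type `cond56` at all?"); in the
positive branch `ρ̄` itself has type `𝒟` (helper64 `CondIsEquiv`), which is what the local nodes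
need in order to DEFINE their local conditions.
-/
import Fermat.Agent.GP.Tan.TanTop

set_option autoImplicit false
set_option linter.unusedSectionVars false

namespace Fermat.Agent.GP.Tan.SelmerNeg

open IsLocalRing Fermat.Agent.S53_helper35 Matrix Fermat.Agent.GP.Tan.Cocycle
  Fermat.Agent.GP.Tan.TanTop

variable {𝒪 : Type} [CommRing 𝒪] [IsLocalRing 𝒪] [Finite (ResidueField 𝒪)]
  (ρbar : ResidualGaloisRep (ResidueField 𝒪))
  (b : Module.Basis (Fin 2) (ResidueField 𝒪) ρbar.V)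
  (𝒟 : ∀ ⦃A : Type⦄ [CommRing A] [IsLocalRing A] [Algebra 𝒪 A], GaloisRepAdic A → Prop)

/-- **negative branch**: no first-order matrix lift of type `𝒟` ⟹ `SelmerBound` for every `r`. -/
theorem selmerBound_of_no_lift (r : ℕ)
    (hno : ¬ ∃ (t : GQ →* Matrix (Fin 2) (Fin 2) (DualNumber (ResidueField 𝒪))) (ht : MatCont t),
      rfst t = toMatRes ρbar b ∧ ∃ ρ, 𝒟 ρ ∧ ρ.IsEquiv (ofMat t ht)) :
    SelmerBound 𝒪 ρbar b 𝒟 r := by
  refine ⟨Unit, inferInstance, fun _ => (), ?_, ?_⟩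
  · rw [Nat.card_unique]
    exact Nat.one_le_pow _ _ Nat.card_pos
  · rintro c c' (⟨X, hX⟩ | ⟨t, ht, hfst, h𝒟, -⟩) (⟨X', hX'⟩ | ⟨t', ht', hfst', h𝒟', -⟩) -
    · refine ⟨X' - X, fun σ => ?_⟩
      rw [hX σ, hX' σ]
      simp only [Matrix.mul_sub, Matrix.sub_mul]
      abel
    · exact absurd ⟨t', ht', hfst', h𝒟'⟩ hno
    · exact absurd ⟨t, ht, hfst, h𝒟⟩ hno
    · exact absurd ⟨t, ht, hfst, h𝒟⟩ hno

/-- the dichotomy used by the assembly: either some matrix lift with `rfst t = toMatRes ρbar b`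
has type `𝒟`, or `SelmerBound` is free. -/
theorem selmerBound_or_exists_lift (r : ℕ) :
    SelmerBound 𝒪 ρbar b 𝒟 r ∨
      ∃ (t : GQ →* Matrix (Fin 2) (Fin 2) (DualNumber (ResidueField 𝒪))) (ht : MatCont t),
        rfst t = toMatRes ρbar b ∧ ∃ ρ, 𝒟 ρ ∧ ρ.IsEquiv (ofMat t ht) := by
  by_cases h : ∃ (t : GQ →* Matrix (Fin 2) (Fin 2) (DualNumber (ResidueField 𝒪)))
      (ht : MatCont t), rfst t = toMatRes ρbar b ∧ ∃ ρ, 𝒟 ρ ∧ ρ.IsEquiv (ofMat t ht)
  · exact Or.inr h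
  · exact Or.inl (selmerBound_of_no_lift ρbar b 𝒟 r h)

end Fermat.Agent.GP.Tan.SelmerNeg
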