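/-
GATE-P / S56, [P-TAN] (helper11): POSITIVE BRANCH of the TWGATE `by_cases`: if SOME matrix lift
`t` of `ρ̄` (with `rfst t = toMatRes ρbar b`, `ρ ~ ofMat t`) has type `cond56`, then `ρ̄` itself
(`GaloisRepAdic.ofResidualGaloisRep ρbar`) has type `cond56` — strict-ordinary (resp. flat) at
`p`, unramified outside `Smin ∪ Q`, unipotent on inertia at `Smin`.  This is what the local
nodes need in order to DEFINE `L_p` from `ρ̄|D_p`.  Glue of `LiftOfMat.residual_isEquiv_of_matrix`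
and helper64's `cond56_SO_residual` / `cond56_FL_residual`.

Together with `SelmerNeg.selmerBound_or_exists_lift`:  either `SelmerBound` is free, or `ρ̄` has
type `cond56`.
-/
import Fermat.Agent.GP.Tan.LiftOfMat
import Fermat.Agent.GP.Tan.SelmerNeg
import Fermat.Agent.GP.Tan.CondIsEquiv

set_option autoImplicit false
set_option linter.unusedSectionVars false

namespace Fermat.Agent.GP.Tan.PositiveBranch

open IsLocalRing Fermat.Agent.S53_helper35 Matrix Fermat.Agent.GP.Tan.Cocycle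
  Fermat.Agent.GP.Tan.TanTop Fermat.Agent.GP.Tan.LiftOfMat Fermat.Agent.GP.Tan.SelmerNeg
  Fermat.Agent.GP.Top

variable {𝒪 : Type} [CommRing 𝒪] [IsDomain 𝒪] [IsDiscreteValuationRing 𝒪]
  [IsAdicComplete (maximalIdeal 𝒪) 𝒪]
  (p : ℕ) (Smin Q : Finset ℕ)
  (ρbar : ResidualGaloisRep (ResidueField 𝒪))
  (b : Module.Basis (Fin 2) (ResidueField 𝒪) ρbar.V)

/-- helper39's `IsLift` from the admissible data of `SelmerBound`. -/
theorem isLift_of_matrix (ρ : GaloisRepAdic (DualNumber (ResidueField 𝒪)))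
    (t : GQ →* Matrix (Fin 2) (Fin 2) (DualNumber (ResidueField 𝒪))) (ht : MatCont t)
    (hfst : rfst t = toMatRes ρbar b) (he : ρ.IsEquiv (ofMat t ht)) : IsLift 𝒪 ρbar ρ :=
  residual_isEquiv_of_matrix ρbar b ρ t ht hfst he

/-- **positive branch, strict-ordinary**: a matrix lift of type `cond56` ⟹ `ρ̄` has type
`cond56`. -/
theorem residual_strict_of_matrix_lift
    (h : ∃ (t : GQ →* Matrix (Fin 2) (Fin 2) (DualNumber (ResidueField 𝒪))) (ht : MatCont t),
      rfst t = toMatRes ρbar b ∧ ∃ ρ : GaloisRepAdic (DualNumber (ResidueField 𝒪)),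
        (GaloisRep.strictOrdinaryCondition 𝒪 p (Smin ∪ Q) ρ ∧
          ∀ q ∈ Smin, q.Prime → q ≠ p → ρ.IsUnipotentOnInertiaAt q) ∧ ρ.IsEquiv (ofMat t ht)) :
    GaloisRep.strictOrdinaryCondition 𝒪 p (Smin ∪ Q) (GaloisRepAdic.ofResidualGaloisRep ρbar) ∧
      ∀ q ∈ Smin, q.Prime → q ≠ p →
        (GaloisRepAdic.ofResidualGaloisRep ρbar).IsUnipotentOnInertiaAt q := by
  obtain ⟨t, ht, hfst, ρ, h𝒟, he⟩ := h
  exact Fermat.Agent.GP.Tan.cond56_SO_residual p Smin Q ρbar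
    (isLift_of_matrix ρbar b ρ t ht hfst he) h𝒟

/-- **positive branch, flat**. -/
theorem residual_flat_of_matrix_lift
    (h : ∃ (t : GQ →* Matrix (Fin 2) (Fin 2) (DualNumber (ResidueField 𝒪))) (ht : MatCont t),
      rfst t = toMatRes ρbar b ∧ ∃ ρ : GaloisRepAdic (DualNumber (ResidueField 𝒪)),
        (GaloisRep.flatCondition 𝒪 p (Smin ∪ Q) ρ ∧
          ∀ q ∈ Smin, q.Prime → q ≠ p → ρ.IsUnipotentOnInertiaAt q) ∧ ρ.IsEquiv (ofMat t ht)) :
    GaloisRep.flatCondition 𝒪 p (Smin ∪ Q) (GaloisRepAdic.ofResidualGaloisRep ρbar) ∧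
      ∀ q ∈ Smin, q.Prime → q ≠ p →
        (GaloisRepAdic.ofResidualGaloisRep ρbar).IsUnipotentOnInertiaAt q := by
  obtain ⟨t, ht, hfst, ρ, h𝒟, he⟩ := h
  exact Fermat.Agent.GP.Tan.cond56_FL_residual p Smin Q ρbar
    (isLift_of_matrix ρbar b ρ t ht hfst he) h𝒟

variable [Finite (ResidueField 𝒪)]

/-- **the dichotomy, strict-ordinary**: `SelmerBound` is free, or `ρ̄` has type `cond56`. -/
theorem selmerBound_strict_or_residual (r : ℕ) :
    SelmerBound 𝒪 ρbar b (fun _A _ _ _ ρ =>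
        GaloisRep.strictOrdinaryCondition 𝒪 p (Smin ∪ Q) ρ ∧
          ∀ q ∈ Smin, q.Prime → q ≠ p → ρ.IsUnipotentOnInertiaAt q) r ∨
      (GaloisRep.strictOrdinaryCondition 𝒪 p (Smin ∪ Q)
          (GaloisRepAdic.ofResidualGaloisRep ρbar) ∧
        ∀ q ∈ Smin, q.Prime → q ≠ p →
          (GaloisRepAdic.ofResidualGaloisRep ρbar).IsUnipotentOnInertiaAt q) := by
  rcases selmerBound_or_exists_lift ρbar b (fun _A _ _ _ ρ =>
        GaloisRep.strictOrdinaryCondition 𝒪 p (Smin ∪ Q) ρ ∧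
          ∀ q ∈ Smin, q.Prime → q ≠ p → ρ.IsUnipotentOnInertiaAt q) r with h | h
  · exact Or.inl h
  · exact Or.inr (residual_strict_of_matrix_lift p Smin Q ρbar b h)

/-- **the dichotomy, flat**. -/
theorem selmerBound_flat_or_residual (r : ℕ) :
    SelmerBound 𝒪 ρbar b (fun _A _ _ _ ρ =>
        GaloisRep.flatCondition 𝒪 p (Smin ∪ Q) ρ ∧
          ∀ q ∈ Smin, q.Prime → q ≠ p → ρ.IsUnipotentOnInertiaAt q) r ∨
      (GaloisRep.flatCondition 𝒪 p (Smin ∪ Q)
          (GaloisRepAdic.ofResidualGaloisRep ρbar) ∧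
        ∀ q ∈ Smin, q.Prime → q ≠ p →
          (GaloisRepAdic.ofResidualGaloisRep ρbar).IsUnipotentOnInertiaAt q) := by
  rcases selmerBound_or_exists_lift ρbar b (fun _A _ _ _ ρ =>
        GaloisRep.flatCondition 𝒪 p (Smin ∪ Q) ρ ∧
          ∀ q ∈ Smin, q.Prime → q ≠ p → ρ.IsUnipotentOnInertiaAt q) r with h | h
  · exact Or.inl h
  · exact Or.inr (residual_flat_of_matrix_lift p Smin Q ρbar b h)

end Fermat.Agent.GP.Tan.PositiveBranch
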