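import Mathlib
import Fermat.Agent.S53.PSEval
import Fermat.Agent.S53.PSComplete

set_option autoImplicit false

/-!
# GP / Tan : from a bound on the number of `k[ε]`-points to a presentation by power series

Pure commutative algebra, needed for the Taylor–Wiles statement S56: if `R` is a complete
noetherian local `𝒪`-algebra with residue field `k = 𝒪 / 𝔪` (finite) and the number of
`𝒪`-algebra homomorphisms `R → k[ε]` is at most `(#k) ^ r`, then `R` is a quotient of
`𝒪⟦X₁, …, X_r⟧`.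

* `surjective_of_map_eq`: "complete Nakayama" for ring homomorphisms.
* `exists_surjective_of_le_span`: generators of the relative cotangent space give a surjection
  from the power series ring.
* `exists_surjective_of_card_le`: the cardinality form.
-/

namespace Fermat.Agent.GP.Tan

open IsLocalRing

section CompleteNakayama

variable {P R : Type*} [CommRing P] [CommRing R]

/-- One approximation step. -/
theorem exists_approx_step (𝔞 : Ideal P) (𝔪 : Ideal R) (γ : P →+* R) (hmap : 𝔞.map γ = 𝔪)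
    (hres : ∀ y : R, ∃ p : P, y - γ p ∈ 𝔪) (n : ℕ) {z : R} (hz : z ∈ 𝔪 ^ n) :
    ∃ g ∈ 𝔞 ^ n, z - γ g ∈ 𝔪 ^ (n + 1) := by
  have hz' : z ∈ (𝔞 ^ n).map γ := by rw [Ideal.map_pow, hmap]; exact hz
  have hγ : ∀ g ∈ 𝔞 ^ n, γ g ∈ 𝔪 ^ n := by
    intro g hg
    have := Ideal.mem_map_of_mem γ hg
    rwa [Ideal.map_pow, hmap] at this
  rw [Ideal.map] at hz'
  refine Submodule.span_induction (p := fun z _ => ∃ g ∈ 𝔞 ^ n, z - γ g ∈ 𝔪 ^ (n + 1))
    ?_ ?_ ?_ ?_ hz'
  · rintro _ ⟨g, hg, rfl⟩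
    exact ⟨g, hg, by simp⟩
  · exact ⟨0, zero_mem _, by simp⟩
  · rintro z₁ z₂ _ _ ⟨g₁, hg₁, h₁⟩ ⟨g₂, hg₂, h₂⟩
    refine ⟨g₁ + g₂, add_mem hg₁ hg₂, ?_⟩
    have : z₁ + z₂ - γ (g₁ + g₂) = (z₁ - γ g₁) + (z₂ - γ g₂) := by rw [map_add]; ring
    rw [this]
    exact add_mem h₁ h₂
  · rintro a z _ ⟨g, hg, h⟩
    obtain ⟨p, hp⟩ := hres a
    refine ⟨p * g, Ideal.mul_mem_left _ _ hg, ?_⟩
    have : a • z - γ (p * g) = a * (z - γ g) + (a - γ p) * γ g := by
      rw [map_mul, smul_eq_mul]; ring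
    rw [this]
    refine add_mem (Ideal.mul_mem_left _ _ h) ?_
    rw [pow_succ']
    exact Ideal.mul_mem_mul hp (hγ g hg)

/-- "Complete Nakayama" for ring homomorphisms: if `P` is `𝔞`-adically (pre)complete, `R` is
`𝔪`-adically separated, `𝔞 R = 𝔪` and `P → R / 𝔪` is surjective, then `P → R` is surjective. -/
theorem surjective_of_map_eq (𝔞 : Ideal P) (𝔪 : Ideal R) [IsPrecomplete 𝔞 P] [IsHausdorff 𝔪 R]
    (γ : P →+* R) (hmap : 𝔞.map γ = 𝔪) (hres : ∀ y : R, ∃ p : P, y - γ p ∈ 𝔪) :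
    Function.Surjective γ := by
  intro y
  have hγ : ∀ n, ∀ g ∈ 𝔞 ^ n, γ g ∈ 𝔪 ^ n := by
    intro n g hg
    have := Ideal.mem_map_of_mem γ hg
    rwa [Ideal.map_pow, hmap] at this
  have step : ∀ (n : ℕ) (f : P), y - γ f ∈ 𝔪 ^ n →
      ∃ f' : P, f' - f ∈ 𝔞 ^ n ∧ y - γ f' ∈ 𝔪 ^ (n + 1) := by
    intro n f hf
    obtain ⟨g, hg, h⟩ := exists_approx_step 𝔞 𝔪 γ hmap hres n hf
    refine ⟨f + g, by simpa using hg, ?_⟩
    have : y - γ (f + g) = y - γ f - γ g := by rw [map_add]; ring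
    rwa [this]
  choose! next hnext using step
  let F : ℕ → P := fun n => Nat.rec 0 (fun n f => next n f) n
  have hF0 : F 0 = 0 := rfl
  have hFs : ∀ n, F (n + 1) = next n (F n) := fun n => rfl
  have hF : ∀ n, y - γ (F n) ∈ 𝔪 ^ n := by
    intro n
    induction n with
    | zero => simp
    | succ n ih => rw [hFs]; exact (hnext n _ ih).2
  have hF' : ∀ n, F (n + 1) - F n ∈ 𝔞 ^ n := fun n => by rw [hFs]; exact (hnext n _ (hF n)).1
  have hcauchy : ∀ {m n : ℕ}, m ≤ n → F m ≡ F n [SMOD (𝔞 ^ m • ⊤ : Submodule P P)] := by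
    intro m n hmn
    induction n, hmn using Nat.le_induction with
    | base => rfl
    | succ n hmn ih =>
      refine ih.trans ?_
      rw [SModEq.sub_mem, smul_eq_mul, Ideal.mul_top]
      have := Ideal.pow_le_pow_right hmn (hF' n)
      rw [← neg_sub]
      exact neg_mem this
  obtain ⟨L, hL⟩ := IsPrecomplete.prec (inferInstance : IsPrecomplete 𝔞 P) hcauchy
  refine ⟨L, ?_⟩
  rw [eq_comm, ← sub_eq_zero]
  apply IsHausdorff.haus (inferInstance : IsHausdorff 𝔪 R)
  intro n
  rw [smul_eq_mul, Ideal.mul_top, SModEq.zero]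
  have h1 : F n - L ∈ 𝔞 ^ n := by
    have := hL n
    rwa [SModEq.sub_mem, smul_eq_mul, Ideal.mul_top] at this
  have : y - γ L = (y - γ (F n)) + γ (F n - L) := by rw [map_sub]; ring
  rw [this]
  exact add_mem (hF n) (hγ n _ h1)

end CompleteNakayama

section PowerSeries

variable {𝒪 : Type*} [CommRing 𝒪] [IsLocalRing 𝒪]
variable {R : Type*} [CommRing R] [IsLocalRing R] [Algebra 𝒪 R] [IsLocalHom (algebraMap 𝒪 R)]

omit [IsLocalRing 𝒪] [IsLocalRing R] [IsLocalHom (algebraMap 𝒪 R)] in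
theorem algHom_algebraMap {r : ℕ} (γ : MvPowerSeries (Fin r) 𝒪 →ₐ[𝒪] R) (a : 𝒪) :
    γ (MvPowerSeries.C a) = algebraMap 𝒪 R a := by
  have : (MvPowerSeries.C a : MvPowerSeries (Fin r) 𝒪) =
      algebraMap 𝒪 (MvPowerSeries (Fin r) 𝒪) a := by
    rw [MvPowerSeries.algebraMap_apply, Algebra.algebraMap_self, RingHom.id_apply]
  rw [this, γ.commutes]

/-- An `𝒪`-algebra hom from the power series ring sending the variables into the maximal ideal
is local. -/
theorem algHom_mem_maximalIdeal {r : ℕ} (γ : MvPowerSeries (Fin r) 𝒪 →ₐ[𝒪] R)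
    (hγ : ∀ i, γ (MvPowerSeries.X i) ∈ maximalIdeal R) {f : MvPowerSeries (Fin r) 𝒪}
    (hf : f ∈ maximalIdeal (MvPowerSeries (Fin r) 𝒪)) : γ f ∈ maximalIdeal R := by
  rw [Fermat.Agent.S53.PSC.decomp f, map_add, map_sum]
  refine add_mem ?_ (sum_mem fun i _ => ?_)
  · rw [algHom_algebraMap]
    exact map_nonunit (algebraMap 𝒪 R) _
      ((Fermat.Agent.S53.PSC.mem_maximalIdeal_iff 𝒪 (Fin r) f).1 hf)
  · rw [map_mul]
    exact Ideal.mul_mem_right _ _ (hγ i)

variable [IsNoetherianRing 𝒪] [IsAdicComplete (maximalIdeal 𝒪) 𝒪]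
variable [IsNoetherianRing R] [IsAdicComplete (maximalIdeal R) R]

/-- Generators of the relative cotangent space `𝔪_R / (𝔪_R² + 𝔪_𝒪 R)` give a surjection from the
power series ring. -/
theorem exists_surjective_of_le_span
    (hres : Function.Surjective (residue R ∘ algebraMap 𝒪 R)) {r : ℕ} (x : Fin r → R)
    (hx : ∀ i, x i ∈ maximalIdeal R)
    (hgen : maximalIdeal R ≤ Ideal.span (Set.range x) ⊔
      (maximalIdeal 𝒪).map (algebraMap 𝒪 R) ⊔ maximalIdeal R ^ 2) :
    ∃ γ : MvPowerSeries (Fin r) 𝒪 →ₐ[𝒪] R,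
      (∀ i, γ (MvPowerSeries.X i) = x i) ∧ Function.Surjective γ := by
  obtain ⟨γ, hγ⟩ := Fermat.Agent.S53.exists_algHom_X (𝒪 := 𝒪) x hx
  refine ⟨γ, hγ, ?_⟩
  have hγm : ∀ i, γ (MvPowerSeries.X i) ∈ maximalIdeal R := fun i => by rw [hγ]; exact hx i
  -- Nakayama
  have hJ : maximalIdeal R ≤ Ideal.span (Set.range x) ⊔
      (maximalIdeal 𝒪).map (algebraMap 𝒪 R) := by
    refine Submodule.le_of_le_smul_of_le_jacobson_bot (IsNoetherian.noetherian _)
      (IsLocalRing.maximalIdeal_le_jacobson ⊥) ?_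
    rw [smul_eq_mul, ← pow_two]
    exact hgen
  have hmap : (maximalIdeal (MvPowerSeries (Fin r) 𝒪)).map (γ : MvPowerSeries (Fin r) 𝒪 →+* R) =
      maximalIdeal R := by
    apply le_antisymm
    · rw [Ideal.map_le_iff_le_comap]
      intro f hf
      exact algHom_mem_maximalIdeal γ hγm hf
    · refine hJ.trans (sup_le ?_ ?_)
      · rw [Ideal.span_le]
        rintro _ ⟨i, rfl⟩
        rw [← hγ i]
        exact Ideal.mem_map_of_mem _ (Fermat.Agent.S53.PSC.X_mem 𝒪 (Fin r) i)
      · rw [Ideal.map_le_iff_le_comap]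
        intro a ha
        rw [Ideal.mem_comap, ← algHom_algebraMap γ a]
        refine Ideal.mem_map_of_mem _ ?_
        rw [Fermat.Agent.S53.PSC.mem_maximalIdeal_iff, MvPowerSeries.constantCoeff_C]
        exact ha
  have hres' : ∀ y : R, ∃ p : MvPowerSeries (Fin r) 𝒪,
      y - (γ : MvPowerSeries (Fin r) 𝒪 →+* R) p ∈ maximalIdeal R := by
    intro y
    obtain ⟨a, ha⟩ := hres (residue R y)
    refine ⟨MvPowerSeries.C a, ?_⟩
    rw [RingHom.coe_coe, algHom_algebraMap, ← residue_eq_zero_iff, map_sub, ← ha]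
    simp
  have : IsPrecomplete (maximalIdeal (MvPowerSeries (Fin r) 𝒪)) (MvPowerSeries (Fin r) 𝒪) :=
    (Fermat.Agent.S53.isAdicComplete_mvPowerSeries 𝒪 (Fin r)).toIsPrecomplete
  exact surjective_of_map_eq (maximalIdeal (MvPowerSeries (Fin r) 𝒪)) (maximalIdeal R)
    (γ : MvPowerSeries (Fin r) 𝒪 →+* R) hmap hres'

end PowerSeries

section Tangent

variable {𝒪 : Type*} [CommRing 𝒪] [IsLocalRing 𝒪]
variable {R : Type*} [CommRing R] [IsLocalRing R] [Algebra 𝒪 R] [IsLocalHom (algebraMap 𝒪 R)]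

variable (𝒪 R) in
/-- The ideal `𝔪_R² + 𝔪_𝒪 R`; the relative cotangent space is `𝔪_R` modulo this ideal. -/
def relSq : Ideal R := maximalIdeal R ^ 2 ⊔ (maximalIdeal 𝒪).map (algebraMap 𝒪 R)

theorem relSq_le : relSq 𝒪 R ≤ maximalIdeal R := by
  refine sup_le (Ideal.pow_le_self two_ne_zero) ?_
  rw [Ideal.map_le_iff_le_comap]
  intro a ha
  exact map_nonunit (algebraMap 𝒪 R) a ha

omit [IsLocalHom (algebraMap 𝒪 R)] in
theorem algebraMap_mem_relSq {a : 𝒪} (ha : a ∈ maximalIdeal 𝒪) : algebraMap 𝒪 R a ∈ relSq 𝒪 R :=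
  Ideal.mem_sup_right (Ideal.mem_map_of_mem _ ha)

omit [IsLocalRing 𝒪] [Algebra 𝒪 R] [IsLocalHom (algebraMap 𝒪 R)] in
theorem mul_mem_relSq [IsLocalRing 𝒪] [Algebra 𝒪 R] {u v : R} (hu : u ∈ maximalIdeal R)
    (hv : v ∈ maximalIdeal R) : u * v ∈ relSq 𝒪 R := by
  refine Ideal.mem_sup_left ?_
  rw [pow_two]
  exact Ideal.mul_mem_mul hu hv

variable (hres : Function.Surjective (residue R ∘ algebraMap 𝒪 R))

/-- The identification of residue fields. -/
noncomputable def resEquiv : ResidueField 𝒪 ≃+* ResidueField R :=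
  RingEquiv.ofBijective (ResidueField.map (algebraMap 𝒪 R))
    ⟨RingHom.injective _, fun b => by
      obtain ⟨a, ha⟩ := hres b
      exact ⟨residue 𝒪 a, by rw [ResidueField.map_residue]; exact ha⟩⟩

/-- The residue map with values in the residue field of `𝒪`. -/
noncomputable def toK : R →+* ResidueField 𝒪 :=
  ((resEquiv hres).symm : ResidueField R →+* ResidueField 𝒪).comp (residue R)

theorem toK_algebraMap (a : 𝒪) : toK hres (algebraMap 𝒪 R a) = residue 𝒪 a := by
  rw [toK, RingHom.comp_apply, RingHom.coe_coe, RingEquiv.symm_apply_eq]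
  exact (ResidueField.map_residue (algebraMap 𝒪 R) a).symm

theorem toK_eq_zero_iff {x : R} : toK hres x = 0 ↔ x ∈ maximalIdeal R := by
  rw [toK, RingHom.comp_apply, RingHom.coe_coe, map_eq_zero_iff _ (RingEquiv.injective _),
    residue_eq_zero_iff]

theorem toK_surjective : Function.Surjective (toK hres) := fun b => by
  obtain ⟨a, rfl⟩ := residue_surjective b
  exact ⟨algebraMap 𝒪 R a, toK_algebraMap hres a⟩

include hres in
theorem sub_algebraMap_mem (x : R) : ∃ a : 𝒪, x - algebraMap 𝒪 R a ∈ maximalIdeal R := by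
  obtain ⟨a, ha⟩ := residue_surjective (toK hres x)
  refine ⟨a, ?_⟩
  rw [← toK_eq_zero_iff hres, map_sub, toK_algebraMap, ha, sub_self]

variable (𝒪 R) in
/-- The structure map `k → R / (𝔪_R² + 𝔪_𝒪 R)`. -/
noncomputable def iota : ResidueField 𝒪 →+* R ⧸ relSq 𝒪 R :=
  Ideal.Quotient.lift (maximalIdeal 𝒪) (algebraMap 𝒪 (R ⧸ relSq 𝒪 R)) (fun a ha => by
    rw [IsScalarTower.algebraMap_apply 𝒪 R (R ⧸ relSq 𝒪 R), Ideal.Quotient.algebraMap_eq,
      Ideal.Quotient.eq_zero_iff_mem]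
    exact algebraMap_mem_relSq ha)

omit [IsLocalRing R] [IsLocalHom (algebraMap 𝒪 R)] in
theorem iota_residue [IsLocalRing R] (a : 𝒪) :
    iota 𝒪 R (residue 𝒪 a) = Ideal.Quotient.mk (relSq 𝒪 R) (algebraMap 𝒪 R a) := by
  show Ideal.Quotient.lift (maximalIdeal 𝒪) (algebraMap 𝒪 (R ⧸ relSq 𝒪 R)) _
    (Ideal.Quotient.mk _ a) = _
  rw [Ideal.Quotient.lift_mk, IsScalarTower.algebraMap_apply 𝒪 R (R ⧸ relSq 𝒪 R),
    Ideal.Quotient.algebraMap_eq]

variable (𝒪 R) in
/-- The `k`-algebra structure on `R / (𝔪_R² + 𝔪_𝒪 R)`. -/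
@[reducible] noncomputable def algK : Algebra (ResidueField 𝒪) (R ⧸ relSq 𝒪 R) := (iota 𝒪 R).toAlgebra

attribute [local instance] algK

omit [IsLocalHom (algebraMap 𝒪 R)] in
theorem smul_eq_iota_mul (a : ResidueField 𝒪) (z : R ⧸ relSq 𝒪 R) : a • z = iota 𝒪 R a * z :=
  rfl

/-- The residue map on `R / (𝔪_R² + 𝔪_𝒪 R)`. -/
noncomputable def cbar : R ⧸ relSq 𝒪 R →+* ResidueField 𝒪 :=
  Ideal.Quotient.lift (relSq 𝒪 R) (toK hres) (fun _ hx => (toK_eq_zero_iff hres).2 (relSq_le hx))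

theorem cbar_mk (x : R) : cbar hres (Ideal.Quotient.mk _ x) = toK hres x :=
  Ideal.Quotient.lift_mk _ _ _

theorem cbar_iota (a : ResidueField 𝒪) : cbar hres (iota 𝒪 R a) = a := by
  obtain ⟨a', rfl⟩ := residue_surjective a
  rw [iota_residue, cbar_mk, toK_algebraMap]

/-- `cbar` as a `k`-linear map. -/
noncomputable def cbarL : (R ⧸ relSq 𝒪 R) →ₗ[ResidueField 𝒪] ResidueField 𝒪 where
  toFun := cbar hres
  map_add' := map_add _
  map_smul' a z := by
    rw [smul_eq_iota_mul, map_mul, cbar_iota, RingHom.id_apply, smul_eq_mul]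

theorem cbarL_apply (z : R ⧸ relSq 𝒪 R) : cbarL hres z = cbar hres z := rfl

theorem mul_eq_zero_of_cbar_eq_zero {u v : R ⧸ relSq 𝒪 R} (hu : cbar hres u = 0)
    (hv : cbar hres v = 0) : u * v = 0 := by
  obtain ⟨u, rfl⟩ := Ideal.Quotient.mk_surjective u
  obtain ⟨v, rfl⟩ := Ideal.Quotient.mk_surjective v
  rw [cbar_mk, toK_eq_zero_iff] at hu hv
  rw [← map_mul, Ideal.Quotient.eq_zero_iff_mem]
  exact mul_mem_relSq hu hv

/-- The projection onto the kernel of the residue map. -/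
noncomputable def proj : (R ⧸ relSq 𝒪 R) →ₗ[ResidueField 𝒪] LinearMap.ker (cbarL hres) :=
  LinearMap.codRestrict _
    (LinearMap.id - (LinearMap.toSpanSingleton (ResidueField 𝒪) (R ⧸ relSq 𝒪 R) 1).comp
      (cbarL hres))
    (fun z => by
      rw [LinearMap.mem_ker, LinearMap.sub_apply, map_sub, LinearMap.id_apply, LinearMap.comp_apply,
        LinearMap.toSpanSingleton_apply, map_smul, cbarL_apply, cbarL_apply, map_one, smul_eq_mul,
        mul_one, sub_self])

theorem proj_coe (z : R ⧸ relSq 𝒪 R) :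
    ((proj hres z : LinearMap.ker (cbarL hres)) : R ⧸ relSq 𝒪 R) = z - iota 𝒪 R (cbar hres z) := by
  rw [proj, LinearMap.codRestrict_apply, LinearMap.sub_apply, LinearMap.id_apply,
    LinearMap.comp_apply, LinearMap.toSpanSingleton_apply, cbarL_apply, smul_eq_iota_mul, mul_one]

theorem proj_of_mem (u : LinearMap.ker (cbarL hres)) : proj hres (u : R ⧸ relSq 𝒪 R) = u := by
  apply Subtype.ext
  have h : cbar hres (u : R ⧸ relSq 𝒪 R) = 0 := u.2
  rw [proj_coe, h, map_zero, sub_zero]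

theorem proj_mul (z w : R ⧸ relSq 𝒪 R) :
    proj hres (z * w) = cbar hres z • proj hres w + cbar hres w • proj hres z := by
  apply Subtype.ext
  rw [Submodule.coe_add, Submodule.coe_smul, Submodule.coe_smul, proj_coe, proj_coe, proj_coe,
    smul_eq_iota_mul, smul_eq_iota_mul, map_mul, map_mul]
  have h := mul_eq_zero_of_cbar_eq_zero hres (u := z - iota 𝒪 R (cbar hres z))
    (v := w - iota 𝒪 R (cbar hres w)) (by rw [map_sub, cbar_iota, sub_self])
    (by rw [map_sub, cbar_iota, sub_self])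
  linear_combination h

theorem proj_one : proj hres 1 = 0 := by
  apply Subtype.ext
  rw [proj_coe, map_one, map_one, sub_self, Submodule.coe_zero]

theorem proj_iota (a : ResidueField 𝒪) : proj hres (iota 𝒪 R a) = 0 := by
  apply Subtype.ext
  rw [proj_coe, cbar_iota, sub_self, Submodule.coe_zero]

/-- The `𝒪`-algebra homomorphism `R → k[ε]` attached to a linear form on the relative cotangent
space. -/
noncomputable def derHom (ℓ : Module.Dual (ResidueField 𝒪) (LinearMap.ker (cbarL hres))) :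
    R →ₐ[𝒪] DualNumber (ResidueField 𝒪) where
  toFun x := TrivSqZeroExt.inl (toK hres x) +
    TrivSqZeroExt.inr (ℓ (proj hres (Ideal.Quotient.mk _ x)))
  map_one' := by
    rw [map_one, map_one, proj_one, map_zero, TrivSqZeroExt.inr_zero, add_zero,
      TrivSqZeroExt.inl_one]
  map_zero' := by
    rw [map_zero, map_zero, map_zero, map_zero, TrivSqZeroExt.inr_zero, add_zero,
      TrivSqZeroExt.inl_zero]
  map_add' x y := by
    rw [map_add, map_add, map_add, map_add, TrivSqZeroExt.inl_add, TrivSqZeroExt.inr_add]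
    abel
  map_mul' x y := by
    rw [map_mul, map_mul, proj_mul, map_add, map_smul, map_smul, cbar_mk, cbar_mk]
    apply TrivSqZeroExt.ext
    · simp
    · simp [mul_comm]
  commutes' a := by
    rw [TrivSqZeroExt.algebraMap_eq_inl', ResidueField.algebraMap_eq, toK_algebraMap,
      ← iota_residue, proj_iota, map_zero, TrivSqZeroExt.inr_zero, add_zero]

theorem derHom_apply (ℓ : Module.Dual (ResidueField 𝒪) (LinearMap.ker (cbarL hres))) (x : R) :
    derHom hres ℓ x = TrivSqZeroExt.inl (toK hres x) +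
      TrivSqZeroExt.inr (ℓ (proj hres (Ideal.Quotient.mk _ x))) := rfl

theorem derHom_injective : Function.Injective (derHom hres) := by
  intro ℓ ℓ' h
  ext u
  obtain ⟨x, hx⟩ := Ideal.Quotient.mk_surjective (u : R ⧸ relSq 𝒪 R)
  have h1 := congrArg TrivSqZeroExt.snd (DFunLike.congr_fun h x)
  rw [derHom_apply, derHom_apply] at h1
  simp only [TrivSqZeroExt.snd_add, TrivSqZeroExt.snd_inl, TrivSqZeroExt.snd_inr, zero_add] at h1
  rwa [hx, proj_of_mem] at h1

omit [IsLocalHom (algebraMap 𝒪 R)] in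
/-- Every `𝒪`-algebra homomorphism `R → k[ε]` has first component the residue map. -/
theorem fst_algHom_eq_zero (φ : R →ₐ[𝒪] DualNumber (ResidueField 𝒪)) {u : R}
    (hu : u ∈ maximalIdeal R) : (φ u).fst = 0 := by
  set f : R →+* ResidueField 𝒪 :=
    (TrivSqZeroExt.fstHom (ResidueField 𝒪) (ResidueField 𝒪) (ResidueField 𝒪) :
      DualNumber (ResidueField 𝒪) →+* ResidueField 𝒪).comp (φ : R →+* DualNumber (ResidueField 𝒪))
    with hf
  have hsurj : Function.Surjective f := by
    intro b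
    obtain ⟨a, rfl⟩ := residue_surjective b
    refine ⟨algebraMap 𝒪 R a, ?_⟩
    rw [hf, RingHom.comp_apply, RingHom.coe_coe, RingHom.coe_coe, φ.commutes,
      TrivSqZeroExt.algebraMap_eq_inl', ResidueField.algebraMap_eq]
    rfl
  have hmax : (RingHom.ker f).IsMaximal := RingHom.ker_isMaximal_of_surjective f hsurj
  have hker : RingHom.ker f = maximalIdeal R := IsLocalRing.eq_maximalIdeal hmax
  have : u ∈ RingHom.ker f := hker ▸ hu
  exact this

omit [IsLocalHom (algebraMap 𝒪 R)] in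
theorem algHom_eq_zero_of_mem_relSq (φ : R →ₐ[𝒪] DualNumber (ResidueField 𝒪)) {x : R}
    (hx : x ∈ relSq 𝒪 R) : φ x = 0 := by
  have hker : relSq 𝒪 R ≤ RingHom.ker (φ : R →+* DualNumber (ResidueField 𝒪)) := by
    refine sup_le ?_ ?_
    · rw [pow_two, Ideal.mul_le]
      intro u hu v hv
      rw [RingHom.mem_ker, RingHom.coe_coe, map_mul]
      apply TrivSqZeroExt.ext
      · simp [fst_algHom_eq_zero φ hu]
      · simp [fst_algHom_eq_zero φ hu, fst_algHom_eq_zero φ hv]
    · rw [Ideal.map_le_iff_le_comap]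
      intro a ha
      rw [Ideal.mem_comap, RingHom.mem_ker, RingHom.coe_coe, φ.commutes,
        TrivSqZeroExt.algebraMap_eq_inl', ResidueField.algebraMap_eq,
        (residue_eq_zero_iff a).2 ha, TrivSqZeroExt.inl_zero]
  exact hker hx

variable [IsNoetherianRing R] [Finite (ResidueField 𝒪)]

include hres in
theorem finite_quotient_relSq : Finite (R ⧸ relSq 𝒪 R) := by
  have : Finite (R ⧸ maximalIdeal R) :=
    Finite.of_equiv (ResidueField 𝒪) (resEquiv hres).toEquiv
  have h2 : Finite (R ⧸ maximalIdeal R ^ 2) :=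
    Ideal.finite_quotient_pow (IsNoetherian.noetherian _) 2
  have hle : maximalIdeal R ^ 2 ≤ relSq 𝒪 R := le_sup_left
  exact Finite.of_surjective (Ideal.Quotient.factor hle) (Ideal.Quotient.factor_surjective hle)

include hres in
/-- There are only finitely many `𝒪`-algebra homomorphisms `R → k[ε]`. -/
theorem finite_algHom_dualNumber : Finite (R →ₐ[𝒪] DualNumber (ResidueField 𝒪)) := by
  have := finite_quotient_relSq hres
  have : Finite (DualNumber (ResidueField 𝒪)) :=
    inferInstanceAs (Finite (ResidueField 𝒪 × ResidueField 𝒪))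
  refine Finite.of_injective
    (fun (φ : R →ₐ[𝒪] DualNumber (ResidueField 𝒪)) (z : R ⧸ relSq 𝒪 R) => φ z.out) ?_
  intro φ φ' h
  ext x : 1
  have key : ∀ ψ : R →ₐ[𝒪] DualNumber (ResidueField 𝒪),
      ψ x = ψ (Ideal.Quotient.mk (relSq 𝒪 R) x).out := by
    intro ψ
    rw [← sub_eq_zero, ← map_sub]
    apply algHom_eq_zero_of_mem_relSq
    rw [← Ideal.Quotient.eq, Ideal.Quotient.mk_out]
  rw [key φ, key φ']
  exact congrFun h _

include hres in
/-- A basis of the relative cotangent space lifts to generators of `𝔪_R` modulo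
`𝔪_R² + 𝔪_𝒪 R`. -/
theorem exists_generators :
    ∃ x : Fin (Module.finrank (ResidueField 𝒪) (LinearMap.ker (cbarL hres))) → R,
      (∀ i, x i ∈ maximalIdeal R) ∧
      maximalIdeal R ≤ Ideal.span (Set.range x) ⊔ relSq 𝒪 R := by
  have := finite_quotient_relSq hres
  have : Module.Finite (ResidueField 𝒪) (R ⧸ relSq 𝒪 R) := Module.Finite.of_finite
  let b := Module.finBasis (ResidueField 𝒪) (LinearMap.ker (cbarL hres))
  choose x hx using fun i => Ideal.Quotient.mk_surjective
    ((b i : LinearMap.ker (cbarL hres)) : R ⧸ relSq 𝒪 R)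
  refine ⟨x, fun i => ?_, ?_⟩
  · rw [← toK_eq_zero_iff hres, ← cbar_mk, hx]
    exact (b i).2
  · set J := Ideal.span (Set.range x) ⊔ relSq 𝒪 R with hJ
    have hbJ : ∀ i, ((b i : LinearMap.ker (cbarL hres)) : R ⧸ relSq 𝒪 R) ∈
        J.map (Ideal.Quotient.mk (relSq 𝒪 R)) := by
      intro i
      rw [← hx i]
      exact Ideal.mem_map_of_mem _ (Ideal.mem_sup_left (Ideal.subset_span ⟨i, rfl⟩))
    have hK : ∀ u : LinearMap.ker (cbarL hres), (u : R ⧸ relSq 𝒪 R) ∈
        J.map (Ideal.Quotient.mk (relSq 𝒪 R)) := by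
      intro u
      have h1 := congrArg Subtype.val (b.sum_repr u)
      rw [Submodule.coe_sum] at h1
      rw [← h1]
      refine Ideal.sum_mem _ fun i _ => ?_
      rw [Submodule.coe_smul, smul_eq_iota_mul]
      exact Ideal.mul_mem_left _ _ (hbJ i)
    intro y hy
    have hyK : Ideal.Quotient.mk (relSq 𝒪 R) y ∈ LinearMap.ker (cbarL hres) := by
      rw [LinearMap.mem_ker, cbarL_apply, cbar_mk, toK_eq_zero_iff]
      exact hy
    obtain ⟨y', hy', hyy'⟩ :=
      (Ideal.mem_map_iff_of_surjective _ Ideal.Quotient.mk_surjective).1 (hK ⟨_, hyK⟩)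
    have h2 : y - y' ∈ relSq 𝒪 R := by
      rw [← Ideal.Quotient.eq]
      exact hyy'.symm
    have : y = y' + (y - y') := by ring
    rw [this]
    exact add_mem hy' (Ideal.mem_sup_right h2)

omit [Finite (ResidueField 𝒪)] in
include hres in
/-- Padding a generating family by zeros. -/
theorem exists_surjective_of_generators [IsNoetherianRing 𝒪] [IsAdicComplete (maximalIdeal 𝒪) 𝒪]
    [IsAdicComplete (maximalIdeal R) R] {d r : ℕ} (hd : d ≤ r) (x : Fin d → R)
    (hxm : ∀ i, x i ∈ maximalIdeal R)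
    (hxgen : maximalIdeal R ≤ Ideal.span (Set.range x) ⊔ relSq 𝒪 R) :
    ∃ γ : MvPowerSeries (Fin r) 𝒪 →ₐ[𝒪] R, Function.Surjective γ := by
  let x' : Fin r → R := fun i => if h : (i : ℕ) < d then x ⟨i, h⟩ else 0
  have hx'm : ∀ i, x' i ∈ maximalIdeal R := by
    intro i
    by_cases h : (i : ℕ) < d
    · simp only [x', dif_pos h]; exact hxm _
    · simp only [x', dif_neg h]; exact zero_mem _
  have hsub : Ideal.span (Set.range x) ≤ Ideal.span (Set.range x') := by
    rw [Ideal.span_le]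
    rintro _ ⟨i, rfl⟩
    refine Ideal.subset_span ⟨Fin.castLE hd i, ?_⟩
    have h : ((Fin.castLE hd i : Fin r) : ℕ) < d := i.2
    simp only [x', dif_pos h]
    rfl
  have hgen : maximalIdeal R ≤ Ideal.span (Set.range x') ⊔
      (maximalIdeal 𝒪).map (algebraMap 𝒪 R) ⊔ maximalIdeal R ^ 2 := by
    refine hxgen.trans (sup_le (hsub.trans (le_sup_left.trans le_sup_left)) ?_)
    exact sup_le le_sup_right (le_sup_right.trans le_sup_left)
  obtain ⟨γ, -, hγ⟩ := exists_surjective_of_le_span hres x' hx'm hgen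
  exact ⟨γ, hγ⟩

include hres in
/-- **Cardinality form.** If the number of `𝒪`-algebra homomorphisms `R → k[ε]` is at most
`(#k) ^ r`, then `R` is a quotient of the power series ring in `r` variables. -/
theorem exists_surjective_of_card_le [IsNoetherianRing 𝒪] [IsAdicComplete (maximalIdeal 𝒪) 𝒪]
    [IsAdicComplete (maximalIdeal R) R] (r : ℕ)
    (hcard : Nat.card (R →ₐ[𝒪] DualNumber (ResidueField 𝒪)) ≤ Nat.card (ResidueField 𝒪) ^ r) :
    ∃ γ : MvPowerSeries (Fin r) 𝒪 →ₐ[𝒪] R, Function.Surjective γ := by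
  have := finite_quotient_relSq hres
  have : Module.Finite (ResidueField 𝒪) (R ⧸ relSq 𝒪 R) := Module.Finite.of_finite
  have hd : Module.finrank (ResidueField 𝒪) (LinearMap.ker (cbarL hres)) ≤ r := by
    have := finite_algHom_dualNumber hres
    have h1 : Nat.card (Module.Dual (ResidueField 𝒪) (LinearMap.ker (cbarL hres))) ≤
        Nat.card (R →ₐ[𝒪] DualNumber (ResidueField 𝒪)) :=
      Nat.card_le_card_of_injective _ (derHom_injective hres)
    have h2 : Nat.card (Module.Dual (ResidueField 𝒪) (LinearMap.ker (cbarL hres))) =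
        Nat.card (ResidueField 𝒪) ^
          Module.finrank (ResidueField 𝒪) (LinearMap.ker (cbarL hres)) := by
      rw [Module.natCard_eq_pow_finrank (K := ResidueField 𝒪), Subspace.dual_finrank_eq]
    have h3 := h1.trans hcard
    rw [h2] at h3
    exact (Nat.pow_le_pow_iff_right Finite.one_lt_card).1 h3
  obtain ⟨x, hxm, hxgen⟩ := exists_generators hres
  exact exists_surjective_of_generators hres hd x hxm hxgen

include hres in
/-- **Injection form.** It suffices to inject the set of `𝒪`-algebra homomorphisms `R → k[ε]`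
into a finite set with at most `(#k) ^ r` elements (e.g. a Selmer group). -/
theorem exists_surjective_of_injective [IsNoetherianRing 𝒪] [IsAdicComplete (maximalIdeal 𝒪) 𝒪]
    [IsAdicComplete (maximalIdeal R) R] (r : ℕ) {T : Type*} [Finite T]
    (f : (R →ₐ[𝒪] DualNumber (ResidueField 𝒪)) → T) (hf : Function.Injective f)
    (hT : Nat.card T ≤ Nat.card (ResidueField 𝒪) ^ r) :
    ∃ γ : MvPowerSeries (Fin r) 𝒪 →ₐ[𝒪] R, Function.Surjective γ :=
  exists_surjective_of_card_le hres r ((Nat.card_le_card_of_injective f hf).trans hT)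

end Tangent

/-- The statement in the exact shape of the ring `DQ.R` of a `GaloisRep.DeformationRingData`
over a complete discrete valuation ring with finite residue field (as in S56). -/
example {𝒪 : Type} [CommRing 𝒪] [IsDomain 𝒪] [IsDiscreteValuationRing 𝒪]
    [IsAdicComplete (maximalIdeal 𝒪) 𝒪] [Finite (ResidueField 𝒪)]
    {R : Type} [CommRing R] [IsLocalRing R] [IsNoetherianRing R]
    [IsAdicComplete (maximalIdeal R) R] [Algebra 𝒪 R] [IsLocalHom (algebraMap 𝒪 R)]
    (hres : Function.Surjective (residue R ∘ algebraMap 𝒪 R)) (r : ℕ)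
    (hcard : Nat.card (R →ₐ[𝒪] DualNumber (ResidueField 𝒪)) ≤ Nat.card (ResidueField 𝒪) ^ r) :
    ∃ γ : MvPowerSeries (Fin r) 𝒪 →ₐ[𝒪] R, Function.Surjective γ :=
  exists_surjective_of_card_le hres r hcard

end Fermat.Agent.GP.Tan
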